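/-
Program R, analytic foundation: the integral domain `Hol` of holomorphic functions on the upper
half-plane, its fraction field `Mer`, composition with Möbius transformations, evaluation and
order of vanishing.
-/
import Mathlib

set_option autoImplicit false

namespace Fermat.Agent.ProgramR

open UpperHalfPlane
open scoped Manifold MatrixGroups

/-- The ring of holomorphic functions on the upper half-plane. -/
def holRing : Subring (ℍ → ℂ) where
  carrier := {f | MDifferentiable 𝓘(ℂ) 𝓘(ℂ) f}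
  mul_mem' hf hg := hf.mul hg
  one_mem' := mdifferentiable_const
  add_mem' hf hg := hf.add hg
  zero_mem' := mdifferentiable_const
  neg_mem' hf := hf.neg

/-- Holomorphic functions on `ℍ`. -/
abbrev Hol : Type := ↥holRing

lemma Hol.mdifferentiable (f : Hol) : MDifferentiable 𝓘(ℂ) 𝓘(ℂ) (f : ℍ → ℂ) := f.2

instance : Nontrivial Hol := by
  refine ⟨⟨0, 1, fun h => ?_⟩⟩
  have := congrFun (congrArg Subtype.val h) I
  simp at this

instance : NoZeroDivisors Hol where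
  eq_zero_or_eq_zero_of_mul_eq_zero := by
    intro f g hfg
    have h := (UpperHalfPlane.mul_eq_zero_iff f.2 g.2).1 (congrArg Subtype.val hfg)
    rcases h with h | h
    · exact Or.inl (Subtype.ext h)
    · exact Or.inr (Subtype.ext h)

instance : IsDomain Hol := NoZeroDivisors.to_isDomain _

/-- Constant functions. -/
def Hol.const : ℂ →+* Hol where
  toFun c := ⟨fun _ => c, mdifferentiable_const⟩
  map_one' := rfl
  map_mul' _ _ := rfl
  map_zero' := rfl
  map_add' _ _ := rfl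

instance : Algebra ℂ Hol := Hol.const.toAlgebra

lemma Hol.algebraMap_apply (c : ℂ) (z : ℍ) : (algebraMap ℂ Hol c : ℍ → ℂ) z = c := rfl

/-- Evaluation at a point. -/
def Hol.evalAt (z : ℍ) : Hol →+* ℂ where
  toFun f := (f : ℍ → ℂ) z
  map_one' := rfl
  map_mul' _ _ := rfl
  map_zero' := rfl
  map_add' _ _ := rfl

@[simp] lemma Hol.evalAt_apply (z : ℍ) (f : Hol) : Hol.evalAt z f = (f : ℍ → ℂ) z := rfl

lemma Hol.ext {f g : Hol} (h : ∀ z, (f : ℍ → ℂ) z = (g : ℍ → ℂ) z) : f = g :=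
  Subtype.ext (funext h)

/-- Composition with the Möbius transformation attached to `g ∈ GL(2, ℝ)` with `det g > 0`. -/
noncomputable def Hol.comp (g : GL (Fin 2) ℝ) (hg : 0 < g.det.val) : Hol →+* Hol where
  toFun f := ⟨fun z => (f : ℍ → ℂ) (g • z), f.2.comp (mdifferentiable_smul hg)⟩
  map_one' := rfl
  map_mul' _ _ := rfl
  map_zero' := rfl
  map_add' _ _ := rfl

@[simp] lemma Hol.comp_apply (g : GL (Fin 2) ℝ) (hg : 0 < g.det.val) (f : Hol) (z : ℍ) :
    (Hol.comp g hg f : ℍ → ℂ) z = (f : ℍ → ℂ) (g • z) := rfl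

lemma Hol.comp_injective (g : GL (Fin 2) ℝ) (hg : 0 < g.det.val) :
    Function.Injective (Hol.comp g hg) := by
  intro f f' h
  apply Hol.ext
  intro z
  have := congrArg (fun F : Hol => (F : ℍ → ℂ) (g⁻¹ • z)) h
  simpa using this

lemma det_pos_of_SL (γ : SL(2, ℤ)) : 0 < ((γ : GL (Fin 2) ℝ)).det.val := by
  simp

/-- Composition with `γ ∈ SL(2, ℤ)`: `f ↦ f ∘ γ`. -/
noncomputable def Hol.slComp (γ : SL(2, ℤ)) : Hol →+* Hol := Hol.comp (γ : GL (Fin 2) ℝ) (det_pos_of_SL γ)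

@[simp] lemma Hol.slComp_apply (γ : SL(2, ℤ)) (f : Hol) (z : ℍ) :
    (Hol.slComp γ f : ℍ → ℂ) z = (f : ℍ → ℂ) (γ • z) := rfl

lemma Hol.slComp_one (f : Hol) : Hol.slComp 1 f = f := by
  apply Hol.ext; intro z; simp

lemma Hol.slComp_mul (γ γ' : SL(2, ℤ)) (f : Hol) :
    Hol.slComp (γ * γ') f = Hol.slComp γ' (Hol.slComp γ f) := by
  apply Hol.ext; intro z; simp [mul_smul]

lemma Hol.slComp_const (γ : SL(2, ℤ)) (c : ℂ) :
    Hol.slComp γ (algebraMap ℂ Hol c) = algebraMap ℂ Hol c := rfl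

/-- The order of vanishing of a holomorphic function at a point of `ℍ`. -/
noncomputable def Hol.ordAt (z : ℍ) (f : Hol) : ℕ∞ :=
  analyticOrderAt ((f : ℍ → ℂ) ∘ ofComplex) (z : ℂ)

lemma Hol.analyticAt (f : Hol) (z : ℍ) : AnalyticAt ℂ ((f : ℍ → ℂ) ∘ ofComplex) (z : ℂ) :=
  ((UpperHalfPlane.mdifferentiable_iff.1 f.2).analyticOnNhd isOpen_upperHalfPlaneSet) z z.im_pos

lemma Hol.ordAt_mul (z : ℍ) (f g : Hol) : Hol.ordAt z (f * g) = Hol.ordAt z f + Hol.ordAt z g := by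
  unfold Hol.ordAt
  have : ((f * g : Hol) : ℍ → ℂ) ∘ ofComplex =
      (((f : ℍ → ℂ) ∘ ofComplex) * ((g : ℍ → ℂ) ∘ ofComplex)) := rfl
  rw [this]
  exact analyticOrderAt_mul (f.analyticAt z) (g.analyticAt z)

lemma Hol.ordAt_eq_top_iff (z : ℍ) (f : Hol) : Hol.ordAt z f = ⊤ ↔ f = 0 := by
  unfold Hol.ordAt
  rw [analyticOrderAt_eq_top]
  constructor
  · intro h
    apply Subtype.ext
    apply UpperHalfPlane.eq_zero_of_frequently f.2 (τ := z)
    have h1 : ∀ᶠ w in nhds (z : ℂ), ((f : ℍ → ℂ) ∘ ofComplex) w = 0 := h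
    rw [← isOpenEmbedding_coe.map_nhds_eq, Filter.eventually_map] at h1
    have h2 : ∀ᶠ w in nhds z, (f : ℍ → ℂ) w = 0 := by
      filter_upwards [h1] with w hw
      simpa using hw
    exact (h2.filter_mono nhdsWithin_le_nhds).frequently
  · rintro rfl
    exact Filter.Eventually.of_forall (fun _ => rfl)

lemma Hol.ordAt_eq_zero_iff (z : ℍ) (f : Hol) : Hol.ordAt z f = 0 ↔ (f : ℍ → ℂ) z ≠ 0 := by
  unfold Hol.ordAt
  rw [(f.analyticAt z).analyticOrderAt_eq_zero]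
  simp

lemma Hol.ordAt_const (z : ℍ) {c : ℂ} (hc : c ≠ 0) : Hol.ordAt z (algebraMap ℂ Hol c) = 0 := by
  rw [Hol.ordAt_eq_zero_iff]
  exact hc

lemma Hol.ordAt_comp (g : GL (Fin 2) ℝ) (hg : 0 < g.det.val) (f : Hol) (z : ℍ) :
    Hol.ordAt z (Hol.comp g hg f) = Hol.ordAt (g • z) f := by
  unfold Hol.ordAt
  have h1 : ((Hol.comp g hg f : Hol) : ℍ → ℂ) ∘ ofComplex =
      ((f : ℍ → ℂ) ∘ ofComplex) ∘ (fun w : ℂ => ((g • ofComplex w : ℍ) : ℂ)) := by
    ext w
    simp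
  rw [h1, analyticOrderAt_comp_of_deriv_ne_zero (z.analyticAt_smul hg) (z.deriv_smul_ne_zero hg)]
  simp

lemma Hol.ordAt_slComp (γ : SL(2, ℤ)) (f : Hol) (z : ℍ) :
    Hol.ordAt z (Hol.slComp γ f) = Hol.ordAt (γ • z) f :=
  Hol.ordAt_comp _ _ f z

/-- The fraction field of `Hol`: "meromorphic functions" on `ℍ`. -/
abbrev Mer : Type := FractionRing Hol

end Fermat.Agent.ProgramR
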