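/-
Program R, analytic package, lemma X2 (elliptic multiplier).
If `f` is holomorphic on `ℍ`, invariant under `γ ∈ SL(2,ℤ)` fixing `z`, and `f - f z` has order
`m` at `z`, then `(cz+d)^(2m) = 1`.  Corollaries: `2 ∣ m` if `γ² = -1`, `3 ∣ m` if `γ³ = ±1`,
`γ ≠ ±1`.
-/
import Fermat.Agent.ProgramR.Analytic.HolRing

set_option autoImplicit false

noncomputable section

namespace Fermat.Agent.ProgramR

open UpperHalfPlane Filter Topology ModularGroup
open scoped Manifold MatrixGroups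

/-- The Möbius difference identity: `γw − γz = (w − z) / ((cw+d)(cz+d))`. -/
lemma coe_smul_sub_coe_smul (γ : SL(2, ℤ)) (w z : ℍ) :
    ((γ • w : ℍ) : ℂ) - ((γ • z : ℍ) : ℂ) = ((w : ℂ) - z) / (denom γ w * denom γ z) := by
  have hw : denom γ w ≠ 0 := denom_ne_zero _ _
  have hz : denom γ z ≠ 0 := denom_ne_zero _ _
  have hdet : (γ 0 0 : ℂ) * γ 1 1 - γ 0 1 * γ 1 0 = 1 := by
    have := γ.det_coe
    rw [Matrix.det_fin_two] at this
    exact_mod_cast this
  rw [coe_specialLinearGroup_apply, coe_specialLinearGroup_apply]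
  have hw' : ((γ 1 0 : ℂ) * w + γ 1 1) ≠ 0 := by simpa [denom_apply] using hw
  have hz' : ((γ 1 0 : ℂ) * z + γ 1 1) ≠ 0 := by simpa [denom_apply] using hz
  simp only [algebraMap_int_eq, Int.coe_castRingHom, Complex.ofReal_intCast, denom_apply]
  rw [div_sub_div _ _ hw' hz', div_eq_div_iff (mul_ne_zero hw' hz') (mul_ne_zero hw' hz')]
  linear_combination ((w : ℂ) - z) * ((γ 1 0 : ℂ) * w + γ 1 1) * ((γ 1 0 : ℂ) * z + γ 1 1) * hdet


/-- **Elliptic multiplier.**  If `f` is holomorphic on `ℍ` and invariant under `γ ∈ SL(2,ℤ)`, `γ` fixes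
`z`, and `f - f z` vanishes to order exactly `m` at `z`, then `(cz+d)^(2m) = 1`. -/
theorem Hol.denom_pow_eq_one_of_fixed (f : Hol) (γ : SL(2, ℤ)) (z : ℍ) (hz : γ • z = z)
    (hf : Hol.slComp γ f = f) {m : ℕ}
    (hm : Hol.ordAt z (f - algebraMap ℂ Hol ((f : ℍ → ℂ) z)) = m) :
    (denom γ z) ^ (2 * m) = 1 := by
  set c : ℂ := (f : ℍ → ℂ) z with hc
  set F : ℂ → ℂ := ((f - algebraMap ℂ Hol c : Hol) : ℍ → ℂ) ∘ ofComplex with hF
  have hFan : AnalyticAt ℂ F (z : ℂ) := Hol.analyticAt _ z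
  obtain ⟨G, hGan, hGz, hFG⟩ := (hFan.analyticOrderAt_eq_natCast).mp hm
  -- the Möbius map near `z`
  set φ : ℂ → ℂ := fun w ↦ ((γ • ofComplex w : ℍ) : ℂ) with hφ
  have hdet : (γ : GL (Fin 2) ℝ).val.det = 1 := by
    rw [← Matrix.GeneralLinearGroup.val_det_apply]; simp
  have hφan : AnalyticAt ℂ φ (z : ℂ) :=
    z.analyticAt_smul (g := (γ : GL (Fin 2) ℝ)) (by rw [hdet]; exact one_pos)
  have hφz : φ z = z := by
    simp only [hφ, ofComplex_apply]
    exact congr_arg _ hz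
  have hφcont : Tendsto φ (𝓝 (z : ℂ)) (𝓝 (z : ℂ)) := by
    have := hφan.continuousAt.tendsto
    rwa [hφz] at this
  -- `F ∘ φ = F` near `z`
  have hinv : ∀ᶠ w in 𝓝 (z : ℂ), F (φ w) = F w := by
    filter_upwards [isOpen_upperHalfPlaneSet.mem_nhds z.im_pos] with w hw
    have h1 : ofComplex (φ w) = γ • ofComplex w := by
      simp only [hφ]; exact ofComplex_apply _
    have h2 := congr_arg (fun g : Hol ↦ (g : ℍ → ℂ) (ofComplex w)) hf
    simp only [Hol.slComp_apply] at h2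
    simp only [hF, Function.comp_apply, h1]
    change (f : ℍ → ℂ) (γ • ofComplex w) - c = (f : ℍ → ℂ) (ofComplex w) - c
    rw [h2]
  have hFGφ : ∀ᶠ w in 𝓝 (z : ℂ), F (φ w) = (φ w - z) ^ m • G (φ w) := hφcont.eventually hFG
  -- the difference identity
  have hdiff : ∀ᶠ w in 𝓝 (z : ℂ), φ w - z =
      (w - z) / (denom γ (ofComplex w) * denom γ z) := by
    filter_upwards [isOpen_upperHalfPlaneSet.mem_nhds z.im_pos] with w hw
    have := coe_smul_sub_coe_smul γ (ofComplex w) z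
    rw [hz, ofComplex_apply_of_im_pos hw] at this
    simp only [hφ, ofComplex_apply_of_im_pos hw]
    exact this
  -- the key relation on a punctured neighbourhood
  have hkey : ∀ᶠ w in 𝓝[≠] (z : ℂ),
      G (φ w) = (denom γ (ofComplex w) * denom γ z) ^ m * G w := by
    have hall := (hinv.and (hFGφ.and (hdiff.and hFG))).filter_mono
      (nhdsWithin_le_nhds (s := {(z : ℂ)}ᶜ))
    filter_upwards [hall, self_mem_nhdsWithin] with w ⟨h1, h2, h3, h4⟩ hw
    have hwz : w - (z : ℂ) ≠ 0 := sub_ne_zero.mpr hw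
    have hD : denom γ (ofComplex w) * denom γ z ≠ 0 :=
      mul_ne_zero (denom_ne_zero _ _) (denom_ne_zero _ _)
    rw [h2, h3, h4, div_pow, smul_eq_mul, smul_eq_mul] at h1
    have hpow : (w - (z : ℂ)) ^ m ≠ 0 := pow_ne_zero _ hwz
    have hDpow : (denom γ (ofComplex w) * denom γ z) ^ m ≠ 0 := pow_ne_zero _ hD
    rw [div_mul_eq_mul_div, div_eq_iff hDpow] at h1
    apply mul_left_cancel₀ hpow
    linear_combination h1
  -- pass to the limit
  have hden_cont : Tendsto (fun w : ℂ ↦ denom γ (ofComplex w)) (𝓝 (z : ℂ)) (𝓝 (denom γ z)) := by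
    have : ∀ᶠ w in 𝓝 (z : ℂ), denom γ (ofComplex w) = (γ 1 0 : ℂ) * w + γ 1 1 := by
      filter_upwards [isOpen_upperHalfPlaneSet.mem_nhds z.im_pos] with w hw
      rw [ofComplex_apply_of_im_pos hw, denom_apply]
    refine Tendsto.congr' (EventuallyEq.symm this) ?_
    have : Continuous fun w : ℂ ↦ (γ 1 0 : ℂ) * w + γ 1 1 := by fun_prop
    have h := this.tendsto (z : ℂ)
    rwa [show ((γ 1 0 : ℂ) * (z : ℂ) + γ 1 1) = denom γ z from (denom_apply γ z).symm] at h
  have hlim1 : Tendsto (fun w ↦ G (φ w)) (𝓝[≠] (z : ℂ)) (𝓝 (G z)) :=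
    ((hGan.continuousAt.tendsto.comp hφcont)).mono_left nhdsWithin_le_nhds
  have hlim2 : Tendsto (fun w ↦ (denom γ (ofComplex w) * denom γ z) ^ m * G w) (𝓝[≠] (z : ℂ))
      (𝓝 ((denom γ z * denom γ z) ^ m * G z)) :=
    (((hden_cont.mul_const _).pow m).mul hGan.continuousAt.tendsto).mono_left nhdsWithin_le_nhds
  have heq := tendsto_nhds_unique_of_eventuallyEq hlim1 hlim2 hkey
  have h1 : (denom γ z * denom γ z) ^ m = 1 := by
    have : (denom γ z * denom γ z) ^ m * G z = 1 * G z := by rw [one_mul]; exact heq.symm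
    exact mul_right_cancel₀ hGz this
  rw [pow_mul, pow_two]
  exact h1


/-- The cocycle relation for `SL(2,ℤ)`. -/
lemma denom_mul_SL (γ γ' : SL(2, ℤ)) (z : ℍ) :
    denom (γ * γ' : SL(2, ℤ)) z = denom γ ((γ' • z : ℍ) : ℂ) * denom γ' z := by
  have hz : denom γ' z ≠ 0 := denom_ne_zero _ _
  rw [denom_apply, denom_apply, denom_apply, coe_specialLinearGroup_apply]
  have hz' : ((γ' 1 0 : ℂ) * z + γ' 1 1) ≠ 0 := by simpa [denom_apply] using hz
  simp only [algebraMap_int_eq, Int.coe_castRingHom, Complex.ofReal_intCast,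
    Matrix.SpecialLinearGroup.coe_mul, Matrix.mul_apply, Fin.sum_univ_two]
  rw [add_mul, mul_assoc, div_mul_cancel₀ _ hz']
  push_cast
  ring

lemma denom_one_SL (z : ℍ) : denom (1 : SL(2, ℤ)) z = 1 := by
  rw [denom_apply]; simp

lemma denom_neg_one_SL (z : ℍ) : denom (-1 : SL(2, ℤ)) z = -1 := by
  rw [denom_apply]; simp

/-- For `γ` fixing `z`, `k ↦ denom (γ^k) z` is multiplicative. -/
lemma denom_pow_of_fixed {γ : SL(2, ℤ)} {z : ℍ} (hz : γ • z = z) (k : ℕ) :
    denom (γ ^ k : SL(2, ℤ)) z = denom γ z ^ k := by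
  induction k with
  | zero => simp
  | succ k ih =>
    have hk : (γ ^ k : SL(2, ℤ)) • z = z := by
      clear ih
      induction k with
      | zero => simp
      | succ k ih => rw [pow_succ, mul_smul, hz, ih]
    rw [pow_succ, denom_mul_SL, hz, ih, pow_succ]

/-- If `γ` fixes `z` and `(cz+d)² = 1` then `γ = ±1`. -/
lemma eq_one_or_neg_one_of_denom_sq {γ : SL(2, ℤ)} {z : ℍ} (hγ : γ • z = z)
    (e2 : denom γ z ^ 2 = 1) : γ = 1 ∨ γ = -1 := by
  have hden : denom γ z = (γ 1 0 : ℂ) * z + γ 1 1 := by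
    simp [denom_apply]
  have hc : γ 1 0 = 0 := by
    have him : (denom γ z).im = 0 := by
      rcases sq_eq_sq_iff_eq_or_eq_neg.mp (show denom γ z ^ 2 = 1 ^ 2 by rw [e2, one_pow])
        with h | h <;> rw [h] <;> simp
    rw [hden] at him
    simp only [Complex.add_im, Complex.mul_im, Complex.intCast_re, Complex.intCast_im, zero_mul,
      add_zero, UpperHalfPlane.coe_im] at him
    have : (γ 1 0 : ℝ) = 0 := by
      rcases mul_eq_zero.mp him with h | h
      · exact h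
      · exact absurd h z.im_ne_zero
    exact_mod_cast this
  have had := γ.det_coe
  rw [Matrix.det_fin_two, hc, mul_zero, sub_zero] at had
  have hfix : ((γ 0 0 : ℂ) * z + γ 0 1) / ((γ 1 0 : ℂ) * z + γ 1 1) = z := by
    have := congr_arg (fun w : ℍ ↦ (w : ℂ)) hγ
    simp only [coe_specialLinearGroup_apply] at this
    simpa using this
  have hc' : (γ 1 0 : ℂ) = 0 := by exact_mod_cast hc
  have hd : (γ 1 1 : ℂ) ≠ 0 := by
    intro h
    have : γ 1 1 = 0 := by exact_mod_cast h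
    rw [this, mul_zero] at had
    exact zero_ne_one had
  rw [hc', zero_mul, zero_add, div_eq_iff hd] at hfix
  rcases Int.eq_one_or_neg_one_of_mul_eq_one' had with ⟨ha, hd1⟩ | ⟨ha, hd1⟩
  · left
    rw [ha, hd1] at hfix
    have hb : (γ 0 1 : ℂ) = 0 := by
      push_cast at hfix; linear_combination hfix
    have hb' : γ 0 1 = 0 := by exact_mod_cast hb
    ext i j
    fin_cases i <;> fin_cases j <;> simp [ha, hd1, hb', hc]
  · right
    rw [ha, hd1] at hfix
    have hb : (γ 0 1 : ℂ) = 0 := by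
      push_cast at hfix; linear_combination hfix
    have hb' : γ 0 1 = 0 := by exact_mod_cast hb
    ext i j
    fin_cases i <;> fin_cases j <;> simp [ha, hd1, hb', hc]


/-- **Order 2 elliptic points.**  If `γ² = -1` fixes `z` and `f` is `γ`-invariant, then the order
of `f - f z` at `z` is even. -/
theorem Hol.two_dvd_of_fixed (f : Hol) (γ : SL(2, ℤ)) (z : ℍ) (hz : γ • z = z)
    (hγ : γ ^ 2 = -1) (hf : Hol.slComp γ f = f) {m : ℕ}
    (hm : Hol.ordAt z (f - algebraMap ℂ Hol ((f : ℍ → ℂ) z)) = m) : 2 ∣ m := by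
  have h1 := Hol.denom_pow_eq_one_of_fixed f γ z hz hf hm
  have h2 : denom γ z ^ 2 = -1 := by
    rw [← denom_pow_of_fixed hz, hγ, denom_neg_one_SL]
  rw [pow_mul, h2] at h1
  rcases Nat.even_or_odd m with he | ho
  · exact he.two_dvd
  · rw [ho.neg_one_pow] at h1
    norm_num at h1

/-- **Order 3 elliptic points.**  If `γ³ = ±1`, `γ ≠ ±1`, `γ` fixes `z` and `f` is `γ`-invariant,
then the order of `f - f z` at `z` is divisible by `3`. -/
theorem Hol.three_dvd_of_fixed (f : Hol) (γ : SL(2, ℤ)) (z : ℍ) (hz : γ • z = z)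
    (hγ : γ ^ 3 = 1 ∨ γ ^ 3 = -1) (hγ1 : γ ≠ 1) (hγ2 : γ ≠ -1) (hf : Hol.slComp γ f = f) {m : ℕ}
    (hm : Hol.ordAt z (f - algebraMap ℂ Hol ((f : ℍ → ℂ) z)) = m) : 3 ∣ m := by
  have h1 := Hol.denom_pow_eq_one_of_fixed f γ z hz hf hm
  set δ : ℂ := denom γ z ^ 2 with hδ
  have hδ3 : δ ^ 3 = 1 := by
    have h3 : denom γ z ^ 3 = 1 ∨ denom γ z ^ 3 = -1 := by
      rcases hγ with h | h
      · left; rw [← denom_pow_of_fixed hz, h, denom_one_SL]
      · right; rw [← denom_pow_of_fixed hz, h, denom_neg_one_SL]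
    have : δ ^ 3 = (denom γ z ^ 3) ^ 2 := by rw [hδ]; ring
    rw [this]
    rcases h3 with h | h <;> rw [h] <;> norm_num
  have hδ1 : δ ≠ 1 := by
    intro h
    rcases eq_one_or_neg_one_of_denom_sq hz h with h' | h'
    · exact hγ1 h'
    · exact hγ2 h'
  have hδm : δ ^ m = 1 := by rw [hδ, ← pow_mul]; exact h1
  have hord : orderOf δ = 3 := orderOf_eq_prime hδ3 hδ1
  rw [← hord]
  exact orderOf_dvd_of_pow_eq_one hδm

end Fermat.Agent.ProgramR
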