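/-
Program R, R5 core (pure algebra, imports Mathlib only).

`CenterData R S D ι`: a finite family of ring homs `σ i : S → D` over a fixed injective `φ : R → D`
together with an "order function" `w : D → ℕ∞` (additive, `w x = ⊤ ↔ x = 0`) whose positive part is
a prime ideal `𝔮` of `D`.  For `R ⊆ S` a finite extension of Dedekind domains of rank `#ι`
(perfect fraction field) and `base = φ⁻¹ 𝔮 ≠ ⊥`:

* `CenterData.center i = (σ i)⁻¹ 𝔮` is a maximal ideal of `S` over `base`;
* `CenterData.w_σ_mul_ramificationIdx`: `w (σ i s) * e(P) = v_P(s) * w (φ π)`, `P = center i`,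
  `π` a uniformizer of `base`;
* `CenterData.card_center_eq`: `#{i | center i = P} = e(P) * f(P)`;
* `intNorm_eq_prod_of_card_eq`: `φ (N_{S/R} s) = ∏ i, σ i s`.
-/
import Mathlib

set_option autoImplicit false
open Module Ideal

namespace Fermat.Agent.ProgramR
section Uniformizer

variable {S : Type*} [CommRing S] [IsDedekindDomain S]

/-- In a Dedekind domain, if `ϖ ∈ P \ P²` and `s ∈ P^m \ P^(m+1)` then `t * s = a * ϖ^m` for some
`t, a ∉ P`. -/
lemma exists_mul_eq_mul_pow_of_mem_pow (P : Ideal S) [P.IsPrime] {ϖ : S} (hϖ : ϖ ∈ P)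
    (hϖ2 : ϖ ∉ P ^ 2) {m : ℕ} {s : S} (hs : s ∈ P ^ m) (hs' : s ∉ P ^ (m + 1)) :
    ∃ t a : S, t ∉ P ∧ a ∉ P ∧ t * s = a * ϖ ^ m := by
  have hdvd : P ∣ span {ϖ} := Ideal.dvd_iff_le.2 ((Ideal.span_singleton_le_iff_mem P).2 hϖ)
  obtain ⟨𝔟, h𝔟⟩ := hdvd
  have h𝔟P : ¬ 𝔟 ≤ P := by
    intro hle
    apply hϖ2
    have : span {ϖ} ≤ P ^ 2 := by
      rw [h𝔟, pow_two]
      exact Ideal.mul_mono_right hle
    exact this (Ideal.mem_span_singleton_self ϖ)
  obtain ⟨t0, ht0, ht0P⟩ := SetLike.not_le_iff_exists.1 h𝔟P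
  have htP : t0 ^ m ∉ P := fun h => ht0P (Ideal.IsPrime.mem_of_pow_mem inferInstance m h)
  have hmem : t0 ^ m * s ∈ span {ϖ ^ m} := by
    rw [← Ideal.span_singleton_pow, h𝔟, mul_pow, mul_comm]
    exact Ideal.mul_mem_mul (Ideal.pow_mem_pow ht0 m) hs
  obtain ⟨a, ha⟩ := Ideal.mem_span_singleton'.1 hmem
  refine ⟨t0 ^ m, a, htP, ?_, ha.symm⟩
  intro haP
  have h1 : t0 ^ m * s ∈ P ^ (m + 1) := by
    rw [← ha, pow_succ']
    exact Ideal.mul_mem_mul haP (Ideal.pow_mem_pow hϖ m)
  rcases Ideal.IsPrime.mul_mem_pow P h1 with h | h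
  · exact htP h
  · exact hs' h

end Uniformizer

section FieldNorm

variable {K L Ω ι : Type*} [Field K] [Field L] [Field Ω] [Algebra K L] [Algebra K Ω]
  [FiniteDimensional K L] [Algebra.IsSeparable K L] [IsAlgClosed Ω] [Fintype ι]

lemma norm_eq_prod_of_card_eq (ψ : ι → (L →ₐ[K] Ω)) (hψ : Function.Injective ψ)
    (hcard : Fintype.card ι = finrank K L) (x : L) :
    algebraMap K Ω (Algebra.norm K x) = ∏ i, ψ i x := by
  classical
  have hbij : Function.Bijective ψ := by
    rw [Fintype.bijective_iff_injective_and_card]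
    exact ⟨hψ, by rw [hcard, AlgHom.card]⟩
  rw [Algebra.norm_eq_prod_embeddings K Ω x]
  exact (Fintype.prod_bijective ψ hbij _ _ (fun _ => rfl)).symm

end FieldNorm

section RingNorm

attribute [local instance] FractionRing.liftAlgebra

variable {R S D ι : Type*} [CommRing R] [IsDomain R] [IsIntegrallyClosed R]
  [CommRing S] [IsDomain S] [IsIntegrallyClosed S] [Algebra R S] [Module.Finite R S]
  [Module.IsTorsionFree R S] [PerfectField (FractionRing R)]
  [CommRing D] [IsDomain D] [Fintype ι]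

lemma ringHom_injective_of_comp (φ : R →+* D) (hφ : Function.Injective φ) (τ : S →+* D)
    (hτ : ∀ r, τ (algebraMap R S r) = φ r) : Function.Injective τ := by
  rw [RingHom.injective_iff_ker_eq_bot]
  apply Ideal.eq_bot_of_comap_eq_bot (R := R)
  rw [eq_bot_iff]
  intro r hr
  rw [Ideal.mem_comap, RingHom.mem_ker, hτ] at hr
  rw [Ideal.mem_bot]
  exact hφ (by rw [hr, map_zero])

theorem intNorm_eq_prod_of_card_eq (φ : R →+* D) (hφ : Function.Injective φ)
    (σ : ι → S →+* D) (hσ : Function.Injective σ)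
    (hσφ : ∀ i r, σ i (algebraMap R S r) = φ r)
    (hcard : Fintype.card ι = finrank R S) (s : S) :
    φ (Algebra.intNorm R S s) = ∏ i, σ i s := by
  classical
  let K := FractionRing R
  let L := FractionRing S
  let M := FractionRing D
  let Ω := AlgebraicClosure M
  let ρ : D →+* Ω := (algebraMap M Ω).comp (algebraMap D M)
  have hρ : Function.Injective ρ :=
    (algebraMap M Ω).injective.comp (IsFractionRing.injective D M)
  have hρφ : Function.Injective (ρ.comp φ) := hρ.comp hφ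
  letI : Algebra K Ω := (IsFractionRing.lift hρφ).toAlgebra
  have hσinj : ∀ i, Function.Injective (ρ.comp (σ i)) := fun i =>
    hρ.comp (ringHom_injective_of_comp φ hφ (σ i) (hσφ i))
  have hKΩ : ∀ r : R, algebraMap K Ω (algebraMap R K r) = ρ (φ r) := fun r =>
    IsFractionRing.lift_algebraMap hρφ r
  let ψ : ι → (L →ₐ[K] Ω) := fun i =>
    { toRingHom := IsFractionRing.lift (hσinj i)
      commutes' := by
        intro k
        have h : (IsFractionRing.lift (hσinj i)).comp (algebraMap K L) = algebraMap K Ω := by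
          apply IsLocalization.ringHom_ext (nonZeroDivisors R)
          ext r
          simp only [RingHom.coe_comp, Function.comp_apply]
          rw [hKΩ, ← IsScalarTower.algebraMap_apply R K L, IsScalarTower.algebraMap_apply R S L,
            IsFractionRing.lift_algebraMap]
          simp [hσφ]
        exact congrArg (fun f => f k) h }
  have hψ_apply : ∀ i (s : S), ψ i (algebraMap S L s) = ρ (σ i s) := fun i s =>
    IsFractionRing.lift_algebraMap (hσinj i) s
  have hψ : Function.Injective ψ := by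
    intro i j hij
    apply hσ
    ext s
    apply hρ
    rw [← hψ_apply, ← hψ_apply, hij]
  have hfin : FiniteDimensional K L := Module.Finite.of_isLocalization R S (nonZeroDivisors R)
  have hcard' : Fintype.card ι = finrank K L := by
    rw [hcard, IsFractionRing.finrank_eq R K S L]
  have key := norm_eq_prod_of_card_eq ψ hψ hcard' (algebraMap S L s)
  apply hρ
  rw [map_prod, ← hKΩ, Algebra.algebraMap_intNorm_fractionRing, key]
  exact Finset.prod_congr rfl (fun i _ => hψ_apply i s)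

end RingNorm

section RelNormCoprime

variable {R S : Type*} [CommRing R] [IsDedekindDomain R] [CommRing S] [IsDedekindDomain S]
  [Algebra R S] [Module.Finite R S] [Module.IsTorsionFree R S] [PerfectField (FractionRing R)]

lemma relNorm_not_le_of_forall_not_le (p : Ideal R) [p.IsMaximal] (𝔞 : Ideal S)
    (h : ∀ Q : Ideal S, Q.IsPrime → Q.comap (algebraMap R S) = p → ¬ 𝔞 ≤ Q) :
    ¬ Ideal.relNorm R 𝔞 ≤ p := by
  induction 𝔞 using UniqueFactorizationMonoid.induction_on_prime with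
  | h₁ =>
    exfalso
    obtain ⟨Q, hQ1, hQ2⟩ := Ideal.exists_ideal_over_maximal_of_isIntegral (S := S) p
      (by
        have : Function.Injective (algebraMap R S) := FaithfulSMul.algebraMap_injective R S
        rw [(RingHom.injective_iff_ker_eq_bot _).1 this]; exact bot_le)
    exact h Q hQ1.isPrime hQ2 (by rw [Ideal.zero_eq_bot]; exact bot_le)
  | h₂ x hx =>
    rw [Ideal.isUnit_iff] at hx
    rw [hx, Ideal.relNorm_top]
    intro hle
    exact (IsMaximal.ne_top inferInstance) (top_le_iff.1 hle)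
  | h₃ 𝔞' Q h𝔞' hQ IH =>
    intro hle
    rw [map_mul] at hle
    have hQprime : Q.IsPrime := Ideal.isPrime_of_prime hQ
    have hQ0 : Q ≠ ⊥ := hQ.ne_zero
    rcases (Ideal.IsPrime.mul_le inferInstance).1 hle with h1 | h1
    · have hQmax : Q.IsMaximal := hQprime.isMaximal hQ0
      have hqmax : (Q.under R).IsMaximal := Ideal.IsMaximal.under R Q
      have hlies : Q.LiesOver (Q.under R) := ⟨rfl⟩
      rw [Ideal.relNorm_eq_pow_of_isMaximal Q (Q.under R)] at h1
      have h2 : Q.under R ≤ p := Ideal.IsPrime.le_of_pow_le h1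
      have h3 : Q.under R = p := hqmax.eq_of_le (IsMaximal.ne_top inferInstance) h2
      exact h Q hQprime h3 Ideal.mul_le_left
    · refine IH (fun Q' hQ' hQ'p hle' => h Q' hQ' hQ'p ?_) h1
      exact Ideal.mul_le_right.trans hle'

end RelNormCoprime

section Ramification

variable {R S : Type*} [CommRing R] [IsDedekindDomain R] [CommRing S] [IsDedekindDomain S]
  [Algebra R S]

lemma algebraMap_mem_pow_iff_map_le {p : Ideal R} [p.IsPrime] {π : R} (hπ : π ∈ p)
    (hπ2 : π ∉ p ^ 2) (P : Ideal S) [P.IsPrime] (hP : P.comap (algebraMap R S) = p) (m : ℕ) :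
    algebraMap R S π ∈ P ^ m ↔ p.map (algebraMap R S) ≤ P ^ m := by
  constructor
  · intro hm
    have hdvd : p ∣ span {π} := Ideal.dvd_iff_le.2 ((Ideal.span_singleton_le_iff_mem p).2 hπ)
    obtain ⟨𝔟, h𝔟⟩ := hdvd
    have h𝔟p : ¬ 𝔟 ≤ p := by
      intro hle
      apply hπ2
      have : span {π} ≤ p ^ 2 := by
        rw [h𝔟, pow_two]
        exact Ideal.mul_mono_right hle
      exact this (Ideal.mem_span_singleton_self π)
    obtain ⟨t0, ht0, ht0p⟩ := SetLike.not_le_iff_exists.1 h𝔟p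
    have ht0P : algebraMap R S t0 ∉ P := by
      intro h
      apply ht0p
      rw [← hP]
      exact h
    rw [Ideal.map_le_iff_le_comap]
    intro x hx
    rw [Ideal.mem_comap]
    have h1 : t0 * x ∈ span {π} := by
      rw [h𝔟, mul_comm]
      exact Ideal.mul_mem_mul ht0 hx
    obtain ⟨c, hc⟩ := Ideal.mem_span_singleton'.1 h1
    have h2 : algebraMap R S t0 * algebraMap R S x ∈ P ^ m := by
      rw [← map_mul, ← hc, map_mul]
      exact Ideal.mul_mem_left _ _ hm
    rcases Ideal.IsPrime.mul_mem_pow P h2 with h | h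
    · exact absurd h ht0P
    · exact h
  · intro hle
    exact hle (Ideal.mem_map_of_mem _ hπ)

variable [Module.IsTorsionFree R S]

lemma algebraMap_mem_pow_ramificationIdx {p : Ideal R} [p.IsPrime] (hp0 : p ≠ ⊥) {π : R}
    (hπ : π ∈ p) (hπ2 : π ∉ p ^ 2) (P : Ideal S) [P.IsPrime]
    (hP : P.comap (algebraMap R S) = p) :
    algebraMap R S π ∈ P ^ (P.ramificationIdx R) ∧
      algebraMap R S π ∉ P ^ (P.ramificationIdx R + 1) := by
  have hlies : P.LiesOver p := ⟨hP.symm⟩
  have hmap : p.map (algebraMap R S) ≠ ⊥ := Ideal.map_ne_bot_of_ne_bot hp0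
  have hP0 : P ≠ ⊥ := by
    rintro rfl
    apply hp0
    rw [← hP]
    exact Ideal.comap_bot_of_injective _ (FaithfulSMul.algebraMap_injective R S)
  rw [algebraMap_mem_pow_iff_map_le hπ hπ2 P hP, algebraMap_mem_pow_iff_map_le hπ hπ2 P hP,
    IsDedekindDomain.ramificationIdx_eq_multiplicity p P hmap, ← Ideal.dvd_iff_le,
    ← Ideal.dvd_iff_le]
  have hfin : FiniteMultiplicity P (p.map (algebraMap R S)) :=
    FiniteMultiplicity.of_not_isUnit (by
      rw [Ideal.isUnit_iff]; exact IsPrime.ne_top inferInstance) hmap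
  exact ⟨pow_multiplicity_dvd _ _, hfin.not_pow_dvd_of_multiplicity_lt (Nat.lt_succ_self _)⟩

end Ramification

/-- Abstract data: finitely many ring homs `σ i : S → D` over a fixed `φ : R → D`, together with an
"order function" `w` on `D` whose positive part is the prime ideal `𝔮`. -/
structure CenterData (R S D ι : Type*) [CommRing R] [CommRing S] [CommRing D] [Algebra R S] where
  φ : R →+* D
  φ_inj : Function.Injective φ
  σ : ι → S →+* D
  σ_inj : Function.Injective σ
  σ_φ : ∀ i r, σ i (algebraMap R S r) = φ r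
  w : D → ℕ∞
  w_mul : ∀ x y, w (x * y) = w x + w y
  w_top : ∀ x, w x = ⊤ ↔ x = 0
  𝔮 : Ideal D
  𝔮_prime : 𝔮.IsPrime
  mem_𝔮 : ∀ x, x ∈ 𝔮 ↔ w x ≠ 0

namespace CenterData

variable {R S D ι : Type*} [CommRing R] [CommRing S] [CommRing D] [Algebra R S]
  (C : CenterData R S D ι)

/-- The prime of `R` below `𝔮`. -/
def base : Ideal R := C.𝔮.comap C.φ

/-- The centre of `σ i`: the prime of `S` below `𝔮`. -/
def center (i : ι) : Ideal S := C.𝔮.comap (C.σ i)

lemma base_isPrime : C.base.IsPrime := by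
  haveI := C.𝔮_prime
  exact Ideal.comap_isPrime _ _

lemma center_isPrime (i : ι) : (C.center i).IsPrime := by
  haveI := C.𝔮_prime
  exact Ideal.comap_isPrime _ _

lemma comap_center (i : ι) : (C.center i).comap (algebraMap R S) = C.base := by
  ext r
  simp only [center, base, Ideal.mem_comap, C.σ_φ]

lemma w_eq_zero_of_notMem {x : D} (hx : x ∉ C.𝔮) : C.w x = 0 := by
  by_contra h
  exact hx ((C.mem_𝔮 x).2 h)

lemma w_ne_zero_of_mem {x : D} (hx : x ∈ C.𝔮) : C.w x ≠ 0 := (C.mem_𝔮 x).1 hx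

lemma w_one : C.w 1 = 0 :=
  C.w_eq_zero_of_notMem (fun h => C.𝔮_prime.ne_top ((Ideal.eq_top_iff_one _).2 h))

lemma w_pow (x : D) (n : ℕ) : C.w (x ^ n) = n * C.w x := by
  induction n with
  | zero => simp [C.w_one]
  | succ n ih => rw [pow_succ, C.w_mul, ih]; push_cast; ring

lemma w_prod {α : Type*} (s : Finset α) (f : α → D) :
    C.w (∏ a ∈ s, f a) = ∑ a ∈ s, C.w (f a) := by
  classical
  induction s using Finset.induction_on with
  | empty => simp [C.w_one]
  | insert a s ha ih => rw [Finset.prod_insert ha, Finset.sum_insert ha, C.w_mul, ih]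

/-- Proportionality: for a ring hom `τ : A → D` from a Dedekind domain, `w ∘ τ` is a multiple of the
valuation attached to the centre of `τ`. -/
lemma w_comp_eq_mul {A : Type*} [CommRing A] [IsDedekindDomain A] (τ : A →+* D) {ϖ : A}
    (hϖ : ϖ ∈ C.𝔮.comap τ) (hϖ2 : ϖ ∉ (C.𝔮.comap τ) ^ 2) {m : ℕ} {s : A}
    (hs : s ∈ (C.𝔮.comap τ) ^ m) (hs' : s ∉ (C.𝔮.comap τ) ^ (m + 1)) :
    C.w (τ s) = m * C.w (τ ϖ) := by
  haveI := C.𝔮_prime
  haveI : (C.𝔮.comap τ).IsPrime := Ideal.comap_isPrime _ _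
  obtain ⟨t, a, ht, ha, h⟩ := exists_mul_eq_mul_pow_of_mem_pow (C.𝔮.comap τ) hϖ hϖ2 hs hs'
  have h1 := congrArg (fun x => C.w (τ x)) h
  simp only [map_mul, map_pow, C.w_mul, C.w_pow] at h1
  rw [C.w_eq_zero_of_notMem (x := τ t) ht, C.w_eq_zero_of_notMem (x := τ a) ha, zero_add,
    zero_add] at h1
  exact h1


section Main

variable [IsDedekindDomain R] [IsDedekindDomain S] [Module.Finite R S] [Module.IsTorsionFree R S]

lemma base_isMaximal (hp0 : C.base ≠ ⊥) : C.base.IsMaximal :=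
  C.base_isPrime.isMaximal hp0

lemma center_ne_bot (hp0 : C.base ≠ ⊥) (i : ι) : C.center i ≠ ⊥ := by
  intro h
  apply hp0
  rw [← C.comap_center i, h]
  exact Ideal.comap_bot_of_injective _ (FaithfulSMul.algebraMap_injective R S)

lemma center_isMaximal (hp0 : C.base ≠ ⊥) (i : ι) : (C.center i).IsMaximal :=
  (C.center_isPrime i).isMaximal (C.center_ne_bot hp0 i)

/-- The order of `σ i s` in terms of the `P`-adic valuation of `s`, `P = center i`. -/
theorem w_σ_mul_ramificationIdx (hp0 : C.base ≠ ⊥) (i : ι) {π : R} (hπ : π ∈ C.base)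
    (hπ2 : π ∉ C.base ^ 2) {m : ℕ} {s : S} (hs : s ∈ (C.center i) ^ m)
    (hs' : s ∉ (C.center i) ^ (m + 1)) :
    C.w (C.σ i s) * ((C.center i).ramificationIdx R : ℕ) = m * C.w (C.φ π) := by
  have hPprime := C.center_isPrime i
  have hpprime := C.base_isPrime
  have hPmax := C.center_isMaximal hp0 i
  obtain ⟨ϖ, hϖ, hϖ2⟩ := Ideal.exists_mem_pow_notMem_pow_succ (C.center i)
    (C.center_ne_bot hp0 i) (IsPrime.ne_top hPprime) 1
  rw [pow_one] at hϖ
  obtain ⟨h1, h2⟩ := algebraMap_mem_pow_ramificationIdx hp0 hπ hπ2 (C.center i)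
    (C.comap_center i)
  have e1 := C.w_comp_eq_mul (C.σ i) hϖ hϖ2 hs hs'
  have e2 := C.w_comp_eq_mul (C.σ i) hϖ hϖ2 h1 h2
  rw [C.σ_φ] at e2
  rw [e1, e2]
  ring


/-- **Counting theorem**: the number of `i` whose centre is a given prime `P` over the base prime
equals `e(P) * f(P)`. -/
theorem card_center_eq [PerfectField (FractionRing R)] [IsDomain D] [Fintype ι]
    (hp0 : C.base ≠ ⊥) (hcard : Fintype.card ι = finrank R S) (P : Ideal S) [hPprime : P.IsPrime]
    (hP : P.comap (algebraMap R S) = C.base) :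
    Nat.card {i // C.center i = P} = P.ramificationIdx R * P.inertiaDeg R := by
  classical
  have hpprime := C.base_isPrime
  have hpmax := C.base_isMaximal hp0
  have hP0 : P ≠ ⊥ := by
    rintro rfl
    apply hp0
    rw [← hP]
    exact Ideal.comap_bot_of_injective _ (FaithfulSMul.algebraMap_injective R S)
  have hPmax : P.IsMaximal := hPprime.isMaximal hP0
  have hlies : P.LiesOver C.base := ⟨hP.symm⟩
  obtain ⟨π, hπ, hπ2⟩ := Ideal.exists_mem_pow_notMem_pow_succ C.base hp0
    (IsPrime.ne_top hpprime) 1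
  rw [pow_one] at hπ
  obtain ⟨ϖ0, hϖ0, hϖ02⟩ := Ideal.exists_mem_pow_notMem_pow_succ P hP0 (IsPrime.ne_top hPprime) 1
  rw [pow_one] at hϖ0
  -- choose `b` by the Chinese remainder theorem
  let T : Finset (Ideal S) := (IsDedekindDomain.primesOver_finite C.base S).toFinset
  have hT : ∀ Q : Ideal S, Q ∈ T ↔ Q.IsPrime ∧ Q.comap (algebraMap R S) = C.base := by
    intro Q
    simp only [T, Set.Finite.mem_toFinset, Ideal.primesOver, Set.mem_ofPred_eq]
    constructor
    · rintro ⟨h1, h2⟩; exact ⟨h1, h2.over.symm⟩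
    · rintro ⟨h1, h2⟩; exact ⟨h1, ⟨h2.symm⟩⟩
  have hTne : ∀ Q ∈ T, Q ≠ ⊥ := by
    intro Q hQ h
    apply hp0
    rw [← ((hT Q).1 hQ).2, h]
    exact Ideal.comap_bot_of_injective _ (FaithfulSMul.algebraMap_injective R S)
  obtain ⟨b, hb⟩ := IsDedekindDomain.exists_forall_sub_mem_ideal (s := T) (fun Q => Q)
    (fun Q => if Q = P then 2 else 1)
    (fun Q hQ => Ideal.prime_of_isPrime (hTne Q hQ) ((hT Q).1 hQ).1)
    (fun Q _ Q' _ h => h) (fun Q => if Q.1 = P then ϖ0 else 1)
  have hPT : P ∈ T := (hT P).2 ⟨hPprime, hP⟩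
  have hbP' : b - ϖ0 ∈ P ^ 2 := by simpa using hb P hPT
  have hbP : b ∈ P := by
    have : b = (b - ϖ0) + ϖ0 := by ring
    rw [this]
    exact P.add_mem (Ideal.pow_le_self two_ne_zero hbP') hϖ0
  have hbP2 : b ∉ P ^ 2 := by
    intro h
    apply hϖ02
    have : ϖ0 = b - (b - ϖ0) := by ring
    rw [this]
    exact (P ^ 2).sub_mem h hbP'
  have hbQ : ∀ Q : Ideal S, Q.IsPrime → Q.comap (algebraMap R S) = C.base → Q ≠ P → b ∉ Q := by
    intro Q hQ1 hQ2 hQP hbQ
    have h1 := hb Q ((hT Q).2 ⟨hQ1, hQ2⟩)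
    simp only [hQP, if_false, pow_one] at h1
    have : (1 : S) = b - (b - 1) := by ring
    exact hQ1.ne_top ((Ideal.eq_top_iff_one Q).2 (this ▸ Q.sub_mem hbQ h1))
  -- the ideal `(b) = P * 𝔞`
  obtain ⟨𝔞, h𝔞⟩ : P ∣ span {b} := Ideal.dvd_iff_le.2 ((Ideal.span_singleton_le_iff_mem P).2 hbP)
  have h𝔞' : ∀ Q : Ideal S, Q.IsPrime → Q.comap (algebraMap R S) = C.base → ¬ 𝔞 ≤ Q := by
    intro Q hQ1 hQ2 hle
    by_cases hQP : Q = P
    · apply hbP2
      have : span {b} ≤ P ^ 2 := by
        rw [h𝔞, pow_two]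
        exact Ideal.mul_mono_right (hQP ▸ hle)
      exact this (Ideal.mem_span_singleton_self b)
    · apply hbQ Q hQ1 hQ2 hQP
      have : span {b} ≤ Q := by
        rw [h𝔞]
        exact Ideal.mul_le_right.trans hle
      exact this (Ideal.mem_span_singleton_self b)
  have hrel := relNorm_not_le_of_forall_not_le C.base 𝔞 h𝔞'
  have hnorm : span {Algebra.intNorm R S b} = C.base ^ (P.inertiaDeg R) * Ideal.relNorm R 𝔞 := by
    rw [← Ideal.relNorm_singleton, h𝔞, map_mul, Ideal.relNorm_eq_pow_of_isMaximal P C.base]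
  have hN1 : Algebra.intNorm R S b ∈ C.base ^ (P.inertiaDeg R) := by
    have : span {Algebra.intNorm R S b} ≤ C.base ^ (P.inertiaDeg R) := by
      rw [hnorm]; exact Ideal.mul_le_left
    exact this (Ideal.mem_span_singleton_self _)
  have hN2 : Algebra.intNorm R S b ∉ C.base ^ (P.inertiaDeg R + 1) := by
    intro h
    have h1 : span {Algebra.intNorm R S b} ≤ C.base ^ (P.inertiaDeg R + 1) :=
      (Ideal.span_singleton_le_iff_mem _).2 h
    rw [hnorm, ← Ideal.dvd_iff_le, pow_succ] at h1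
    have h2 : C.base ∣ Ideal.relNorm R 𝔞 :=
      (mul_dvd_mul_iff_left (pow_ne_zero _ hp0)).1 h1
    exact hrel (Ideal.dvd_iff_le.1 h2)
  have e3 : C.w (C.φ (Algebra.intNorm R S b)) = (P.inertiaDeg R : ℕ) * C.w (C.φ π) :=
    C.w_comp_eq_mul C.φ hπ hπ2 hN1 hN2
  have e4 := intNorm_eq_prod_of_card_eq C.φ C.φ_inj C.σ C.σ_inj C.σ_φ hcard b
  have e5 : ∀ i, C.center i = P →
      C.w (C.σ i b) * (P.ramificationIdx R : ℕ) = C.w (C.φ π) := by
    intro i hi
    have := C.w_σ_mul_ramificationIdx hp0 i hπ hπ2 (m := 1) (s := b)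
      (by rw [hi, pow_one]; exact hbP) (by rw [hi]; exact hbP2)
    rw [hi] at this
    simpa using this
  have e6 : ∀ i, C.center i ≠ P → C.w (C.σ i b) = 0 := by
    intro i hi
    apply C.w_eq_zero_of_notMem
    exact hbQ (C.center i) (C.center_isPrime i) (C.comap_center i) hi
  -- `e0` is a nonzero natural number
  have hπ0 : π ≠ 0 := by
    rintro rfl
    exact hπ2 (Ideal.zero_mem _)
  have he0top : C.w (C.φ π) ≠ ⊤ := by
    rw [Ne, C.w_top]
    intro h
    exact hπ0 (C.φ_inj (by rw [h, map_zero]))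
  have he0 : C.w (C.φ π) ≠ 0 := C.w_ne_zero_of_mem hπ
  obtain ⟨n0, hn0⟩ := ENat.ne_top_iff_exists.1 he0top
  have hn0' : n0 ≠ 0 := by
    rintro rfl
    exact he0 (by rw [← hn0]; rfl)
  -- combine
  have e7 : C.w (C.φ (Algebra.intNorm R S b)) * (P.ramificationIdx R : ℕ) =
      ∑ i, C.w (C.σ i b) * (P.ramificationIdx R : ℕ) := by
    rw [e4, C.w_prod, Finset.sum_mul]
  have e8 : ∑ i, C.w (C.σ i b) * (P.ramificationIdx R : ℕ) =
      ∑ i, if C.center i = P then C.w (C.φ π) else 0 := by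
    refine Finset.sum_congr rfl (fun i _ => ?_)
    split_ifs with hi
    · exact e5 i hi
    · rw [e6 i hi, zero_mul]
  rw [e8, Finset.sum_ite, Finset.sum_const_zero, add_zero, Finset.sum_const, e3, ← hn0] at e7
  rw [Nat.card_eq_fintype_card, Fintype.card_subtype]
  have e9 : (P.inertiaDeg R * n0 * P.ramificationIdx R : ℕ) =
      (Finset.univ.filter (fun i => C.center i = P)).card * n0 := by
    have : ((P.inertiaDeg R * n0 * P.ramificationIdx R : ℕ) : ℕ∞) =
        (((Finset.univ.filter (fun i => C.center i = P)).card * n0 : ℕ) : ℕ∞) := by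
      push_cast
      rw [e7, nsmul_eq_mul]
    exact_mod_cast this
  have := Nat.eq_of_mul_eq_mul_right (Nat.pos_of_ne_zero hn0') (by rw [← e9]; ring :
    (P.ramificationIdx R * P.inertiaDeg R) * n0 = _ * n0)
  exact this.symm

end Main

end CenterData

end Fermat.Agent.ProgramR
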