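/-
Program R, R5: the finite-point dictionary.  For a Dedekind chart `S` over `k[X]` (`X ↦ j`) realised
by `Γ`-invariant holomorphic functions, the primes of `S` over `X - a` correspond bijectively to the
orbits of `Stab_{SL2Z}(z₀)` (`j z₀ = a`) on `SL2Z ⧸ Γ`, with ramification index = orbit size.
-/
import Fermat.Agent.ProgramR.Analytic.PlacesCore
import Fermat.Agent.ProgramR.Analytic.Elliptic
import Fermat.Agent.ProgramR.LevelOne.Zeros

set_option autoImplicit false

noncomputable section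

namespace Fermat.Agent.ProgramR

open UpperHalfPlane Polynomial ModularGroup
open scoped Manifold MatrixGroups

/-- `j` as an element of `Hol`. -/
def jHol : Hol := ⟨LevelOne.jInv, LevelOne.mdifferentiable_jInv⟩

@[simp] lemma jHol_apply (z : ℍ) : (jHol : ℍ → ℂ) z = LevelOne.jInv z := rfl

lemma slComp_jHol (γ : SL(2, ℤ)) : Hol.slComp γ jHol = jHol :=
  Hol.ext (fun z => LevelOne.jInv_smul γ z)

lemma Hol.ordAt_jHol_sub (z : ℍ) :
    Hol.ordAt z (jHol - algebraMap ℂ Hol (LevelOne.jInv z)) = LevelOne.jOrder z := by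
  unfold Hol.ordAt
  rw [← LevelOne.analyticOrderAt_jInv_sub z]
  rfl

/-- A holomorphic function invariant under the full stabilizer of `z` has `f - f z` vanishing at
`z` to an order divisible by `jOrder z`. -/
theorem Hol.jOrder_dvd_ordAt (f : Hol) (z : ℍ)
    (hf : ∀ δ ∈ MulAction.stabilizer SL(2, ℤ) z, Hol.slComp δ f = f) {m : ℕ}
    (hm : Hol.ordAt z (f - algebraMap ℂ Hol ((f : ℍ → ℂ) z)) = m) : LevelOne.jOrder z ∣ m := by
  unfold LevelOne.jOrder
  split_ifs with h4 h6
  · obtain ⟨γ, rfl⟩ := (LevelOne.E₄_eq_zero_iff_mem_orbit z).mp h4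
    set δ : SL(2, ℤ) := γ * (S * T) * γ⁻¹ with hδ
    have hfix : δ • (γ • ρ) = γ • ρ := by
      have h1 : (S * T) • ρ = ρ := by
        have : S * T ∈ MulAction.stabilizer SL(2, ℤ) ρ := by
          rw [LevelOne.stabilizer_ρ_eq_zpowers]; exact Subgroup.mem_zpowers _
        exact this
      rw [hδ, mul_smul, mul_smul, inv_smul_smul, h1]
    have h3 : δ ^ 3 = -1 := by
      rw [hδ, conj_pow, LevelOne.ST_pow_three]
      simp
    have hne1 : δ ≠ 1 := by
      intro h
      have : S * T = 1 := by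
        have h' : γ⁻¹ * δ * γ = S * T := by rw [hδ]; group
        rw [← h', h]; group
      revert this; decide
    have hne2 : δ ≠ -1 := by
      intro h
      have : S * T = -1 := by
        have h' : γ⁻¹ * δ * γ = S * T := by rw [hδ]; group
        rw [← h', h]; simp
      revert this; decide
    exact Hol.three_dvd_of_fixed f δ _ hfix (Or.inr h3) hne1 hne2 (hf δ hfix) hm
  · obtain ⟨γ, rfl⟩ := (LevelOne.E₆_eq_zero_iff_mem_orbit z).mp h6
    set δ : SL(2, ℤ) := γ * S * γ⁻¹ with hδ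
    have hfix : δ • (γ • UpperHalfPlane.I) = γ • UpperHalfPlane.I := by
      have h1 : S • UpperHalfPlane.I = UpperHalfPlane.I := by
        have : S ∈ MulAction.stabilizer SL(2, ℤ) UpperHalfPlane.I := by
          rw [LevelOne.stabilizer_I_eq_zpowers]; exact Subgroup.mem_zpowers _
        exact this
      rw [hδ, mul_smul, mul_smul, inv_smul_smul, h1]
    have h2 : δ ^ 2 = -1 := by
      rw [hδ, conj_pow, LevelOne.S_sq]
      simp
    exact Hol.two_dvd_of_fixed f δ _ hfix h2 (hf δ hfix) hm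
  · exact one_dvd m

section InertiaOne

variable {k : Type*} [Field k] [IsAlgClosed k] {S : Type*} [CommRing S] [Algebra k[X] S]
  [Module.Finite k[X] S]

lemma span_X_sub_C_isMaximal (a : k) : (Ideal.span {(X - C a : k[X])}).IsMaximal := by
  have : (Ideal.span {(X - C a : k[X])}) = RingHom.ker (Polynomial.evalRingHom a) := by
    ext p
    rw [Ideal.mem_span_singleton, RingHom.mem_ker, Polynomial.dvd_iff_isRoot]
    rfl
  rw [this]
  exact RingHom.ker_isMaximal_of_surjective _ (fun c => ⟨C c, by simp⟩)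

lemma inertiaDeg_eq_one_of_isAlgClosed (a : k) (P : Ideal S) [P.IsMaximal]
    (hP : P.comap (algebraMap k[X] S) = Ideal.span {(X - C a : k[X])}) :
    P.inertiaDeg k[X] = 1 := by
  haveI hmax := span_X_sub_C_isMaximal a
  haveI : P.LiesOver (Ideal.span {(X - C a : k[X])}) := ⟨hP.symm⟩
  rw [Ideal.inertiaDeg_eq_of_isMaximal (Ideal.span {(X - C a : k[X])}) P]
  letI : Field (k[X] ⧸ Ideal.span {(X - C a : k[X])}) := Ideal.Quotient.field _
  letI : Field (S ⧸ P) := Ideal.Quotient.field _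
  haveI : IsAlgClosed (k[X] ⧸ Ideal.span {(X - C a : k[X])}) :=
    IsAlgClosed.of_ringEquiv k _ (Polynomial.quotientSpanXSubCAlgEquiv a).symm.toRingEquiv
  haveI : Module.Finite (k[X] ⧸ Ideal.span {(X - C a : k[X])}) (S ⧸ P) :=
    Module.Finite.of_restrictScalars_finite k[X] _ _
  have hbij := IsAlgClosed.algebraMap_bijective_of_isIntegral
    (k := k[X] ⧸ Ideal.span {(X - C a : k[X])}) (K := S ⧸ P)
  have e : (k[X] ⧸ Ideal.span {(X - C a : k[X])}) ≃ₗ[k[X] ⧸ Ideal.span {(X - C a : k[X])}] (S ⧸ P) :=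
    LinearEquiv.ofBijective (Algebra.linearMap _ _) hbij
  rw [← e.finrank_eq, Module.finrank_self]

end InertiaOne

/-! ### Charts -/

/-- A chart: a ring `S` over `k[X]` realised by `Γ`-invariant holomorphic functions, `X ↦ j`,
whose `SL2Z`-translates over distinct cosets of `Γ` are distinct. -/
structure ChartData (k : Type*) [Field k] (S : Type*) [CommRing S] [Algebra k[X] S]
    (Γ : Subgroup SL(2, ℤ)) where
  ι : k →+* ℂ
  ev : S →+* Hol
  ev_inj : Function.Injective ev
  ev_C : ∀ a : k, ev (algebraMap k[X] S (C a)) = algebraMap ℂ Hol (ι a)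
  ev_X : ev (algebraMap k[X] S X) = jHol
  ev_inv : ∀ s, ∀ γ ∈ Γ, Hol.slComp γ (ev s) = ev s
  sep : ∀ g g' : SL(2, ℤ), (∀ s, Hol.slComp g⁻¹ (ev s) = Hol.slComp g'⁻¹ (ev s)) → g⁻¹ * g' ∈ Γ

namespace ChartData

variable {k : Type*} [Field k] {S : Type*} [CommRing S] [Algebra k[X] S]
  {Γ : Subgroup SL(2, ℤ)} (A : ChartData k S Γ)

/-- The structure map `k[X] → Hol`, `p ↦ p(j)`. -/
def φ : k[X] →+* Hol := A.ev.comp (algebraMap k[X] S)

lemma φ_eq : A.φ = Polynomial.eval₂RingHom ((algebraMap ℂ Hol).comp A.ι) jHol := by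
  apply Polynomial.ringHom_ext
  · intro a
    simp [φ, A.ev_C]
  · simp [φ, A.ev_X]

lemma φ_apply (p : k[X]) (z : ℍ) :
    (A.φ p : ℍ → ℂ) z = (p.map A.ι).eval (LevelOne.jInv z) := by
  rw [φ_eq, Polynomial.coe_eval₂RingHom]
  have h := Polynomial.hom_eval₂ p ((algebraMap ℂ Hol).comp A.ι) (Hol.evalAt z) jHol
  rw [Hol.evalAt_apply] at h
  rw [h, Polynomial.eval_map]
  congr 1

lemma slComp_φ (γ : SL(2, ℤ)) (p : k[X]) : Hol.slComp γ (A.φ p) = A.φ p :=
  Hol.ext (fun z => by rw [Hol.slComp_apply, φ_apply, φ_apply, LevelOne.jInv_smul])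

lemma φ_injective : Function.Injective A.φ := by
  rw [injective_iff_map_eq_zero]
  intro p hp
  have h1 : p.map A.ι = 0 := by
    apply Polynomial.funext
    intro c
    obtain ⟨z, rfl⟩ := LevelOne.jInv_surjective c
    rw [← φ_apply, hp, Polynomial.eval_zero]
    rfl
  exact (Polynomial.map_eq_zero_iff A.ι.injective).1 h1

/-- The conjugate embeddings `s ↦ (ev s) ∘ g⁻¹`, indexed by the cosets `g Γ`. -/
def σ (x : SL(2, ℤ) ⧸ Γ) : S →+* Hol :=
  Quotient.liftOn' x (fun g => (Hol.slComp g⁻¹).comp A.ev) (by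
    intro a b hab
    rw [QuotientGroup.leftRel_apply] at hab
    ext s : 1
    simp only [RingHom.coe_comp, Function.comp_apply]
    have h1 : b⁻¹ = (a⁻¹ * b)⁻¹ * a⁻¹ := by group
    rw [h1, Hol.slComp_mul, A.ev_inv s _ (Γ.inv_mem hab)])

@[simp] lemma σ_mk (g : SL(2, ℤ)) (s : S) :
    A.σ (QuotientGroup.mk g) s = Hol.slComp g⁻¹ (A.ev s) := rfl

lemma σ_φ (x : SL(2, ℤ) ⧸ Γ) (p : k[X]) : A.σ x (algebraMap k[X] S p) = A.φ p := by
  induction x using QuotientGroup.induction_on with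
  | H g => rw [σ_mk]; exact A.slComp_φ g⁻¹ p

lemma σ_injective : Function.Injective A.σ := by
  intro x y hxy
  induction x using QuotientGroup.induction_on with
  | H g =>
    induction y using QuotientGroup.induction_on with
    | H g' =>
      rw [QuotientGroup.eq]
      apply A.sep
      intro s
      have := congrArg (fun f : S →+* Hol => f s) hxy
      simpa using this

lemma slComp_σ (δ : SL(2, ℤ)) (x : SL(2, ℤ) ⧸ Γ) (s : S) :
    Hol.slComp δ (A.σ x s) = A.σ (δ⁻¹ • x) s := by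
  induction x using QuotientGroup.induction_on with
  | H g =>
    rw [MulAction.Quotient.smul_mk, σ_mk, σ_mk, ← Hol.slComp_mul, smul_eq_mul]
    congr 1
    group

/-- The data of Theorem B at the point `z₀`. -/
def centerData (z₀ : ℍ) : CenterData k[X] S Hol (SL(2, ℤ) ⧸ Γ) where
  φ := A.φ
  φ_inj := A.φ_injective
  σ := A.σ
  σ_inj := A.σ_injective
  σ_φ := A.σ_φ
  w := Hol.ordAt z₀
  w_mul := Hol.ordAt_mul z₀
  w_top := Hol.ordAt_eq_top_iff z₀
  𝔮 := RingHom.ker (Hol.evalAt z₀)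
  𝔮_prime := RingHom.ker_isPrime _
  mem_𝔮 := by
    intro f
    rw [RingHom.mem_ker, Hol.evalAt_apply, Ne, Hol.ordAt_eq_zero_iff, not_not]

/-- The centre of the coset `x` at `z₀`: functions vanishing at `g⁻¹ z₀`. -/
def center (z₀ : ℍ) (x : SL(2, ℤ) ⧸ Γ) : Ideal S := (A.centerData z₀).center x

lemma mem_center_mk (z₀ : ℍ) (g : SL(2, ℤ)) (s : S) :
    s ∈ A.center z₀ (QuotientGroup.mk g) ↔ (A.ev s : ℍ → ℂ) (g⁻¹ • z₀) = 0 := by
  rw [center, CenterData.center, Ideal.mem_comap, centerData, RingHom.mem_ker, Hol.evalAt_apply]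
  rfl

lemma base_eq (z₀ : ℍ) (a : k) (ha : LevelOne.jInv z₀ = A.ι a) :
    (A.centerData z₀).base = Ideal.span {(X - C a : k[X])} := by
  ext p
  rw [CenterData.base, Ideal.mem_comap, centerData, RingHom.mem_ker, Hol.evalAt_apply, φ_apply,
    Ideal.mem_span_singleton, Polynomial.dvd_iff_isRoot, ha, Polynomial.eval_map,
    Polynomial.eval₂_at_apply, map_eq_zero_iff _ A.ι.injective]
  rfl

lemma base_ne_bot (z₀ : ℍ) (a : k) (ha : LevelOne.jInv z₀ = A.ι a) :
    (A.centerData z₀).base ≠ ⊥ := by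
  rw [A.base_eq z₀ a ha, Ne, Ideal.span_singleton_eq_bot]
  exact Polynomial.X_sub_C_ne_zero a

lemma w_φ_X_sub_C (z₀ : ℍ) (a : k) (ha : LevelOne.jInv z₀ = A.ι a) :
    (A.centerData z₀).w ((A.centerData z₀).φ (X - C a)) = LevelOne.jOrder z₀ := by
  have h1 : (A.centerData z₀).φ (X - C a) = jHol - algebraMap ℂ Hol (LevelOne.jInv z₀) := by
    change A.φ (X - C a) = _
    rw [map_sub, ha]
    simp [φ, A.ev_C, A.ev_X]
  rw [h1]
  exact Hol.ordAt_jHol_sub z₀

/-- The centre is constant along orbits of the stabilizer of `z₀`. -/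
lemma center_smul (z₀ : ℍ) (δ : SL(2, ℤ)) (hδ : δ • z₀ = z₀) (x : SL(2, ℤ) ⧸ Γ) :
    A.center z₀ (δ • x) = A.center z₀ x := by
  induction x using QuotientGroup.induction_on with
  | H g =>
    ext s
    rw [MulAction.Quotient.smul_mk, mem_center_mk, mem_center_mk, smul_eq_mul, mul_inv_rev,
      mul_smul]
    have : δ⁻¹ • z₀ = z₀ := by rw [inv_smul_eq_iff, hδ]
    rw [this]

end ChartData

lemma jOrder_cases (z : ℍ) : LevelOne.jOrder z = 1 ∨ LevelOne.jOrder z = 2 ∨ LevelOne.jOrder z = 3 := by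
  unfold LevelOne.jOrder
  split_ifs <;> simp

lemma card_orbit_dvd_jOrder {Γ : Subgroup SL(2, ℤ)} (hneg : (-1 : SL(2, ℤ)) ∈ Γ) (z₀ : ℍ)
    (x : SL(2, ℤ) ⧸ Γ) :
    Nat.card (MulAction.orbit (MulAction.stabilizer SL(2, ℤ) z₀) x) ∣ LevelOne.jOrder z₀ := by
  classical
  set H := MulAction.stabilizer SL(2, ℤ) z₀ with hH
  have hcardH : Nat.card H = 2 * LevelOne.jOrder z₀ := LevelOne.card_stabilizer z₀
  have hpos : 0 < LevelOne.jOrder z₀ := by
    rcases jOrder_cases z₀ with h | h | h <;> omega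
  haveI : Finite H := Nat.finite_of_card_ne_zero (by rw [hcardH]; omega)
  letI : Fintype H := Fintype.ofFinite H
  haveI : Finite (MulAction.orbit H x) := (Set.finite_range (fun h : H => h • x)).to_subtype
  letI : Fintype (MulAction.orbit H x) := Fintype.ofFinite _
  letI : Fintype (MulAction.stabilizer H x) := Fintype.ofFinite _
  have hos := MulAction.card_orbit_mul_card_stabilizer_eq_card_group H x
  rw [← Nat.card_eq_fintype_card, ← Nat.card_eq_fintype_card, ← Nat.card_eq_fintype_card,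
    hcardH] at hos
  -- the element `-1`
  let n1 : H := ⟨-1, by
    rw [MulAction.mem_stabilizer_iff, ModularGroup.SL_neg_smul, one_smul]⟩
  have hn1x : n1 ∈ MulAction.stabilizer H x := by
    rw [MulAction.mem_stabilizer_iff]
    induction x using QuotientGroup.induction_on with
    | H g =>
      change ((-1 : SL(2, ℤ)) • (QuotientGroup.mk g : SL(2, ℤ) ⧸ Γ)) = QuotientGroup.mk g
      rw [MulAction.Quotient.smul_mk, QuotientGroup.eq, smul_eq_mul]
      have : (-1 * g)⁻¹ * g = -1 := by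
        rw [neg_one_mul]
        have : (-g)⁻¹ = -g⁻¹ := by
          rw [inv_eq_iff_eq_inv]; simp
        rw [this]; simp
      rw [this]
      exact hneg
  let n1' : MulAction.stabilizer H x := ⟨n1, hn1x⟩
  have hord : orderOf n1' = 2 := by
    haveI : Fact (Nat.Prime 2) := ⟨Nat.prime_two⟩
    apply orderOf_eq_prime
    · apply Subtype.ext
      apply Subtype.ext
      simp [n1', n1]
    · intro h
      have h1 : (-1 : SL(2, ℤ)) = 1 := congrArg Subtype.val (congrArg Subtype.val h)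
      exact absurd h1 (by decide)
  have h2 : 2 ∣ Nat.card (MulAction.stabilizer H x) := by
    have h3 := orderOf_dvd_natCard n1'
    rw [hord] at h3
    exact h3
  obtain ⟨t, ht⟩ := h2
  rw [ht] at hos
  exact ⟨t, by nlinarith⟩


namespace ChartData

variable {k : Type*} [Field k] [IsAlgClosed k] {S : Type*} [CommRing S] [Algebra k[X] S]
  [IsDedekindDomain S] [Module.Finite k[X] S] [Module.IsTorsionFree k[X] S]
  [PerfectField (FractionRing k[X])]
  {Γ : Subgroup SL(2, ℤ)} [Fintype (SL(2, ℤ) ⧸ Γ)] (A : ChartData k S Γ)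

lemma comap_center (z₀ : ℍ) (a : k) (ha : LevelOne.jInv z₀ = A.ι a) (x : SL(2, ℤ) ⧸ Γ) :
    (A.center z₀ x).comap (algebraMap k[X] S) = Ideal.span {(X - C a : k[X])} := by
  rw [center, CenterData.comap_center, A.base_eq z₀ a ha]

lemma center_isMaximal (z₀ : ℍ) (a : k) (ha : LevelOne.jInv z₀ = A.ι a) (x : SL(2, ℤ) ⧸ Γ) :
    (A.center z₀ x).IsMaximal :=
  (A.centerData z₀).center_isMaximal (A.base_ne_bot z₀ a ha) x

lemma card_fiber (hcard : Fintype.card (SL(2, ℤ) ⧸ Γ) = Module.finrank k[X] S)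
    (z₀ : ℍ) (a : k) (ha : LevelOne.jInv z₀ = A.ι a) (x : SL(2, ℤ) ⧸ Γ) :
    Nat.card {y // A.center z₀ y = A.center z₀ x} = (A.center z₀ x).ramificationIdx k[X] := by
  haveI := A.center_isMaximal z₀ a ha x
  have h := (A.centerData z₀).card_center_eq (A.base_ne_bot z₀ a ha) hcard (A.center z₀ x)
    ((A.centerData z₀).comap_center x)
  rw [inertiaDeg_eq_one_of_isAlgClosed a (A.center z₀ x) (A.comap_center z₀ a ha x), mul_one] at h
  exact h

lemma X_sub_C_notMem_sq (a : k) : (X - C a : k[X]) ∉ Ideal.span {(X - C a : k[X])} ^ 2 := by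
  rw [Ideal.span_singleton_pow, Ideal.mem_span_singleton]
  intro h
  have h1 := Polynomial.natDegree_le_of_dvd h (Polynomial.X_sub_C_ne_zero a)
  rw [Polynomial.natDegree_pow, Polynomial.natDegree_X_sub_C] at h1
  omega

theorem fiber_eq_orbit (hcard : Fintype.card (SL(2, ℤ) ⧸ Γ) = Module.finrank k[X] S)
    (hneg : (-1 : SL(2, ℤ)) ∈ Γ) (z₀ : ℍ) (a : k) (ha : LevelOne.jInv z₀ = A.ι a)
    (x : SL(2, ℤ) ⧸ Γ) :
    {y | A.center z₀ y = A.center z₀ x} = MulAction.orbit (MulAction.stabilizer SL(2, ℤ) z₀) x ∧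
    (A.center z₀ x).ramificationIdx k[X] =
      Nat.card (MulAction.orbit (MulAction.stabilizer SL(2, ℤ) z₀) x) := by
  classical
  set H := MulAction.stabilizer SL(2, ℤ) z₀ with hH
  set P := A.center z₀ x with hP
  set e := P.ramificationIdx k[X] with he
  set ε := LevelOne.jOrder z₀ with hε
  set F : Set (SL(2, ℤ) ⧸ Γ) := {y | A.center z₀ y = P} with hF
  set O : Set (SL(2, ℤ) ⧸ Γ) := MulAction.orbit H x with hO
  have hPmax : P.IsMaximal := A.center_isMaximal z₀ a ha x
  have hOF : O ⊆ F := by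
    rintro y ⟨δ, rfl⟩
    exact A.center_smul z₀ δ δ.2 x
  have hFcard : F.ncard = e := by
    rw [← Nat.card_coe_set_eq]
    exact A.card_fiber hcard z₀ a ha x
  have hOdvd : O.ncard ∣ ε := by
    rw [← Nat.card_coe_set_eq]
    exact card_orbit_dvd_jOrder hneg z₀ x
  have hFfin : F.Finite := Set.toFinite F
  have hOle : O.ncard ≤ F.ncard := Set.ncard_le_ncard hOF hFfin
  -- a uniformizer at `P` and the relation `c * e = ε`
  have hp0 := A.base_ne_bot z₀ a ha
  have hP0 : P ≠ ⊥ := (A.centerData z₀).center_ne_bot hp0 x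
  obtain ⟨ϖ, hϖ, hϖ2⟩ := Ideal.exists_mem_pow_notMem_pow_succ P hP0 hPmax.ne_top 1
  have hπ : (X - C a : k[X]) ∈ (A.centerData z₀).base := by
    rw [A.base_eq z₀ a ha]; exact Ideal.mem_span_singleton_self _
  have hπ2 : (X - C a : k[X]) ∉ (A.centerData z₀).base ^ 2 := by
    rw [A.base_eq z₀ a ha]; exact X_sub_C_notMem_sq a
  have hce := (A.centerData z₀).w_σ_mul_ramificationIdx hp0 x hπ hπ2 (m := 1) (s := ϖ) hϖ hϖ2
  rw [A.w_φ_X_sub_C z₀ a ha] at hce
  change Hol.ordAt z₀ (A.σ x ϖ) * (e : ℕ∞) = ((1 : ℕ) : ℕ∞) * (ε : ℕ∞) at hce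
  -- the order `c` is a natural number
  have hϖ0 : ϖ ≠ 0 := by
    rintro rfl
    exact hϖ2 (Ideal.zero_mem _)
  have hσinj : Function.Injective (A.σ x) :=
    ringHom_injective_of_comp A.φ A.φ_injective (A.σ x) (A.σ_φ x)
  have hctop : Hol.ordAt z₀ (A.σ x ϖ) ≠ ⊤ := by
    rw [Ne, Hol.ordAt_eq_top_iff]
    intro h
    exact hϖ0 (hσinj (by rw [h, map_zero]))
  obtain ⟨c, hc⟩ := ENat.ne_top_iff_exists.1 hctop
  rw [← hc] at hce
  have hce' : c * e = ε := by
    rw [Nat.cast_one, one_mul] at hce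
    exact_mod_cast hce
  have hεpos : 0 < ε := by
    rcases jOrder_cases z₀ with h | h | h <;> omega
  have hepos : 0 < e := by
    rcases Nat.eq_zero_or_pos e with h | h
    · rw [h, mul_zero] at hce'; omega
    · exact h
  have hele : e ≤ ε := Nat.le_of_dvd hεpos ⟨c, by rw [← hce', mul_comm]⟩
  by_cases hOε : O.ncard = ε
  · -- orbit of full size
    have h1 : e = ε := le_antisymm hele (by rw [← hOε, ← hFcard]; exact hOle)
    have h2 : F.ncard ≤ O.ncard := by rw [hFcard, h1, hOε]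
    exact ⟨(Set.eq_of_subset_of_ncard_le hOF h2 hFfin).symm, by
      rw [Nat.card_coe_set_eq, hOε, h1]⟩
  · -- `x` is fixed by the stabilizer
    have hO1 : O.ncard = 1 := by
      have hOpos : 0 < O.ncard := by
        rw [Set.ncard_pos (Set.toFinite O)]
        exact ⟨x, MulAction.mem_orbit_self x⟩
      rcases jOrder_cases z₀ with h | h | h
      · rw [← hε] at h
        rw [h] at hOdvd
        exact Nat.dvd_one.1 hOdvd
      · rw [← hε] at h
        rw [h] at hOdvd hOε
        have := (Nat.dvd_prime Nat.prime_two).1 hOdvd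
        tauto
      · rw [← hε] at h
        rw [h] at hOdvd hOε
        have := (Nat.dvd_prime Nat.prime_three).1 hOdvd
        tauto
    have hfix : ∀ δ : SL(2, ℤ), δ • z₀ = z₀ → δ • x = x := by
      intro δ hδ
      have h1 : (⟨δ, hδ⟩ : H) • x ∈ O := MulAction.mem_orbit x _
      have h2 : x ∈ O := MulAction.mem_orbit_self x
      have h3 := (Set.ncard_eq_one.1 hO1)
      obtain ⟨w, hw⟩ := h3
      rw [hw] at h1 h2
      rw [Set.mem_singleton_iff] at h1 h2
      exact h1.trans h2.symm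
    -- invariance of `σ x ϖ` under the stabilizer
    have hinv : ∀ δ ∈ MulAction.stabilizer SL(2, ℤ) z₀, Hol.slComp δ (A.σ x ϖ) = A.σ x ϖ := by
      intro δ hδ
      rw [A.slComp_σ]
      have : δ⁻¹ • x = x := hfix δ⁻¹ (by rw [inv_smul_eq_iff]; exact hδ.symm)
      rw [this]
    have hval : (A.σ x ϖ : ℍ → ℂ) z₀ = 0 := by
      have : ϖ ∈ A.center z₀ x := by simpa using hϖ
      rw [center, CenterData.center, Ideal.mem_comap] at this
      exact this
    have hm : Hol.ordAt z₀ (A.σ x ϖ - algebraMap ℂ Hol ((A.σ x ϖ : ℍ → ℂ) z₀)) = c := by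
      rw [hval, map_zero, sub_zero, hc]
    have hdvd : ε ∣ c := Hol.jOrder_dvd_ordAt (A.σ x ϖ) z₀ hinv hm
    obtain ⟨t, ht⟩ := hdvd
    have he1 : e = 1 := by
      rw [ht] at hce'
      have : ε * (t * e) = ε * 1 := by rw [mul_one, ← mul_assoc]; exact hce'
      have := Nat.eq_of_mul_eq_mul_left hεpos this
      exact Nat.eq_one_of_mul_eq_one_left this
    have h2 : F.ncard ≤ O.ncard := by rw [hFcard, he1, hO1]
    exact ⟨(Set.eq_of_subset_of_ncard_le hOF h2 hFfin).symm, by
      rw [Nat.card_coe_set_eq, hO1, he1]⟩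


/-- Every prime over `X - a` is a centre. -/
theorem exists_center_eq (hcard : Fintype.card (SL(2, ℤ) ⧸ Γ) = Module.finrank k[X] S)
    (z₀ : ℍ) (a : k) (ha : LevelOne.jInv z₀ = A.ι a) (P : Ideal S) [hP : P.IsPrime]
    (hPa : P.comap (algebraMap k[X] S) = Ideal.span {(X - C a : k[X])}) :
    ∃ x, A.center z₀ x = P := by
  have h := (A.centerData z₀).card_center_eq (A.base_ne_bot z₀ a ha) hcard P
    (by rw [hPa, A.base_eq z₀ a ha])
  have hpos : 0 < Nat.card {i // (A.centerData z₀).center i = P} := by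
    rw [h]
    exact Nat.mul_pos (Ideal.ramificationIdx_pos P k[X]) (Ideal.inertiaDeg_pos P k[X])
  obtain ⟨⟨x, hx⟩⟩ := (Nat.card_pos_iff.1 hpos).1
  exact ⟨x, hx⟩

/-- The order of vanishing at `g⁻¹ z₀` in terms of the `P`-adic valuation, `P = center (g Γ)`. -/
theorem ordAt_mul_card_orbit (hcard : Fintype.card (SL(2, ℤ) ⧸ Γ) = Module.finrank k[X] S)
    (hneg : (-1 : SL(2, ℤ)) ∈ Γ) (z₀ : ℍ) (a : k) (ha : LevelOne.jInv z₀ = A.ι a)
    (x : SL(2, ℤ) ⧸ Γ) {m : ℕ} {s : S} (hs : s ∈ (A.center z₀ x) ^ m)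
    (hs' : s ∉ (A.center z₀ x) ^ (m + 1)) :
    Hol.ordAt z₀ (A.σ x s) *
      (Nat.card (MulAction.orbit (MulAction.stabilizer SL(2, ℤ) z₀) x) : ℕ∞) =
      (m : ℕ∞) * (LevelOne.jOrder z₀ : ℕ∞) := by
  have hπ : (X - C a : k[X]) ∈ (A.centerData z₀).base := by
    rw [A.base_eq z₀ a ha]; exact Ideal.mem_span_singleton_self _
  have hπ2 : (X - C a : k[X]) ∉ (A.centerData z₀).base ^ 2 := by
    rw [A.base_eq z₀ a ha]; exact X_sub_C_notMem_sq a
  have h := (A.centerData z₀).w_σ_mul_ramificationIdx (A.base_ne_bot z₀ a ha) x hπ hπ2 hs hs'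
  rw [A.w_φ_X_sub_C z₀ a ha] at h
  rw [← (A.fiber_eq_orbit hcard hneg z₀ a ha x).2]
  exact h

/-- **Dictionary (count)**: the primes of `S` over `X - a` are in bijection with the orbits of the
stabilizer of `z₀` on `SL2Z ⧸ Γ`. -/
theorem card_primes_eq_card_orbits (hcard : Fintype.card (SL(2, ℤ) ⧸ Γ) = Module.finrank k[X] S)
    (hneg : (-1 : SL(2, ℤ)) ∈ Γ) (z₀ : ℍ) (a : k) (ha : LevelOne.jInv z₀ = A.ι a) :
    Nat.card {P : IsDedekindDomain.HeightOneSpectrum S //
        algebraMap k[X] S (X - C a) ∈ P.asIdeal} =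
      Nat.card (MulAction.orbitRel.Quotient (MulAction.stabilizer SL(2, ℤ) z₀)
        (SL(2, ℤ) ⧸ Γ)) := by
  classical
  have hp0 := A.base_ne_bot z₀ a ha
  let f : MulAction.orbitRel.Quotient (MulAction.stabilizer SL(2, ℤ) z₀) (SL(2, ℤ) ⧸ Γ) →
      {P : IsDedekindDomain.HeightOneSpectrum S // algebraMap k[X] S (X - C a) ∈ P.asIdeal} :=
    fun q => Quotient.liftOn' q (fun x =>
      ⟨⟨A.center z₀ x, (A.centerData z₀).center_isPrime x, (A.centerData z₀).center_ne_bot hp0 x⟩,
        by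
          have h1 : (X - C a : k[X]) ∈ (A.center z₀ x).comap (algebraMap k[X] S) := by
            rw [A.comap_center z₀ a ha x]; exact Ideal.mem_span_singleton_self _
          exact h1⟩) (by
      intro x y hxy
      rw [MulAction.orbitRel_apply] at hxy
      obtain ⟨δ, rfl⟩ := hxy
      apply Subtype.ext
      apply IsDedekindDomain.HeightOneSpectrum.ext
      exact A.center_smul z₀ δ δ.2 y)
  have hf : Function.Bijective f := by
    constructor
    · intro q q' hqq'
      induction q using Quotient.inductionOn' with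
      | h x =>
        induction q' using Quotient.inductionOn' with
        | h y =>
          have h1 : A.center z₀ x = A.center z₀ y :=
            congrArg (fun P : {P : IsDedekindDomain.HeightOneSpectrum S //
              algebraMap k[X] S (X - C a) ∈ P.asIdeal} => P.1.asIdeal) hqq'
          have h2 : x ∈ MulAction.orbit (MulAction.stabilizer SL(2, ℤ) z₀) y := by
            rw [← (A.fiber_eq_orbit hcard hneg z₀ a ha y).1]
            exact h1
          exact Quotient.sound' ((MulAction.orbitRel_apply).2 h2)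
    · rintro ⟨P, hP⟩
      haveI := P.isPrime
      have hmax := span_X_sub_C_isMaximal a
      have hcomap : P.asIdeal.comap (algebraMap k[X] S) = Ideal.span {(X - C a : k[X])} := by
        symm
        apply hmax.eq_of_le (Ideal.IsPrime.ne_top (Ideal.comap_isPrime _ _))
        rw [Ideal.span_singleton_le_iff_mem]
        exact hP
      obtain ⟨x, hx⟩ := A.exists_center_eq hcard z₀ a ha P.asIdeal hcomap
      refine ⟨Quotient.mk'' x, ?_⟩
      apply Subtype.ext
      apply IsDedekindDomain.HeightOneSpectrum.ext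
      exact hx
  exact (Nat.card_eq_of_bijective f hf).symm

end ChartData

end Fermat.Agent.ProgramR
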