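/-
Program R, X1: the division lemma in `Hol` (holomorphic functions on `ℍ`), the ultrametric
inequality for `Hol.ordAt`, and `IsIntegrallyClosed Hol`.
-/
import Mathlib
import Fermat.Agent.ProgramR.Analytic.HolRing

set_option autoImplicit false

namespace Fermat.Agent.ProgramR

open UpperHalfPlane Filter Topology
open scoped Manifold

lemma Hol.min_ordAt_le_ordAt_add (z : ℍ) (f g : Hol) :
    min (Hol.ordAt z f) (Hol.ordAt z g) ≤ Hol.ordAt z (f + g) := by
  unfold Hol.ordAt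
  have : ((f + g : Hol) : ℍ → ℂ) ∘ ofComplex =
      ((f : ℍ → ℂ) ∘ ofComplex) + ((g : ℍ → ℂ) ∘ ofComplex) := rfl
  rw [this]
  exact le_analyticOrderAt_add

lemma Hol.ordAt_neg (z : ℍ) (f : Hol) : Hol.ordAt z (-f) = Hol.ordAt z f := by
  unfold Hol.ordAt
  have : ((-f : Hol) : ℍ → ℂ) ∘ ofComplex = -((f : ℍ → ℂ) ∘ ofComplex) := rfl
  rw [this, analyticOrderAt_neg]

lemma Hol.ordAt_pow (z : ℍ) (f : Hol) (n : ℕ) : Hol.ordAt z (f ^ n) = n • Hol.ordAt z f := by
  induction n with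
  | zero =>
    rw [pow_zero, zero_smul, Hol.ordAt_eq_zero_iff]
    exact one_ne_zero
  | succ n ih => rw [pow_succ, Hol.ordAt_mul, ih, succ_nsmul]

lemma Hol.ordAt_ne_top (z : ℍ) {f : Hol} (hf : f ≠ 0) : Hol.ordAt z f ≠ ⊤ :=
  fun h => hf ((Hol.ordAt_eq_top_iff z f).mp h)

/-- **Division lemma**: if `b ≠ 0` vanishes to order at most that of `a` at every point, then
`b ∣ a` in `Hol`. -/
theorem Hol.dvd_of_forall_ordAt_le {a b : Hol} (hb : b ≠ 0)
    (h : ∀ z, Hol.ordAt z b ≤ Hol.ordAt z a) : b ∣ a := by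
  by_cases ha : a = 0
  · rw [ha]; exact dvd_zero b
  set U : Set ℂ := {w : ℂ | 0 < w.im} with hU
  have hUopen : IsOpen U := isOpen_upperHalfPlaneSet
  set f : ℂ → ℂ := (a : ℍ → ℂ) ∘ ofComplex with hf
  set g : ℂ → ℂ := (b : ℍ → ℂ) ∘ ofComplex with hg
  have hfU : ∀ w ∈ U, AnalyticAt ℂ f w := fun w hw => a.analyticAt ⟨w, hw⟩
  have hgU : ∀ w ∈ U, AnalyticAt ℂ g w := fun w hw => b.analyticAt ⟨w, hw⟩
  have hq : MeromorphicOn (f / g) U := fun w hw =>
    (hfU w hw).meromorphicAt.div (hgU w hw).meromorphicAt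
  set c' : ℂ → ℂ := toMeromorphicNFOn (f / g) U with hc'
  -- orders
  have hordg : ∀ w (hw : w ∈ U), analyticOrderAt g w ≠ ⊤ := fun w hw =>
    Hol.ordAt_ne_top ⟨w, hw⟩ hb
  have hordf : ∀ w (hw : w ∈ U), analyticOrderAt f w ≠ ⊤ := fun w hw =>
    Hol.ordAt_ne_top ⟨w, hw⟩ ha
  have hle : ∀ w (hw : w ∈ U), analyticOrderAt g w ≤ analyticOrderAt f w := fun w hw =>
    h ⟨w, hw⟩
  -- `c'` is analytic on `U`
  have hc'an : ∀ w ∈ U, AnalyticAt ℂ c' w := by
    intro w hw
    have hNF : MeromorphicNFAt c' w := meromorphicNFOn_toMeromorphicNFOn (f / g) U hw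
    rw [← hNF.meromorphicOrderAt_nonneg_iff_analyticAt, hc',
      meromorphicOrderAt_toMeromorphicNFOn hq hw,
      meromorphicOrderAt_div (hfU w hw).meromorphicAt (hgU w hw).meromorphicAt,
      (hfU w hw).meromorphicOrderAt_eq, (hgU w hw).meromorphicOrderAt_eq]
    obtain ⟨m, hm⟩ := ENat.ne_top_iff_exists.mp (hordf w hw)
    obtain ⟨n, hn⟩ := ENat.ne_top_iff_exists.mp (hordg w hw)
    have hnm : n ≤ m := by
      have := hle w hw
      rw [← hm, ← hn] at this
      exact_mod_cast this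
    rw [← hm, ← hn, ENat.map_natCast, ENat.map_natCast]
    have : ((m : ℤ) : WithTop ℤ) - ((n : ℤ) : WithTop ℤ) = (((m : ℤ) - (n : ℤ) : ℤ) : WithTop ℤ) := by
      rfl
    rw [this]
    have h0 : (0 : ℤ) ≤ (m : ℤ) - (n : ℤ) := by omega
    exact_mod_cast h0
  -- `f = g * c'` on `U`
  have hfgc : ∀ w ∈ U, f w = g w * c' w := by
    intro w hw
    have hF : AnalyticAt ℂ (fun x => f x - g x * c' x) w :=
      (hfU w hw).sub ((hgU w hw).mul (hc'an w hw))
    have h1 : c' =ᶠ[𝓝[≠] w] f / g := hq.toMeromorphicNFOn_eq_self_on_nhdsNE hw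
    have h2 : ∀ᶠ x in 𝓝[≠] w, g x ≠ 0 := by
      rcases (hgU w hw).eventually_eq_zero_or_eventually_ne_zero with h0 | h0
      · exact absurd (analyticOrderAt_eq_top.mpr h0) (hordg w hw)
      · exact h0
    have h3 : ∀ᶠ x in 𝓝[≠] w, f x - g x * c' x = 0 := by
      filter_upwards [h1, h2] with x hx1 hx2
      rw [hx1, Pi.div_apply, mul_div_cancel₀ _ hx2, sub_self]
    have h4 : Tendsto (fun x => f x - g x * c' x) (𝓝[≠] w) (𝓝 (f w - g w * c' w)) :=
      hF.continuousAt.tendsto.mono_left nhdsWithin_le_nhds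
    have h5 : Tendsto (fun x => f x - g x * c' x) (𝓝[≠] w) (𝓝 0) :=
      (tendsto_congr' h3).mpr tendsto_const_nhds
    have := tendsto_nhds_unique h4 h5
    exact sub_eq_zero.mp this
  -- package `c'` as an element of `Hol`
  have hcmd : MDifferentiable 𝓘(ℂ) 𝓘(ℂ) (fun z : ℍ => c' (z : ℂ)) := by
    rw [UpperHalfPlane.mdifferentiable_iff]
    intro w hw
    have hd : DifferentiableWithinAt ℂ c' U w :=
      (hc'an w hw).differentiableAt.differentiableWithinAt
    refine hd.congr (fun x hx => ?_) ?_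
    · show c' ((ofComplex x : ℍ) : ℂ) = c' x
      rw [ofComplex_apply_of_im_pos hx]
    · show c' ((ofComplex w : ℍ) : ℂ) = c' w
      rw [ofComplex_apply_of_im_pos hw]
  refine ⟨⟨fun z : ℍ => c' (z : ℂ), hcmd⟩, ?_⟩
  apply Hol.ext
  intro z
  have := hfgc (z : ℂ) z.im_pos
  simp only [hf, hg, Function.comp_apply, ofComplex_apply] at this
  exact this

lemma Hol.le_ordAt_sum {ι : Type*} (z : ℍ) (s : Finset ι) (t : ι → Hol) (m : ℕ∞)
    (h : ∀ i ∈ s, m ≤ Hol.ordAt z (t i)) : m ≤ Hol.ordAt z (∑ i ∈ s, t i) := by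
  classical
  induction s using Finset.induction_on with
  | empty =>
    rw [Finset.sum_empty, (Hol.ordAt_eq_top_iff z 0).mpr rfl]
    exact le_top
  | insert i s hi ih =>
    rw [Finset.sum_insert hi]
    refine le_trans (le_min (h i (Finset.mem_insert_self i s)) (ih fun j hj => ?_))
      (Hol.min_ordAt_le_ordAt_add z _ _)
    exact h j (Finset.mem_insert_of_mem hj)

/-- The key estimate for integral closedness: if `a/b` is a root of a monic polynomial over
`Hol`, then `b` vanishes to order at most that of `a` everywhere. -/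
lemma Hol.ordAt_le_of_scaleRoots {a b : Hol} (hb : b ≠ 0) {p : Polynomial Hol} (hp : p.Monic)
    (hroot : (p.scaleRoots b).eval a = 0) (z : ℍ) : Hol.ordAt z b ≤ Hol.ordAt z a := by
  by_contra hlt
  rw [not_le] at hlt
  have ha : a ≠ 0 := by
    rintro rfl
    rw [(Hol.ordAt_eq_top_iff z 0).mpr rfl] at hlt
    exact not_top_lt hlt
  obtain ⟨α, hα⟩ := ENat.ne_top_iff_exists.mp (Hol.ordAt_ne_top z ha)
  obtain ⟨β, hβ⟩ := ENat.ne_top_iff_exists.mp (Hol.ordAt_ne_top z hb)
  have hαβ : α + 1 ≤ β := by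
    rw [← hα, ← hβ] at hlt
    have : α < β := by exact_mod_cast hlt
    omega
  set n := p.natDegree with hn
  -- expand the evaluation
  have hsum : (p.scaleRoots b).eval a =
      ∑ i ∈ Finset.range (n + 1), p.coeff i * b ^ (n - i) * a ^ i := by
    rw [Polynomial.eval_eq_sum_range, Polynomial.natDegree_scaleRoots]
    refine Finset.sum_congr rfl fun i _ => ?_
    rw [Polynomial.coeff_scaleRoots]
  rw [hsum, Finset.sum_range_succ, Nat.sub_self, pow_zero, mul_one,
    show p.coeff n = 1 from hp, one_mul] at hroot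
  have han : a ^ n = -∑ i ∈ Finset.range n, p.coeff i * b ^ (n - i) * a ^ i :=
    eq_neg_of_add_eq_zero_right hroot
  have h1 : Hol.ordAt z (a ^ n) = ((n * α : ℕ) : ℕ∞) := by
    rw [Hol.ordAt_pow, ← hα]
    simp
  have h2 : ((n * α + 1 : ℕ) : ℕ∞) ≤ Hol.ordAt z (a ^ n) := by
    rw [han, Hol.ordAt_neg]
    apply Hol.le_ordAt_sum
    intro i hi
    rw [Finset.mem_range] at hi
    rw [Hol.ordAt_mul, Hol.ordAt_mul, Hol.ordAt_pow, Hol.ordAt_pow, ← hα, ← hβ]
    have h3 : ((n * α + 1 : ℕ) : ℕ∞) ≤ (((n - i) * β + i * α : ℕ) : ℕ∞) := by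
      have : n * α + 1 ≤ (n - i) * β + i * α := by
        have e1 : (n - i) * (α + 1) ≤ (n - i) * β := Nat.mul_le_mul_left _ hαβ
        have e2 : n * α = (n - i) * α + i * α := by
          rw [← Nat.add_mul, Nat.sub_add_cancel hi.le]
        have e3 : 1 ≤ n - i := by omega
        nlinarith
      exact_mod_cast this
    refine le_trans h3 ?_
    have h4 : (((n - i) * β + i * α : ℕ) : ℕ∞) = (n - i) • (β : ℕ∞) + i • (α : ℕ∞) := by
      simp
    rw [h4, add_assoc]
    exact le_add_self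
  rw [h1] at h2
  have : n * α + 1 ≤ n * α := by exact_mod_cast h2
  omega

instance : IsIntegrallyClosed Hol := by
  rw [isIntegrallyClosed_iff Mer]
  intro x hx
  obtain ⟨a, b, hb, rfl⟩ := IsFractionRing.div_surjective (A := Hol) x
  obtain ⟨p, hp, hpx⟩ := hx
  have hb0 : b ≠ 0 := nonZeroDivisors.ne_zero hb
  have hinj : Function.Injective (algebraMap Hol Mer) := IsFractionRing.injective Hol Mer
  have h1 := Polynomial.scaleRoots_eval₂_eq_zero_of_eval₂_div_eq_zero hinj hpx hb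
  rw [Polynomial.eval₂_hom] at h1
  have h2 : (p.scaleRoots b).eval a = 0 := hinj (by rw [h1, map_zero])
  obtain ⟨c, hc⟩ := Hol.dvd_of_forall_ordAt_le hb0 (Hol.ordAt_le_of_scaleRoots hb0 hp h2)
  refine ⟨c, ?_⟩
  rw [hc, map_mul, mul_div_cancel_left₀]
  exact fun h => hb0 (hinj (by rw [h, map_zero]))

end Fermat.Agent.ProgramR
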