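/-
Program R, analytic package, lemma X4 (distinct conjugates of `j_N`).
`levelMat N = diag(N,1)`, `jN N : Hol` (`z ↦ j(Nz)`), invariance of `j_N` under `Γ₀(N)`, and
`j_N ∘ g⁻¹ = j_N ∘ g'⁻¹ ↔ g⁻¹ g' ∈ Γ₀(N)`.
-/
import Fermat.Agent.ProgramR.Analytic.HolRing
import Fermat.Agent.ProgramR.Counting.Index
import Fermat.Agent.ProgramR.LevelOne.JInjective

set_option autoImplicit false

noncomputable section

namespace Fermat.Agent.ProgramR

open UpperHalfPlane Filter Topology ModularGroup CongruenceSubgroup LevelOne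
open scoped Manifold MatrixGroups

/-- The matrix `diag(N, 1)`, acting on `ℍ` by `z ↦ N z`. -/
def levelMat (N : ℕ) [NeZero N] : GL (Fin 2) ℝ :=
  Matrix.GeneralLinearGroup.mkOfDetNeZero !![(N : ℝ), 0; 0, 1]
    (by simp [Matrix.det_fin_two, NeZero.ne N])

lemma levelMat_det_pos (N : ℕ) [NeZero N] : 0 < (levelMat N).det.val := by
  have : (levelMat N).det.val = (N : ℝ) := by
    simp [levelMat, Matrix.GeneralLinearGroup.mkOfDetNeZero, Matrix.det_fin_two]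
  rw [this]
  exact_mod_cast Nat.pos_of_ne_zero (NeZero.ne N)

lemma coe_levelMat_smul (N : ℕ) [NeZero N] (z : ℍ) :
    ((levelMat N • z : ℍ) : ℂ) = N * z := by
  rw [coe_smul_of_det_pos (levelMat_det_pos N)]
  simp [levelMat, num, denom, Matrix.GeneralLinearGroup.mkOfDetNeZero]


/-- A quadratic polynomial with three distinct roots vanishes identically. -/
lemma quad_coeffs_eq_zero {A B C z₁ z₂ z₃ : ℂ} (h12 : z₁ ≠ z₂) (h13 : z₁ ≠ z₃) (h23 : z₂ ≠ z₃)
    (e₁ : A * z₁ ^ 2 + B * z₁ + C = 0) (e₂ : A * z₂ ^ 2 + B * z₂ + C = 0)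
    (e₃ : A * z₃ ^ 2 + B * z₃ + C = 0) : A = 0 ∧ B = 0 ∧ C = 0 := by
  have h1 : A * (z₁ + z₂) + B = 0 := by
    have : (z₁ - z₂) * (A * (z₁ + z₂) + B) = 0 := by linear_combination e₁ - e₂
    exact (mul_eq_zero.mp this).resolve_left (sub_ne_zero.mpr h12)
  have h2 : A * (z₁ + z₃) + B = 0 := by
    have : (z₁ - z₃) * (A * (z₁ + z₃) + B) = 0 := by linear_combination e₁ - e₃
    exact (mul_eq_zero.mp this).resolve_left (sub_ne_zero.mpr h13)
  have hA : A = 0 := by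
    have : (z₂ - z₃) * A = 0 := by linear_combination h1 - h2
    exact (mul_eq_zero.mp this).resolve_left (sub_ne_zero.mpr h23)
  have hB : B = 0 := by rw [hA] at h1; simpa using h1
  have hC : C = 0 := by rw [hA, hB] at e₁; simpa using e₁
  exact ⟨hA, hB, hC⟩

/-- The polynomial form of `A_N • h • z = γ • A_N • z`. -/
lemma levelMat_smul_eq_iff_aux (N : ℕ) [NeZero N] (h γ : SL(2, ℤ)) (z : ℍ)
    (H : levelMat N • (h • z) = γ • (levelMat N • z)) :
    ((N : ℂ) ^ 2 * h 0 0 * γ 1 0 - N * γ 0 0 * h 1 0) * (z : ℂ) ^ 2 +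
      ((N : ℂ) * h 0 0 * γ 1 1 + (N : ℂ) ^ 2 * h 0 1 * γ 1 0 - N * γ 0 0 * h 1 1 -
        γ 0 1 * h 1 0) * z + ((N : ℂ) * h 0 1 * γ 1 1 - γ 0 1 * h 1 1) = 0 := by
  have H' := congr_arg (fun w : ℍ ↦ (w : ℂ)) H
  simp only [coe_levelMat_smul] at H'
  rw [coe_specialLinearGroup_apply, coe_specialLinearGroup_apply, coe_levelMat_smul] at H'
  simp only [algebraMap_int_eq, Int.coe_castRingHom, Complex.ofReal_intCast] at H'
  have h1 : ((h 1 0 : ℂ) * z + h 1 1) ≠ 0 := by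
    have := denom_ne_zero (h : GL (Fin 2) ℝ) z
    simpa [denom_apply] using this
  have h2 : ((γ 1 0 : ℂ) * ((N : ℂ) * z) + γ 1 1) ≠ 0 := by
    have := denom_ne_zero (γ : GL (Fin 2) ℝ) (levelMat N • z)
    rw [denom_apply, coe_levelMat_smul] at this
    exact this
  rw [mul_div_assoc', div_eq_div_iff h1 h2] at H'
  linear_combination H'


/-- The algebraic core: the vanishing of the `z²` and `z` coefficients forces `N ∣ c`. -/
lemma dvd_of_coeffs (N : ℤ) (hN : N ≠ 0) (a b c d α β γ' δ : ℤ) (hγ : α * δ - β * γ' = 1)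
    (E1 : N ^ 2 * a * γ' - N * α * c = 0)
    (E2 : N * a * δ + N ^ 2 * b * γ' - N * α * d - β * c = 0) : N ∣ c := by
  have E1' : N * a * γ' - α * c = 0 := by
    have : N * (N * a * γ' - α * c) = 0 := by linear_combination E1
    exact (mul_eq_zero.mp this).resolve_left hN
  refine ⟨γ' * (α * d - N * b * γ'), ?_⟩
  linear_combination γ' * E2 - δ * E1' - c * hγ

/-- **Distinct conjugates of `j_N` (core form).**  If `j(N·hz) = j(N·z)` for all `z ∈ ℍ` then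
`h ∈ Γ₀(N)`. -/
theorem mem_Gamma0_of_forall_jInv_eq (N : ℕ) [NeZero N] (h : SL(2, ℤ))
    (H : ∀ z : ℍ, jInv (levelMat N • (h • z)) = jInv (levelMat N • z)) : h ∈ Gamma0 N := by
  -- the points `x + i`
  let pt : ℝ → ℍ := fun x ↦ x +ᵥ UpperHalfPlane.I
  have hpt : ∀ x, ((pt x : ℍ) : ℂ) = x + Complex.I := fun x ↦ by
    simp [pt, coe_vadd]
  let S : SL(2, ℤ) → Set ℝ := fun γ ↦
    {x | levelMat N • (h • pt x) = γ • (levelMat N • pt x)}
  have hcover : (⋃ γ, S γ) = Set.univ := by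
    ext x
    simp only [Set.mem_iUnion, Set.mem_univ, iff_true]
    obtain ⟨γ, hγ⟩ := exists_smul_eq_of_jInv_eq (H (pt x)).symm
    exact ⟨γ, hγ⟩
  have : Countable (Matrix (Fin 2) (Fin 2) ℤ) := by unfold Matrix; infer_instance
  have : Countable SL(2, ℤ) := by unfold Matrix.SpecialLinearGroup; infer_instance
  obtain ⟨γ, hγ⟩ : ∃ γ, ¬ (S γ).Countable := by
    by_contra hcon
    push Not at hcon
    have := Set.countable_iUnion hcon
    rw [hcover] at this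
    exact Cardinal.not_countable_real this
  have hinf : (S γ).Infinite := fun hfin ↦ hγ hfin.countable
  obtain ⟨t, hts, htc⟩ := hinf.exists_subset_card_eq 3
  obtain ⟨x₁, x₂, x₃, h12, h13, h23, rfl⟩ := Finset.card_eq_three.mp htc
  have hx₁ : x₁ ∈ S γ := hts (by simp)
  have hx₂ : x₂ ∈ S γ := hts (by simp)
  have hx₃ : x₃ ∈ S γ := hts (by simp)
  have e₁ := levelMat_smul_eq_iff_aux N h γ (pt x₁) hx₁
  have e₂ := levelMat_smul_eq_iff_aux N h γ (pt x₂) hx₂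
  have e₃ := levelMat_smul_eq_iff_aux N h γ (pt x₃) hx₃
  have hne : ∀ {x y : ℝ}, x ≠ y → ((pt x : ℍ) : ℂ) ≠ pt y := by
    intro x y hxy hxy'
    rw [hpt, hpt] at hxy'
    exact hxy (by exact_mod_cast add_right_cancel hxy')
  obtain ⟨hA, hB, -⟩ := quad_coeffs_eq_zero (hne h12) (hne h13) (hne h23) e₁ e₂ e₃
  rw [mem_Gamma0_iff_dvd]
  have hN : (N : ℤ) ≠ 0 := by exact_mod_cast NeZero.ne N
  refine dvd_of_coeffs N hN (h 0 0) (h 0 1) (h 1 0) (h 1 1) (γ 0 0) (γ 0 1) (γ 1 0) (γ 1 1)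
    (SL2_det γ) ?_ ?_
  · have : ((N : ℤ) ^ 2 * h 0 0 * γ 1 0 - N * γ 0 0 * h 1 0 : ℂ) = 0 := by
      push_cast; exact hA
    exact_mod_cast this
  · have : ((N : ℤ) * h 0 0 * γ 1 1 + (N : ℤ) ^ 2 * h 0 1 * γ 1 0 - N * γ 0 0 * h 1 1 -
        γ 0 1 * h 1 0 : ℂ) = 0 := by
      push_cast; exact hB
    exact_mod_cast this


/-- **Distinct conjugates of `j_N`** (lemma X4): if `j_N ∘ g⁻¹ = j_N ∘ g'⁻¹` then `g` and `g'`
define the same coset of `Γ₀(N)`. -/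
theorem inv_mul_mem_Gamma0_of_forall_jInv_eq (N : ℕ) [NeZero N] (g g' : SL(2, ℤ))
    (H : ∀ z : ℍ, jInv (levelMat N • (g⁻¹ • z)) = jInv (levelMat N • (g'⁻¹ • z))) :
    g⁻¹ * g' ∈ Gamma0 N := by
  apply mem_Gamma0_of_forall_jInv_eq
  intro z
  have := H (g' • z)
  rwa [inv_smul_smul, ← mul_smul] at this

/-- For `h ∈ Γ₀(N)` the matrix `A_N h A_N⁻¹` is in `SL(2,ℤ)`. -/
lemma exists_levelMat_smul_eq (N : ℕ) [NeZero N] {h : SL(2, ℤ)} (hh : h ∈ Gamma0 N) :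
    ∃ h' : SL(2, ℤ), ∀ z : ℍ, levelMat N • (h • z) = h' • (levelMat N • z) := by
  rw [mem_Gamma0_iff_dvd] at hh
  obtain ⟨c', hc'⟩ := hh
  have hdet := SL2_det h
  refine ⟨⟨!![h 0 0, N * h 0 1; c', h 1 1], ?_⟩, fun z ↦ ?_⟩
  · rw [Matrix.det_fin_two_of]
    rw [hc'] at hdet
    linear_combination hdet
  · apply UpperHalfPlane.ext
    rw [coe_levelMat_smul, coe_specialLinearGroup_apply, coe_specialLinearGroup_apply,
      coe_levelMat_smul]
    simp only [algebraMap_int_eq, Int.coe_castRingHom, Complex.ofReal_intCast]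
    have h1 : ((h 1 0 : ℂ) * z + h 1 1) ≠ 0 := by
      have := denom_ne_zero (h : GL (Fin 2) ℝ) z
      simpa [denom_apply] using this
    have hc'' : (h 1 0 : ℂ) = N * c' := by exact_mod_cast congr_arg (Int.cast : ℤ → ℂ) hc'
    have h2 : ((c' : ℂ) * ((N : ℂ) * z) + h 1 1) ≠ 0 := by
      have : (c' : ℂ) * ((N : ℂ) * z) + h 1 1 = (h 1 0 : ℂ) * z + h 1 1 := by rw [hc'']; ring
      rw [this]; exact h1
    simp only [Matrix.of_apply, Matrix.cons_val', Matrix.cons_val_zero,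
      Matrix.cons_val_one, Matrix.cons_val_fin_one]
    rw [mul_div_assoc', div_eq_div_iff h1 h2]
    push_cast
    rw [hc'']
    ring

/-- `j_N` is invariant under `Γ₀(N)`. -/
theorem jInv_levelMat_smul_of_mem_Gamma0 (N : ℕ) [NeZero N] {h : SL(2, ℤ)} (hh : h ∈ Gamma0 N)
    (z : ℍ) : jInv (levelMat N • (h • z)) = jInv (levelMat N • z) := by
  obtain ⟨h', hh'⟩ := exists_levelMat_smul_eq N hh
  rw [hh', jInv_smul]

/-- `j(N·hz) = j(N·z)` for all `z` iff `h ∈ Γ₀(N)`. -/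
theorem forall_jInv_levelMat_smul_eq_iff (N : ℕ) [NeZero N] (h : SL(2, ℤ)) :
    (∀ z : ℍ, jInv (levelMat N • (h • z)) = jInv (levelMat N • z)) ↔ h ∈ Gamma0 N :=
  ⟨mem_Gamma0_of_forall_jInv_eq N h, fun hh z ↦ jInv_levelMat_smul_of_mem_Gamma0 N hh z⟩

/-- `j_N(z) = j(N z)` as a holomorphic function on `ℍ`. -/
def jN (N : ℕ) [NeZero N] : Hol :=
  Hol.comp (levelMat N) (levelMat_det_pos N) ⟨jInv, mdifferentiable_jInv⟩

@[simp] lemma jN_apply (N : ℕ) [NeZero N] (z : ℍ) :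
    (jN N : ℍ → ℂ) z = jInv (levelMat N • z) := rfl

lemma slComp_jN_of_mem_Gamma0 (N : ℕ) [NeZero N] {h : SL(2, ℤ)} (hh : h ∈ Gamma0 N) :
    Hol.slComp h (jN N) = jN N := by
  apply Hol.ext
  intro z
  simp only [Hol.slComp_apply, jN_apply]
  exact jInv_levelMat_smul_of_mem_Gamma0 N hh z

/-- The conjugates `j_N ∘ g⁻¹`, `g ∈ SL(2,ℤ)/Γ₀(N)`, are pairwise distinct. -/
theorem slComp_inv_jN_eq_iff (N : ℕ) [NeZero N] (g g' : SL(2, ℤ)) :
    Hol.slComp g⁻¹ (jN N) = Hol.slComp g'⁻¹ (jN N) ↔ g⁻¹ * g' ∈ Gamma0 N := by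
  constructor
  · intro H
    apply inv_mul_mem_Gamma0_of_forall_jInv_eq
    intro z
    have := congr_arg (fun F : Hol ↦ (F : ℍ → ℂ) z) H
    simpa using this
  · intro hh
    apply Hol.ext
    intro z
    simp only [Hol.slComp_apply, jN_apply]
    have := jInv_levelMat_smul_of_mem_Gamma0 N hh (g'⁻¹ • z)
    rw [← mul_smul, mul_assoc, mul_inv_cancel, mul_one] at this
    exact this

end Fermat.Agent.ProgramR
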