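/-
Program R, analytic package: `j_N ∈ WH0 (Γ₀(N))`.
For `g ∈ SL(2,ℤ)` the matrix `diag(N,1)·g` is `SL(2,ℤ)`-equivalent to an upper triangular matrix
`(a b; 0 d)` with `a d = N`, hence `j_N(g z) = j((az+b)/d)` has a pole of order at most `N` in `q`
at every cusp.
-/
import Fermat.Agent.ProgramR.Analytic.Conjugates
import Fermat.Agent.ProgramR.LevelOne.WH0

set_option autoImplicit false

noncomputable section

namespace Fermat.Agent.ProgramR

open UpperHalfPlane Filter Topology ModularGroup CongruenceSubgroup LevelOne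
open scoped Manifold MatrixGroups

/-- For coprime-free input: there is `Γ ∈ SL(2,ℤ)` whose bottom row kills the column `(x, y)`
when `(x, y) ≠ (0, 0)`. -/
lemma exists_SL_bottom_row_kills (x y : ℤ) (hxy : x ≠ 0 ∨ y ≠ 0) :
    ∃ Γ : SL(2, ℤ), Γ 1 0 * x + Γ 1 1 * y = 0 := by
  have hpos : 0 < Int.gcd x y := by
    rw [Nat.pos_iff_ne_zero, Ne, Int.gcd_eq_zero_iff]; tauto
  obtain ⟨x', y', hcop, hx', hy'⟩ := Int.exists_gcd_one hpos
  have hcop' : IsCoprime (-y') x' :=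
    (Int.isCoprime_iff_gcd_eq_one.mpr hcop).symm.neg_left
  obtain ⟨Γ, -, hΓ⟩ := ModularGroup.bottom_row_surj (R := ℤ)
    (show ![-y', x'] ∈ {cd : Fin 2 → ℤ | IsCoprime (cd 0) (cd 1)} by simpa using hcop')
  refine ⟨Γ, ?_⟩
  have h0 : Γ 1 0 = -y' := by
    have := congr_fun hΓ 0; simpa using this
  have h1 : Γ 1 1 = x' := by
    have := congr_fun hΓ 1; simpa using this
  rw [h0, h1]
  generalize (Int.gcd x y : ℤ) = δ at hx' hy'
  rw [hx', hy']
  ring


/-- **Triangular decomposition.**  For `g ∈ SL(2,ℤ)` there are integers `a, b, d` with `a d = N`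
such that `N·(g z)` is `SL(2,ℤ)`-equivalent to `(a z + b)/d` for every `z`. -/
lemma exists_triangular (N : ℕ) [NeZero N] (g : SL(2, ℤ)) :
    ∃ a b d : ℤ, a * d = N ∧ ∀ z : ℍ, ∃ w : ℍ, (w : ℂ) = ((a : ℂ) * z + b) / d ∧
      jInv (levelMat N • (g • z)) = jInv w := by
  have hN : (N : ℤ) ≠ 0 := by exact_mod_cast NeZero.ne N
  have hdet := SL2_det g
  have hxy : (N : ℤ) * g 0 0 ≠ 0 ∨ g 1 0 ≠ 0 := by
    by_contra hcon
    push Not at hcon
    have h00 : g 0 0 = 0 := (mul_eq_zero.mp hcon.1).resolve_left hN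
    rw [h00, hcon.2] at hdet
    simp at hdet
  obtain ⟨Γ, hΓ⟩ := exists_SL_bottom_row_kills _ _ hxy
  have hΓdet := SL2_det Γ
  refine ⟨Γ 0 0 * (N * g 0 0) + Γ 0 1 * g 1 0, Γ 0 0 * (N * g 0 1) + Γ 0 1 * g 1 1,
    Γ 1 0 * (N * g 0 1) + Γ 1 1 * g 1 1, ?_, fun z ↦ ⟨Γ • (levelMat N • (g • z)), ?_, ?_⟩⟩
  · linear_combination (Γ 0 0 * (N * g 0 1) + Γ 0 1 * g 1 1) * hΓ +
      (N : ℤ) * (g 0 0 * g 1 1 - g 0 1 * g 1 0) * hΓdet + (N : ℤ) * hdet
  · rw [coe_specialLinearGroup_apply, coe_levelMat_smul, coe_specialLinearGroup_apply]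
    simp only [algebraMap_int_eq, Int.coe_castRingHom, Complex.ofReal_intCast]
    set u : ℂ := (g 0 0 : ℂ) * z + g 0 1 with hu
    set v : ℂ := (g 1 0 : ℂ) * z + g 1 1 with hv
    have hv0 : v ≠ 0 := by
      have := denom_ne_zero (g : GL (Fin 2) ℝ) z
      simpa [denom_apply] using this
    have hΓ' : (Γ 1 0 : ℂ) * (N * g 0 0) + Γ 1 1 * g 1 0 = 0 := by exact_mod_cast hΓ
    have key : ∀ A B : ℂ, A * ((N : ℂ) * (u / v)) + B = (A * N * u + B * v) / v := by
      intro A B; field_simp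
    rw [key, key, div_div_div_cancel_right₀ hv0]
    congr 1
    · push_cast; rw [hu, hv]; ring
    · push_cast; rw [hu, hv]; linear_combination (z : ℂ) * hΓ'
  · rw [jInv_smul]


/-- Growth of `j((az+b)/d)` at `i∞`. -/
lemma isBoundedAtImInfty_jInv_triangular (N : ℕ) [NeZero N] (a b d : ℤ) (had : a * d = N)
    (w : ℍ → ℍ) (hw : ∀ z : ℍ, ((w z : ℍ) : ℂ) = ((a : ℂ) * z + b) / d) :
    IsBoundedAtImInfty (fun z : ℍ ↦ jInv (w z) * Function.Periodic.qParam 1 z ^ N) := by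
  have hN : (0 : ℝ) < N := by exact_mod_cast Nat.pos_of_ne_zero (NeZero.ne N)
  have hd0 : d ≠ 0 := by
    rintro rfl
    rw [mul_zero] at had
    exact (NeZero.ne N) (by exact_mod_cast had.symm)
  have hdR : (d : ℝ) ≠ 0 := by exact_mod_cast hd0
  have hadR : (a : ℝ) * d = N := by exact_mod_cast had
  -- the ratio `a/d`
  set r : ℝ := (a : ℝ) / d with hr
  have hr_eq : r = N / (d : ℝ) ^ 2 := by
    rw [hr, ← hadR]; field_simp
  have hr_pos : 0 < r := by
    rw [hr_eq]; positivity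
  have hr_le : r ≤ N := by
    rw [hr_eq]
    have h1 : (1 : ℝ) ≤ (d : ℝ) ^ 2 := by
      have : (1 : ℤ) ≤ d ^ 2 := by
        have := Int.one_le_abs hd0
        nlinarith [sq_abs d, abs_nonneg d]
      exact_mod_cast this
    exact div_le_self hN.le h1
  have him : ∀ z : ℍ, (w z).im = r * z.im := by
    intro z
    have h := congr_arg Complex.im (hw z)
    rw [UpperHalfPlane.coe_im] at h
    rw [h]
    have : ((a : ℂ) * z + b) / d = (((a : ℝ) / d : ℝ) : ℂ) * z + ((b : ℝ) / d : ℝ) := by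
      push_cast
      field_simp
    rw [this]
    simp [hr]
  have hwt : Tendsto w atImInfty atImInfty := by
    rw [atImInfty, tendsto_comap_iff]
    have : (UpperHalfPlane.im ∘ w) = fun z : ℍ ↦ r * z.im := funext him
    rw [this]
    exact (tendsto_comap (f := UpperHalfPlane.im) (x := atTop)).const_mul_atTop hr_pos
  have h1 : Tendsto (fun z : ℍ ↦ jInv (w z) * Function.Periodic.qParam 1 (w z)) atImInfty (𝓝 1) :=
    tendsto_jInv_mul_q.comp hwt
  have hb : IsBoundedAtImInfty (fun z : ℍ ↦ jInv (w z) * Function.Periodic.qParam 1 (w z)) :=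
    h1.isBigO_one ℝ
  rw [isBoundedAtImInfty_iff] at hb ⊢
  obtain ⟨M, A, hMA⟩ := hb
  refine ⟨M, max A 0, fun z hz ↦ ?_⟩
  have hzA : A ≤ z.im := (le_max_left _ _).trans hz
  have hM := hMA z hzA
  have hq1 : ‖Function.Periodic.qParam 1 (z : ℂ)‖ = Real.exp (-2 * Real.pi * z.im) := by
    rw [Function.Periodic.norm_qParam]; simp
  have hq2 : ‖Function.Periodic.qParam 1 ((w z : ℍ) : ℂ)‖ = Real.exp (-2 * Real.pi * (r * z.im)) := by
    rw [Function.Periodic.norm_qParam]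
    have : ((w z : ℍ) : ℂ).im = r * z.im := him z
    rw [this]; simp
  rw [norm_mul] at hM ⊢
  rw [hq2] at hM
  rw [norm_pow, hq1, ← Real.exp_nat_mul]
  have hle : Real.exp (N * (-2 * Real.pi * z.im)) ≤ Real.exp (-2 * Real.pi * (r * z.im)) := by
    apply Real.exp_le_exp.mpr
    have hy : 0 < z.im := z.im_pos
    have hpi := Real.pi_pos
    nlinarith [mul_le_mul_of_nonneg_right hr_le (mul_nonneg hpi.le hy.le)]
  calc ‖jInv (w z)‖ * Real.exp (N * (-2 * Real.pi * z.im))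
      ≤ ‖jInv (w z)‖ * Real.exp (-2 * Real.pi * (r * z.im)) :=
        mul_le_mul_of_nonneg_left hle (norm_nonneg _)
    _ ≤ M := hM


/-- `j_N` has a pole of order at most `N` at every cusp. -/
theorem isBoundedAtImInfty_jN_smul (N : ℕ) [NeZero N] (g : SL(2, ℤ)) :
    IsBoundedAtImInfty
      (fun z : ℍ ↦ (jN N : ℍ → ℂ) (g • z) * ModularForm.discriminant z ^ N) := by
  rw [isBoundedAtImInfty_mul_discriminant_pow_iff]
  obtain ⟨a, b, d, had, hw⟩ := exists_triangular N g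
  choose w hw1 hw2 using hw
  have := isBoundedAtImInfty_jInv_triangular N a b d had w hw1
  refine Asymptotics.IsBigO.congr_left this fun z ↦ ?_
  simp only [jN_apply, hw2 z]

/-- **`j_N` is a weakly holomorphic modular function for `Γ₀(N)`.** -/
theorem isWH0_jN (N : ℕ) [NeZero N] : IsWH0 (Gamma0 N) (jN N : ℍ → ℂ) where
  mdiff := (jN N).2
  smul_eq := fun γ hγ z ↦ by
    simp only [jN_apply]
    exact jInv_levelMat_smul_of_mem_Gamma0 N hγ z
  exists_bdd := ⟨N, fun g ↦ isBoundedAtImInfty_jN_smul N g⟩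

/-- `j_N` as an element of `WH0 (Γ₀(N))`. -/
def jNWH0 (N : ℕ) [NeZero N] : WH0 (Gamma0 N) := ⟨jN N, isWH0_jN N⟩

end Fermat.Agent.ProgramR
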