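/-
Program R, B2 part 1: the ring `WH0 Γ` of weakly holomorphic modular functions as a domain inside
`Hol`, its `ℂ[X]`-algebra structure (`X ↦ j`), translates `h ∘ g` and the conjugate polynomial
`∏_{x ∈ SL2Z/Γ} (T - h ∘ g_x⁻¹)`, which has coefficients in `ℂ[j]`.
-/
import Fermat.Agent.ProgramR.Analytic.HolRing
import Fermat.Agent.ProgramR.LevelOne.WH0

set_option autoImplicit false

noncomputable section

namespace Fermat.Agent.ProgramR

open UpperHalfPlane Polynomial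
open scoped Manifold MatrixGroups

variable (Γ : Subgroup SL(2, ℤ))

/-- The inclusion of `WH0 Γ` into the ring of holomorphic functions. -/
def WH0.toHol : WH0 Γ →ₐ[ℂ] Hol where
  toFun h := ⟨h.1, h.2.mdiff⟩
  map_one' := rfl
  map_mul' _ _ := rfl
  map_zero' := rfl
  map_add' _ _ := rfl
  commutes' _ := rfl

@[simp] lemma WH0.toHol_apply (h : WH0 Γ) (z : ℍ) : (WH0.toHol Γ h : ℍ → ℂ) z = h.1 z := rfl

lemma WH0.toHol_injective : Function.Injective (WH0.toHol Γ) := by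
  intro a b hab
  apply Subtype.ext
  exact congrArg (fun f : Hol => (f : ℍ → ℂ)) hab

instance : IsDomain (WH0 Γ) :=
  (WH0.toHol_injective Γ).isDomain (WH0.toHol Γ).toRingHom

/-- `j` as an element of `WH0 Γ`. -/
def WH0.j : WH0 Γ := ⟨LevelOne.jInv, LevelOne.jInv_mem_WH0 Γ⟩

@[simp] lemma WH0.j_apply (z : ℍ) : (WH0.j Γ).1 z = LevelOne.jInv z := rfl

/-- `WH0 Γ` is a `ℂ[X]`-algebra via `X ↦ j`. -/
instance WH0.polyAlgebra : Algebra ℂ[X] (WH0 Γ) := (Polynomial.aeval (WH0.j Γ)).toRingHom.toAlgebra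

lemma WH0.algebraMap_poly (p : ℂ[X]) : algebraMap ℂ[X] (WH0 Γ) p = Polynomial.aeval (WH0.j Γ) p :=
  rfl

instance : IsScalarTower ℂ ℂ[X] (WH0 Γ) :=
  IsScalarTower.of_algebraMap_eq fun c => by
    rw [WH0.algebraMap_poly, Polynomial.algebraMap_apply, Polynomial.aeval_C]
    rfl

lemma WH0.aeval_j_apply (p : ℂ[X]) (z : ℍ) :
    (Polynomial.aeval (WH0.j Γ) p).1 z = p.eval (LevelOne.jInv z) := by
  induction p using Polynomial.induction_on' with
  | add p q hp hq =>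
    rw [map_add, Polynomial.eval_add, ← hp, ← hq]
    rfl
  | monomial n a =>
    rw [Polynomial.aeval_monomial, Polynomial.eval_monomial]
    rfl

lemma WH0.algebraMap_poly_apply (p : ℂ[X]) (z : ℍ) :
    (algebraMap ℂ[X] (WH0 Γ) p).1 z = p.eval (LevelOne.jInv z) :=
  WH0.aeval_j_apply Γ p z

lemma WH0.algebraMap_poly_injective : Function.Injective (algebraMap ℂ[X] (WH0 Γ)) := by
  rw [injective_iff_map_eq_zero]
  intro p hp
  apply Polynomial.funext
  intro c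
  obtain ⟨z, rfl⟩ := LevelOne.jInv_surjective c
  rw [← WH0.algebraMap_poly_apply Γ p z, hp, Polynomial.eval_zero]
  rfl

instance : FaithfulSMul ℂ[X] (WH0 Γ) :=
  (faithfulSMul_iff_algebraMap_injective _ _).2 (WH0.algebraMap_poly_injective Γ)

instance : Module.IsTorsionFree ℂ[X] (WH0 Γ) := inferInstance


/-! ### Translates and conjugates -/

lemma isWH0_bot_translate (g : SL(2, ℤ)) {h : ℍ → ℂ} (H : IsWH0 ⊥ h) :
    IsWH0 ⊥ (fun z => h (g • z)) where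
  mdiff := (Hol.slComp g ⟨h, H.mdiff⟩).2
  smul_eq := by
    intro γ hγ z
    rw [Subgroup.mem_bot] at hγ
    subst hγ
    simp
  exists_bdd := by
    obtain ⟨m, hm⟩ := H.exists_bdd
    refine ⟨m, fun g' => ?_⟩
    have := hm (g * g')
    simpa [mul_smul] using this

/-- Translation `h ↦ h ∘ g` on `WH0 ⊥`. -/
def WH0.translate (g : SL(2, ℤ)) : WH0 (⊥ : Subgroup SL(2, ℤ)) →ₐ[ℂ] WH0 (⊥ : Subgroup SL(2, ℤ)) where
  toFun h := ⟨fun z => h.1 (g • z), isWH0_bot_translate g h.2⟩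
  map_one' := rfl
  map_mul' _ _ := rfl
  map_zero' := rfl
  map_add' _ _ := rfl
  commutes' _ := rfl

@[simp] lemma WH0.translate_apply (g : SL(2, ℤ)) (h : WH0 (⊥ : Subgroup SL(2, ℤ))) (z : ℍ) :
    (WH0.translate g h).1 z = h.1 (g • z) := rfl

lemma WH0.translate_mul (g g' : SL(2, ℤ)) (h : WH0 (⊥ : Subgroup SL(2, ℤ))) :
    WH0.translate (g * g') h = WH0.translate g' (WH0.translate g h) := by
  apply Subtype.ext
  funext z
  simp [mul_smul]

/-- The inclusion `WH0 Γ → WH0 ⊥`. -/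
def WH0.incl : WH0 Γ →ₐ[ℂ] WH0 (⊥ : Subgroup SL(2, ℤ)) :=
  Subalgebra.inclusion (WH0_mono bot_le)

@[simp] lemma WH0.incl_apply (h : WH0 Γ) (z : ℍ) : (WH0.incl Γ h).1 z = h.1 z := rfl

lemma WH0.incl_injective : Function.Injective (WH0.incl Γ) :=
  Subalgebra.inclusion_injective _

lemma WH0.incl_algebraMap (p : ℂ[X]) :
    WH0.incl Γ (algebraMap ℂ[X] (WH0 Γ) p) = algebraMap ℂ[X] (WH0 (⊥ : Subgroup SL(2, ℤ))) p := by
  apply Subtype.ext
  funext z
  rw [WH0.incl_apply, WH0.algebraMap_poly_apply, WH0.algebraMap_poly_apply]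

lemma WH0.translate_algebraMap (g : SL(2, ℤ)) (p : ℂ[X]) :
    WH0.translate g (algebraMap ℂ[X] (WH0 (⊥ : Subgroup SL(2, ℤ))) p) =
      algebraMap ℂ[X] (WH0 (⊥ : Subgroup SL(2, ℤ))) p := by
  apply Subtype.ext
  funext z
  rw [WH0.translate_apply, WH0.algebraMap_poly_apply, WH0.algebraMap_poly_apply,
    LevelOne.jInv_smul]

variable {Γ}

/-- The conjugate `h ∘ g⁻¹` of `h ∈ WH0 Γ` attached to the coset `g Γ`. -/
def WH0.conjFun (h : WH0 Γ) : SL(2, ℤ) ⧸ Γ → WH0 (⊥ : Subgroup SL(2, ℤ)) :=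
  fun x => Quotient.liftOn' x (fun g => WH0.translate g⁻¹ (WH0.incl Γ h)) (by
    intro a b hab
    rw [QuotientGroup.leftRel_apply] at hab
    apply Subtype.ext
    funext z
    simp only [WH0.translate_apply, WH0.incl_apply]
    have h1 : b⁻¹ • z = (a⁻¹ * b)⁻¹ • (a⁻¹ • z) := by
      rw [← mul_smul]; congr 1; group
    rw [h1, h.2.smul_eq _ (Γ.inv_mem hab)])

@[simp] lemma WH0.conjFun_mk (h : WH0 Γ) (g : SL(2, ℤ)) :
    WH0.conjFun h (QuotientGroup.mk g) = WH0.translate g⁻¹ (WH0.incl Γ h) := rfl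

lemma WH0.conjFun_one (h : WH0 Γ) :
    WH0.conjFun h (QuotientGroup.mk 1) = WH0.incl Γ h := by
  rw [WH0.conjFun_mk]
  apply Subtype.ext
  funext z
  simp

lemma WH0.translate_conjFun (h : WH0 Γ) (δ : SL(2, ℤ)) (x : SL(2, ℤ) ⧸ Γ) :
    WH0.translate δ (WH0.conjFun h x) = WH0.conjFun h (δ⁻¹ • x) := by
  induction x using QuotientGroup.induction_on with
  | H g =>
    rw [MulAction.Quotient.smul_mk, WH0.conjFun_mk, WH0.conjFun_mk, ← WH0.translate_mul,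
      smul_eq_mul]
    congr 1
    group

variable [Fintype (SL(2, ℤ) ⧸ Γ)]

/-- The conjugate polynomial `∏_x (T - h ∘ g_x⁻¹)`. -/
def WH0.conjPoly (h : WH0 Γ) : (WH0 (⊥ : Subgroup SL(2, ℤ)))[X] :=
  ∏ x : SL(2, ℤ) ⧸ Γ, (X - C (WH0.conjFun h x))

lemma WH0.conjPoly_monic (h : WH0 Γ) : (WH0.conjPoly h).Monic :=
  Polynomial.monic_prod_of_monic _ _ (fun x _ => Polynomial.monic_X_sub_C _)

lemma WH0.natDegree_conjPoly (h : WH0 Γ) :
    (WH0.conjPoly h).natDegree = Fintype.card (SL(2, ℤ) ⧸ Γ) := by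
  rw [WH0.conjPoly, Polynomial.natDegree_prod_of_monic _ _ (fun _ _ => Polynomial.monic_X_sub_C _)]
  simp

lemma WH0.map_translate_conjPoly (h : WH0 Γ) (δ : SL(2, ℤ)) :
    (WH0.conjPoly h).map (WH0.translate δ).toRingHom = WH0.conjPoly h := by
  rw [WH0.conjPoly, Polynomial.map_prod]
  simp only [Polynomial.map_sub, Polynomial.map_X, Polynomial.map_C, AlgHom.toRingHom_eq_coe,
    RingHom.coe_coe, WH0.translate_conjFun]
  exact Fintype.prod_equiv (MulAction.toPerm δ⁻¹) _ _ (fun _ => rfl)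

lemma WH0.eval_incl_conjPoly (h : WH0 Γ) : (WH0.conjPoly h).eval (WH0.incl Γ h) = 0 := by
  rw [WH0.conjPoly, Polynomial.eval_prod]
  apply Finset.prod_eq_zero (Finset.mem_univ (QuotientGroup.mk 1 : SL(2, ℤ) ⧸ Γ))
  rw [Polynomial.eval_sub, Polynomial.eval_X, Polynomial.eval_C, WH0.conjFun_one, sub_self]

lemma WH0.isWH0_top_coeff_conjPoly (h : WH0 Γ) (k : ℕ) :
    IsWH0 ⊤ ((WH0.conjPoly h).coeff k).1 where
  mdiff := ((WH0.conjPoly h).coeff k).2.mdiff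
  smul_eq := by
    intro γ _ z
    have h1 := congrArg (fun p => (p.coeff k).1 z) (WH0.map_translate_conjPoly h γ)
    simp only [Polynomial.coeff_map, AlgHom.toRingHom_eq_coe, RingHom.coe_coe,
      WH0.translate_apply] at h1
    exact h1
  exists_bdd := ((WH0.conjPoly h).coeff k).2.exists_bdd

/-- The conjugate polynomial has coefficients in `ℂ[j]`: it is the image of a monic polynomial of
degree `[SL2Z : Γ]` over `ℂ[X]`. -/
theorem WH0.exists_monic_map_eq_conjPoly (h : WH0 Γ) :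
    ∃ Q : ℂ[X][X], Q.Monic ∧ Q.natDegree = Fintype.card (SL(2, ℤ) ⧸ Γ) ∧
      Q.map (algebraMap ℂ[X] (WH0 (⊥ : Subgroup SL(2, ℤ)))) = WH0.conjPoly h := by
  have hl : WH0.conjPoly h ∈ Polynomial.lifts (algebraMap ℂ[X] (WH0 (⊥ : Subgroup SL(2, ℤ)))) := by
    rw [Polynomial.lifts_iff_coeff_lifts]
    intro k
    obtain ⟨P, hP⟩ := LevelOne.exists_polynomial_of_isWH0 (WH0.isWH0_top_coeff_conjPoly h k)
    refine ⟨P, ?_⟩
    apply Subtype.ext
    funext z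
    rw [WH0.algebraMap_poly_apply, hP z]
  obtain ⟨Q, hQ1, hQ2, hQ3⟩ :=
    Polynomial.lifts_and_natDegree_eq_and_monic hl (WH0.conjPoly_monic h)
  exact ⟨Q, hQ3, by rw [hQ2, WH0.natDegree_conjPoly], hQ1⟩

/-- Every `h ∈ WH0 Γ` is a root of a monic polynomial of degree `[SL2Z : Γ]` over `ℂ[X]`. -/
theorem WH0.exists_monic_aeval_eq_zero (h : WH0 Γ) :
    ∃ Q : ℂ[X][X], Q.Monic ∧ Q.natDegree = Fintype.card (SL(2, ℤ) ⧸ Γ) ∧
      Polynomial.aeval h Q = 0 := by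
  obtain ⟨Q, hQ1, hQ2, hQ3⟩ := WH0.exists_monic_map_eq_conjPoly h
  refine ⟨Q, hQ1, hQ2, ?_⟩
  apply WH0.incl_injective Γ
  rw [map_zero, ← WH0.eval_incl_conjPoly h, ← hQ3, Polynomial.eval_map, Polynomial.aeval_def]
  have h1 := Polynomial.hom_eval₂ Q (algebraMap ℂ[X] (WH0 Γ)) (WH0.incl Γ).toRingHom h
  have h2 : (WH0.incl Γ).toRingHom.comp (algebraMap ℂ[X] (WH0 Γ)) =
      algebraMap ℂ[X] (WH0 (⊥ : Subgroup SL(2, ℤ))) :=
    RingHom.ext (fun p => WH0.incl_algebraMap Γ p)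
  rw [h2] at h1
  exact h1

instance : Algebra.IsIntegral ℂ[X] (WH0 Γ) :=
  ⟨fun h => by
    obtain ⟨Q, hQ1, _, hQ3⟩ := WH0.exists_monic_aeval_eq_zero h
    exact ⟨Q, hQ1, hQ3⟩⟩

end Fermat.Agent.ProgramR
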