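/-
Program R, B2 part 2: `WH0 Γ` is integrally closed (given that `Hol` is), by the division lemma,
`Γ`-invariance of the quotient and the Cauchy bound for roots of monic polynomials.
-/
import Fermat.Agent.ProgramR.Analytic.WH0Ring

set_option autoImplicit false

noncomputable section

namespace Fermat.Agent.ProgramR

open UpperHalfPlane Polynomial Filter
open scoped Manifold MatrixGroups

/-- Cauchy bound: a root `w` of `T^n + ∑_{i<n} a_i T^i` satisfies `‖w‖ ≤ 1 + ∑ ‖a_i‖`. -/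
lemma norm_le_of_monic_root (w : ℂ) (n : ℕ) (a : ℕ → ℂ)
    (h : w ^ n + ∑ i ∈ Finset.range n, a i * w ^ i = 0) :
    ‖w‖ ≤ 1 + ∑ i ∈ Finset.range n, ‖a i‖ := by
  have hsum_nonneg : 0 ≤ ∑ i ∈ Finset.range n, ‖a i‖ := Finset.sum_nonneg (fun _ _ => norm_nonneg _)
  by_cases hw : ‖w‖ ≤ 1
  · linarith
  push Not at hw
  rcases Nat.eq_zero_or_pos n with rfl | hn
  · simp at h
  have h1 : w ^ n = -∑ i ∈ Finset.range n, a i * w ^ i := eq_neg_of_add_eq_zero_left h
  have h2 : ‖w‖ ^ n ≤ (∑ i ∈ Finset.range n, ‖a i‖) * ‖w‖ ^ (n - 1) := by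
    calc ‖w‖ ^ n = ‖w ^ n‖ := (norm_pow w n).symm
      _ = ‖∑ i ∈ Finset.range n, a i * w ^ i‖ := by rw [h1, norm_neg]
      _ ≤ ∑ i ∈ Finset.range n, ‖a i * w ^ i‖ := norm_sum_le _ _
      _ ≤ ∑ i ∈ Finset.range n, ‖a i‖ * ‖w‖ ^ (n - 1) := by
        apply Finset.sum_le_sum
        intro i hi
        rw [norm_mul, norm_pow]
        apply mul_le_mul_of_nonneg_left _ (norm_nonneg _)
        apply pow_le_pow_right₀ hw.le
        have := Finset.mem_range.1 hi
        omega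
      _ = (∑ i ∈ Finset.range n, ‖a i‖) * ‖w‖ ^ (n - 1) := (Finset.sum_mul _ _ _).symm
  have h3 : ‖w‖ ^ n = ‖w‖ * ‖w‖ ^ (n - 1) := by
    rw [← pow_succ']
    congr 1
    omega
  rw [h3] at h2
  have hpos : 0 < ‖w‖ ^ (n - 1) := pow_pos (by linarith) _
  have := le_of_mul_le_mul_right h2 hpos
  linarith

variable (Γ : Subgroup SL(2, ℤ))

/-- A holomorphic function which is a root of a monic polynomial with coefficients in `WH0 Γ`
is meromorphic at the cusps. -/
lemma exists_bdd_of_monic_root (c : Hol) (P : (WH0 Γ)[X]) (hP : P.Monic)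
    (hroot : Polynomial.eval₂ (WH0.toHol Γ).toRingHom c P = 0) :
    ∃ m : ℕ, ∀ g : SL(2, ℤ),
      IsBoundedAtImInfty (fun z : ℍ => (c : ℍ → ℂ) (g • z) * ModularForm.discriminant z ^ m) := by
  classical
  set n := P.natDegree
  -- pointwise equation
  have hpt : ∀ z : ℍ, ((c : ℍ → ℂ) z) ^ n +
      ∑ i ∈ Finset.range n, (P.coeff i).1 z * ((c : ℍ → ℂ) z) ^ i = 0 := by
    intro z
    have h1 := congrArg (Hol.evalAt z) hroot
    rw [Polynomial.hom_eval₂, map_zero, Polynomial.eval₂_eq_sum_range, Finset.sum_range_succ,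
      add_comm] at h1
    have h2 : P.coeff P.natDegree = 1 := hP
    rw [h2] at h1
    simpa using h1
  have hbound : ∀ z : ℍ, ‖(c : ℍ → ℂ) z‖ ≤ 1 + ∑ i ∈ Finset.range n, ‖(P.coeff i).1 z‖ :=
    fun z => norm_le_of_monic_root _ n (fun i => (P.coeff i).1 z) (hpt z)
  -- a common exponent
  choose mfun hmfun using fun i : ℕ => (P.coeff i).2.exists_bdd
  let m := (Finset.range n).sup mfun
  refine ⟨m, fun g => ?_⟩
  have hcoef : ∀ i ∈ Finset.range n, IsBoundedAtImInfty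
      (fun z : ℍ => (P.coeff i).1 (g • z) * ModularForm.discriminant z ^ m) :=
    fun i hi => IsWH0.bdd_of_le (Finset.le_sup hi) (hmfun i) g
  have h0 : IsBoundedAtImInfty (fun z : ℍ => ModularForm.discriminant z ^ m) :=
    isBoundedAtImInfty_discriminant_pow m
  rw [isBoundedAtImInfty_iff] at h0
  obtain ⟨M0, A0, h0⟩ := h0
  have hcoef' : ∀ i : ℕ, ∃ M A : ℝ, i ∈ Finset.range n → ∀ z : ℍ, A ≤ z.im →
      ‖(P.coeff i).1 (g • z) * ModularForm.discriminant z ^ m‖ ≤ M := by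
    intro i
    by_cases hi : i ∈ Finset.range n
    · obtain ⟨M, A, h⟩ := isBoundedAtImInfty_iff.1 (hcoef i hi)
      exact ⟨M, A, fun _ => h⟩
    · exact ⟨0, 0, fun h => absurd h hi⟩
  choose Mi Ai hMA using hcoef'
  rw [isBoundedAtImInfty_iff]
  refine ⟨M0 + ∑ i ∈ Finset.range n, Mi i, |A0| + ∑ i ∈ Finset.range n, |Ai i|, fun z hz => ?_⟩
  have hA0 : A0 ≤ z.im := by
    have : 0 ≤ ∑ i ∈ Finset.range n, |Ai i| := Finset.sum_nonneg (fun _ _ => abs_nonneg _)
    linarith [le_abs_self A0]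
  have hAi : ∀ i ∈ Finset.range n, Ai i ≤ z.im := by
    intro i hi
    have : |Ai i| ≤ ∑ i ∈ Finset.range n, |Ai i| :=
      Finset.single_le_sum (f := fun i => |Ai i|) (fun _ _ => abs_nonneg _) hi
    linarith [le_abs_self (Ai i), abs_nonneg A0]
  calc ‖(c : ℍ → ℂ) (g • z) * ModularForm.discriminant z ^ m‖
      = ‖(c : ℍ → ℂ) (g • z)‖ * ‖ModularForm.discriminant z ^ m‖ := norm_mul _ _
    _ ≤ (1 + ∑ i ∈ Finset.range n, ‖(P.coeff i).1 (g • z)‖) * ‖ModularForm.discriminant z ^ m‖ :=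
        mul_le_mul_of_nonneg_right (hbound _) (norm_nonneg _)
    _ = ‖ModularForm.discriminant z ^ m‖ +
        ∑ i ∈ Finset.range n, ‖(P.coeff i).1 (g • z) * ModularForm.discriminant z ^ m‖ := by
        rw [add_mul, one_mul, Finset.sum_mul]
        congr 1
        exact Finset.sum_congr rfl (fun i _ => (norm_mul _ _).symm)
    _ ≤ M0 + ∑ i ∈ Finset.range n, Mi i :=
        add_le_add (h0 z hA0) (Finset.sum_le_sum (fun i hi => hMA i hi z (hAi i hi)))

/-- `WH0 Γ` is integrally closed, provided `Hol` is. -/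
theorem WH0.isIntegrallyClosed [IsIntegrallyClosed Hol] : IsIntegrallyClosed (WH0 Γ) := by
  rw [isIntegrallyClosed_iff (FractionRing (WH0 Γ))]
  intro x hx
  obtain ⟨a, b, hb, rfl⟩ := IsFractionRing.div_surjective (WH0 Γ) x
  have hb0 : b ≠ 0 := nonZeroDivisors.ne_zero hb
  let ι : WH0 Γ →+* Mer := (algebraMap Hol Mer).comp (WH0.toHol Γ).toRingHom
  have hι : Function.Injective ι :=
    (IsFractionRing.injective Hol Mer).comp (WH0.toHol_injective Γ)
  let ψ : FractionRing (WH0 Γ) →+* Mer := IsFractionRing.lift hι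
  have hψ : ∀ h : WH0 Γ, ψ (algebraMap (WH0 Γ) (FractionRing (WH0 Γ)) h) =
      algebraMap Hol Mer (WH0.toHol Γ h) := fun h => IsFractionRing.lift_algebraMap hι h
  have hcomp : (algebraMap Hol Mer).comp (WH0.toHol Γ).toRingHom =
      ψ.comp (algebraMap (WH0 Γ) (FractionRing (WH0 Γ))) :=
    RingHom.ext (fun h => (hψ h).symm)
  have hint : IsIntegral Hol (ψ (algebraMap (WH0 Γ) (FractionRing (WH0 Γ)) a /
      algebraMap (WH0 Γ) (FractionRing (WH0 Γ)) b)) :=
    IsIntegral.map_of_comp_eq (WH0.toHol Γ).toRingHom ψ hcomp hx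
  obtain ⟨c, hc⟩ := IsIntegrallyClosed.isIntegral_iff.1 hint
  have hb0' : algebraMap Hol Mer (WH0.toHol Γ b) ≠ 0 := by
    intro h
    apply hb0
    apply WH0.toHol_injective Γ
    apply IsFractionRing.injective Hol Mer
    rw [h, map_zero, map_zero]
  -- `a = b * c` in `Hol`
  have habc : WH0.toHol Γ a = WH0.toHol Γ b * c := by
    apply IsFractionRing.injective Hol Mer
    rw [map_mul, hc, map_div₀, hψ, hψ, mul_div_cancel₀ _ hb0']
  have hbH : WH0.toHol Γ b ≠ 0 := fun h => hb0' (by rw [h, map_zero])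
  -- invariance of `c`
  have hinv : ∀ γ ∈ Γ, ∀ z : ℍ, (c : ℍ → ℂ) (γ • z) = (c : ℍ → ℂ) z := by
    intro γ hγ
    have h1 : Hol.slComp γ (WH0.toHol Γ a) = WH0.toHol Γ a :=
      Hol.ext (fun z => a.2.smul_eq γ hγ z)
    have h2 : Hol.slComp γ (WH0.toHol Γ b) = WH0.toHol Γ b :=
      Hol.ext (fun z => b.2.smul_eq γ hγ z)
    have h3 : WH0.toHol Γ b * Hol.slComp γ c = WH0.toHol Γ b * c := by
      rw [← habc, ← h1, habc, map_mul, h2]
    have h4 := mul_left_cancel₀ hbH h3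
    intro z
    exact congrArg (fun f : Hol => (f : ℍ → ℂ) z) h4
  -- integrality equation for `c`
  obtain ⟨P, hPm, hPx⟩ := hx
  have hroot : Polynomial.eval₂ (WH0.toHol Γ).toRingHom c P = 0 := by
    apply IsFractionRing.injective Hol Mer
    have h1 := congrArg ψ hPx
    rw [Polynomial.hom_eval₂, map_zero, ← hcomp, ← hc] at h1
    rw [map_zero, Polynomial.hom_eval₂]
    exact h1
  obtain ⟨m, hm⟩ := exists_bdd_of_monic_root Γ c P hPm hroot
  refine ⟨⟨(c : ℍ → ℂ), ⟨c.2, hinv, ⟨m, hm⟩⟩⟩, ?_⟩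
  rw [eq_div_iff (by
    intro h
    apply hb0
    apply IsFractionRing.injective (WH0 Γ) (FractionRing (WH0 Γ))
    rw [h, map_zero]), ← map_mul]
  congr 1
  apply WH0.toHol_injective Γ
  rw [map_mul, habc, mul_comm]
  rfl

end Fermat.Agent.ProgramR
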