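/-
Program R, B2 part 3: for `Γ` of finite index, `WH0 Γ` is a Dedekind domain, finite over `ℂ[X]`
(`X ↦ j`), and its fraction field has degree at most `[SL2Z : Γ]` over `ℂ(X)`.
(Depends on `IsIntegrallyClosed Hol`, taken as an instance argument.)
-/
import Fermat.Agent.ProgramR.Analytic.WH0Closed

set_option autoImplicit false

noncomputable section

namespace Fermat.Agent.ProgramR

open UpperHalfPlane Polynomial Module IntermediateField
open scoped Manifold MatrixGroups nonZeroDivisors

section BoundedDegree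

variable {K F : Type*} [Field K] [Field F] [Algebra K F]

/-- A separable algebraic extension in which all elements have degree `≤ μ` is finite of degree
`≤ μ`. -/
theorem finrank_le_of_forall_natDegree_minpoly_le [Algebra.IsAlgebraic K F]
    [Algebra.IsSeparable K F] (μ : ℕ) (h : ∀ x : F, (minpoly K x).natDegree ≤ μ) :
    FiniteDimensional K F ∧ finrank K F ≤ μ := by
  classical
  obtain ⟨α, hα⟩ : ∃ α : F, ∀ x : F, (minpoly K x).natDegree ≤ (minpoly K α).natDegree := by
    by_contra hcon
    push Not at hcon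
    have : ∀ n : ℕ, ∃ x : F, n ≤ (minpoly K x).natDegree := by
      intro n
      induction n with
      | zero => exact ⟨0, Nat.zero_le _⟩
      | succ n ih =>
        obtain ⟨x, hx⟩ := ih
        obtain ⟨y, hy⟩ := hcon x
        exact ⟨y, by omega⟩
    obtain ⟨x, hx⟩ := this (μ + 1)
    have := h x
    omega
  have hαint : IsIntegral K α := Algebra.IsIntegral.isIntegral α
  have htop : K⟮α⟯ = ⊤ := by
    rw [eq_top_iff]
    intro β _
    let E : IntermediateField K F := adjoin K {α, β}
    have hfin : FiniteDimensional K E :=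
      finiteDimensional_adjoin (fun x _ => Algebra.IsIntegral.isIntegral x)
    obtain ⟨γ, hγ⟩ := Field.exists_primitive_element K E
    have hγint : IsIntegral K γ := Algebra.IsIntegral.isIntegral γ
    have h1 : finrank K E = (minpoly K (γ : F)).natDegree := by
      have e1 : finrank K K⟮γ⟯ = (minpoly K γ).natDegree := adjoin.finrank hγint
      rw [hγ, finrank_top'] at e1
      rw [e1, minpoly_eq]
    have h2 : finrank K K⟮α⟯ = (minpoly K α).natDegree := adjoin.finrank hαint
    have hle : K⟮α⟯ ≤ E := adjoin.mono K _ _ (by simp)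
    have h3 : finrank K E ≤ finrank K K⟮α⟯ := by
      rw [h1, h2]; exact hα _
    have heq : K⟮α⟯ = E := eq_of_le_of_finrank_le hle h3
    rw [heq]
    exact subset_adjoin K _ (by simp)
  have hfinα : FiniteDimensional K K⟮α⟯ := adjoin.finiteDimensional hαint
  have hfinF : FiniteDimensional K F := by
    rw [htop] at hfinα
    exact (topEquiv (F := K) (E := F)).toLinearEquiv.finiteDimensional
  refine ⟨hfinF, ?_⟩
  have h2 : finrank K K⟮α⟯ = (minpoly K α).natDegree := adjoin.finrank hαint
  rw [htop, finrank_top'] at h2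
  rw [h2]
  exact h α

end BoundedDegree

section Structure

attribute [local instance] FractionRing.liftAlgebra

variable (Γ : Subgroup SL(2, ℤ)) [Fintype (SL(2, ℤ) ⧸ Γ)]

/-- Abbreviation: the function field `Frac (WH0 Γ)`. -/
abbrev WH0.FunField : Type := FractionRing (WH0 Γ)

/-- Abbreviation: `ℂ(X)`. -/
abbrev RatC : Type := FractionRing ℂ[X]

instance : Algebra.IsAlgebraic RatC (WH0.FunField Γ) := by
  have h1 : Algebra.IsAlgebraic ℂ[X] (WH0 Γ) := inferInstance
  have h2 : Algebra.IsAlgebraic ℂ[X] (WH0.FunField Γ) :=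
    (IsFractionRing.isAlgebraic_iff' ℂ[X] (WH0 Γ) (WH0.FunField Γ)).1 h1
  exact IsFractionRing.comap_isAlgebraic_iff.1 h2

lemma WH0.natDegree_minpoly_le (x : WH0.FunField Γ) :
    (minpoly RatC x).natDegree ≤ Fintype.card (SL(2, ℤ) ⧸ Γ) := by
  obtain ⟨⟨s, ⟨_, r, hr, rfl⟩⟩, hx⟩ :=
    IsLocalization.surj (Algebra.algebraMapSubmonoid (WH0 Γ) ℂ[X]⁰) x
  simp only at hx
  obtain ⟨Q, hQ1, hQ2, hQ3⟩ := WH0.exists_monic_aeval_eq_zero s
  have hr0 : algebraMap ℂ[X] RatC r ≠ 0 := by
    intro h
    exact (nonZeroDivisors.ne_zero hr) ((IsFractionRing.injective ℂ[X] RatC) (by rw [h, map_zero]))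
  let QK : RatC[X] := (Q.map (algebraMap ℂ[X] RatC)).comp (C (algebraMap ℂ[X] RatC r) * X)
  have hQKdeg : QK.natDegree = Fintype.card (SL(2, ℤ) ⧸ Γ) := by
    rw [Polynomial.natDegree_comp, Polynomial.natDegree_C_mul_X _ hr0, mul_one,
      hQ1.natDegree_map, hQ2]
  have hQK0 : QK ≠ 0 := by
    intro h
    rw [h, Polynomial.natDegree_zero] at hQKdeg
    exact Fintype.card_ne_zero hQKdeg.symm
  have hroot : Polynomial.aeval x QK = 0 := by
    rw [Polynomial.aeval_comp, Polynomial.aeval_map_algebraMap]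
    have h1 : Polynomial.aeval x (C (algebraMap ℂ[X] RatC r) * X) =
        algebraMap (WH0 Γ) (WH0.FunField Γ) s := by
      rw [map_mul, Polynomial.aeval_C, Polynomial.aeval_X, ← hx, mul_comm,
        ← IsScalarTower.algebraMap_apply, ← IsScalarTower.algebraMap_apply]
    rw [h1, Polynomial.aeval_algebraMap_apply, hQ3, map_zero]
  calc (minpoly RatC x).natDegree ≤ QK.natDegree :=
        Polynomial.natDegree_le_of_dvd (minpoly.dvd RatC x hroot) hQK0
    _ = _ := hQKdeg

instance : CharZero RatC :=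
  charZero_of_injective_algebraMap (IsFractionRing.injective ℂ[X] RatC)

instance : Algebra.IsSeparable RatC (WH0.FunField Γ) := Algebra.IsAlgebraic.isSeparable_of_perfectField

instance WH0.finiteDimensional_funField : FiniteDimensional RatC (WH0.FunField Γ) :=
  (finrank_le_of_forall_natDegree_minpoly_le _ (WH0.natDegree_minpoly_le Γ)).1

lemma WH0.finrank_funField_le :
    finrank RatC (WH0.FunField Γ) ≤ Fintype.card (SL(2, ℤ) ⧸ Γ) :=
  (finrank_le_of_forall_natDegree_minpoly_le _ (WH0.natDegree_minpoly_le Γ)).2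

variable [IsIntegrallyClosed Hol]

instance WH0.instIsIntegrallyClosed : IsIntegrallyClosed (WH0 Γ) := WH0.isIntegrallyClosed Γ

instance WH0.instIsIntegralClosure : IsIntegralClosure (WH0 Γ) ℂ[X] (WH0.FunField Γ) :=
  IsIntegralClosure.of_isIntegrallyClosed (WH0 Γ) ℂ[X] (WH0.FunField Γ)

instance WH0.instFinite : Module.Finite ℂ[X] (WH0 Γ) :=
  IsIntegralClosure.finite ℂ[X] RatC (WH0.FunField Γ) (WH0 Γ)

instance WH0.instIsDedekindDomain : IsDedekindDomain (WH0 Γ) :=
  IsIntegralClosure.isDedekindDomain ℂ[X] RatC (WH0.FunField Γ) (WH0 Γ)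

lemma WH0.finrank_eq_finrank_funField :
    finrank ℂ[X] (WH0 Γ) = finrank RatC (WH0.FunField Γ) :=
  (IsFractionRing.finrank_eq ℂ[X] RatC (WH0 Γ) (WH0.FunField Γ)).symm

end Structure

end Fermat.Agent.ProgramR
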