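/-
Program R, B2/R5 for `Γ₀(N)`: the finite chart `B_N = WH0 (Γ₀(N))` is a Dedekind domain, finite free
of rank `ψ(N)` over `ℂ[X]` (`X ↦ j`), and carries the `ChartData` of the finite-point dictionary.
-/
import Fermat.Agent.ProgramR.Analytic.WH0Dedekind
import Fermat.Agent.ProgramR.Analytic.Dictionary
import Fermat.Agent.ProgramR.Analytic.Division
import Fermat.Agent.ProgramR.Analytic.JNWH0
import Fermat.Agent.ProgramR.Counting.GenusNat

set_option autoImplicit false

noncomputable section

namespace Fermat.Agent.ProgramR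

open UpperHalfPlane Polynomial Module CongruenceSubgroup
open scoped Manifold MatrixGroups

attribute [local instance] FractionRing.liftAlgebra
attribute [local instance] Genus.cosetFintype

variable (N : ℕ) [NeZero N]

/-- The chart data of `B_N = WH0 (Γ₀(N))` over `ℂ`. -/
def gamma0Chart : ChartData ℂ (WH0 (Gamma0 N)) (Gamma0 N) where
  ι := RingHom.id ℂ
  ev := (WH0.toHol (Gamma0 N)).toRingHom
  ev_inj := WH0.toHol_injective (Gamma0 N)
  ev_C := by
    intro a
    apply Hol.ext
    intro z
    change (algebraMap ℂ[X] (WH0 (Gamma0 N)) (C a)).1 z = a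
    rw [WH0.algebraMap_poly_apply, Polynomial.eval_C]
  ev_X := by
    apply Hol.ext
    intro z
    change (algebraMap ℂ[X] (WH0 (Gamma0 N)) X).1 z = LevelOne.jInv z
    rw [WH0.algebraMap_poly_apply, Polynomial.eval_X]
  ev_inv := by
    intro s γ hγ
    apply Hol.ext
    intro z
    exact s.2.smul_eq γ hγ z
  sep := by
    intro g g' h
    rw [← slComp_inv_jN_eq_iff]
    exact h (jNWH0 N)

lemma gamma0Chart_ev (s : WH0 (Gamma0 N)) : (gamma0Chart N).ev s = WH0.toHol (Gamma0 N) s := rfl

lemma gamma0Chart_φ (p : ℂ[X]) :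
    (gamma0Chart N).φ p = WH0.toHol (Gamma0 N) (algebraMap ℂ[X] (WH0 (Gamma0 N)) p) := rfl

/-- **Degree**: `B_N` has rank `ψ(N)` over `ℂ[X]`. -/
theorem WH0.finrank_Gamma0 :
    finrank ℂ[X] (WH0 (Gamma0 N)) = ModularCurve.dedekindPsi N := by
  classical
  apply le_antisymm
  · rw [WH0.finrank_eq_finrank_funField, ← Genus.card_coset N]
    exact WH0.finrank_funField_le (Gamma0 N)
  · -- the minimal polynomial of `j_N` has `ψ(N)` distinct roots in `Hol`
    set A := gamma0Chart N
    set h : WH0 (Gamma0 N) := jNWH0 N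
    have hint : IsIntegral ℂ[X] h := Algebra.IsIntegral.isIntegral h
    set m := minpoly ℂ[X] h
    have hm : m.Monic := minpoly.monic hint
    have hdeg : m.natDegree ≤ finrank ℂ[X] (WH0 (Gamma0 N)) := by
      have h1 := minpoly.isIntegrallyClosed_eq_field_fractions RatC (WH0.FunField (Gamma0 N)) hint
      have h2 : (minpoly RatC (algebraMap (WH0 (Gamma0 N)) (WH0.FunField (Gamma0 N)) h)).natDegree ≤
          finrank RatC (WH0.FunField (Gamma0 N)) := minpoly.natDegree_le _
      rw [h1, hm.natDegree_map] at h2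
      rw [WH0.finrank_eq_finrank_funField]
      exact h2
    set m' : Hol[X] := m.map A.φ
    have hm' : m'.Monic := hm.map _
    have hroot : ∀ x : SL(2, ℤ) ⧸ Gamma0 N, m'.IsRoot (A.σ x h) := by
      intro x
      rw [Polynomial.IsRoot.def, Polynomial.eval_map]
      have h1 : A.φ = (A.σ x).comp (algebraMap ℂ[X] (WH0 (Gamma0 N))) :=
        RingHom.ext (fun p => (A.σ_φ x p).symm)
      rw [h1, ← Polynomial.hom_eval₂, ← Polynomial.aeval_def, minpoly.aeval, map_zero]
    have hinj : Function.Injective (fun x : SL(2, ℤ) ⧸ Gamma0 N => A.σ x h) := by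
      intro x y hxy
      induction x using QuotientGroup.induction_on with
      | H g =>
        induction y using QuotientGroup.induction_on with
        | H g' =>
          rw [QuotientGroup.eq, ← slComp_inv_jN_eq_iff]
          exact hxy
    have hsub : (Finset.univ.image (fun x : SL(2, ℤ) ⧸ Gamma0 N => A.σ x h)).val ⊆ m'.roots := by
      intro f hf
      rw [Finset.mem_val, Finset.mem_image] at hf
      obtain ⟨x, -, rfl⟩ := hf
      exact (Polynomial.mem_roots hm'.ne_zero).2 (hroot x)
    have h3 := Polynomial.card_le_degree_of_subset_roots hsub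
    rw [Finset.card_image_of_injective _ hinj, Finset.card_univ, Genus.card_coset N,
      hm.natDegree_map] at h3
    exact h3.trans hdeg

lemma gamma0Chart_card :
    Fintype.card (SL(2, ℤ) ⧸ Gamma0 N) = finrank ℂ[X] (WH0 (Gamma0 N)) := by
  rw [WH0.finrank_Gamma0, Genus.card_coset N]

lemma neg_one_mem_Gamma0 : (-1 : SL(2, ℤ)) ∈ Gamma0 N := by
  rw [mem_Gamma0_iff_dvd]
  simp

end Fermat.Agent.ProgramR
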