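/-
Program R, R5: the finite-point dictionary in `ordV` form (shapes (Dfin), (Dfin') of the plan).
-/
import Fermat.Agent.ProgramR.Analytic.Dictionary
import Fermat.Agent.ProgramR.Alg.OrdVal

set_option autoImplicit false

noncomputable section

namespace Fermat.Agent.ProgramR

open UpperHalfPlane Polynomial ModularGroup IsDedekindDomain
open scoped Manifold MatrixGroups

/-- Over an algebraically closed field, every nonzero prime of an integral `k[X]`-algebra contains
some `X - a`. -/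
lemma exists_X_sub_C_mem {k : Type*} [Field k] [IsAlgClosed k] {S : Type*} [CommRing S] [IsDomain S]
    [Algebra k[X] S] [Algebra.IsIntegral k[X] S] [FaithfulSMul k[X] S]
    (P : Ideal S) [P.IsPrime] (hP : P ≠ ⊥) : ∃ a : k, algebraMap k[X] S (X - C a) ∈ P := by
  have hne : P.comap (algebraMap k[X] S) ≠ ⊥ := fun h => hP (Ideal.eq_bot_of_comap_eq_bot h)
  obtain ⟨f, hf, hf0⟩ := Submodule.exists_mem_ne_zero_of_ne_bot hne
  have hsplit := IsAlgClosed.splits f
  rw [Polynomial.splits_iff_exists_multiset] at hsplit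
  obtain ⟨m, hm⟩ := hsplit
  rw [hm] at hf
  haveI : (P.comap (algebraMap k[X] S)).IsPrime := Ideal.comap_isPrime _ _
  rcases Ideal.IsPrime.mem_or_mem inferInstance hf with h | h
  · exfalso
    have hunit : IsUnit (C f.leadingCoeff) :=
      Polynomial.isUnit_C.2 (isUnit_iff_ne_zero.2 (Polynomial.leadingCoeff_ne_zero.2 hf0))
    exact Ideal.IsPrime.ne_top inferInstance (Ideal.eq_top_of_isUnit_mem _ h hunit)
  · obtain ⟨p, hp, hpP⟩ := (Ideal.IsPrime.multiset_prod_mem_iff_exists_mem inferInstance _).1 h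
    obtain ⟨a, -, rfl⟩ := Multiset.mem_map.1 hp
    exact ⟨a, hpP⟩

namespace ChartData

variable {k : Type*} [Field k] [IsAlgClosed k] {S : Type*} [CommRing S] [Algebra k[X] S]
  [IsDedekindDomain S] [Module.Finite k[X] S] [Module.IsTorsionFree k[X] S]
  [PerfectField (FractionRing k[X])]
  {Γ : Subgroup SL(2, ℤ)} [Fintype (SL(2, ℤ) ⧸ Γ)] (A : ChartData k S Γ)
  {L : Type*} [Field L] [Algebra S L] [IsFractionRing S L]

/-- (Dfin), local form: at the point `g⁻¹ z₀` the analytic order of `s ∈ S` is `t` times its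
`P`-adic order, where `P` is the centre of the coset `g Γ` and `t · |orbit| = jOrder z₀`. -/
theorem ordAt_eq_mul_ordV (hcard : Fintype.card (SL(2, ℤ) ⧸ Γ) = Module.finrank k[X] S)
    (hneg : (-1 : SL(2, ℤ)) ∈ Γ) (z₀ : ℍ) (a : k) (ha : LevelOne.jInv z₀ = A.ι a)
    (g : SL(2, ℤ)) (P : HeightOneSpectrum S)
    (hP : P.asIdeal = A.center z₀ (QuotientGroup.mk g)) :
    ∃ t : ℕ, 0 < t ∧
      t * Nat.card (MulAction.orbit (MulAction.stabilizer SL(2, ℤ) z₀)
        (QuotientGroup.mk g : SL(2, ℤ) ⧸ Γ)) = LevelOne.jOrder z₀ ∧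
      ∀ s : S, s ≠ 0 → Hol.ordAt (g⁻¹ • z₀) (A.ev s) =
        ((t * (Alg.ordV P (algebraMap S L s)).toNat : ℕ) : ℕ∞) := by
  set x : SL(2, ℤ) ⧸ Γ := QuotientGroup.mk g with hx
  set O := Nat.card (MulAction.orbit (MulAction.stabilizer SL(2, ℤ) z₀) x) with hO
  have hdvd : O ∣ LevelOne.jOrder z₀ := card_orbit_dvd_jOrder hneg z₀ x
  obtain ⟨t, ht⟩ := hdvd
  have hεpos : 0 < LevelOne.jOrder z₀ := by
    rcases jOrder_cases z₀ with h | h | h <;> omega
  have hOpos : 0 < O := by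
    rcases Nat.eq_zero_or_pos O with h | h
    · rw [h, zero_mul] at ht; omega
    · exact h
  have htpos : 0 < t := by
    rcases Nat.eq_zero_or_pos t with h | h
    · rw [h, mul_zero] at ht; omega
    · exact h
  refine ⟨t, htpos, by rw [ht, mul_comm], ?_⟩
  intro s hs
  set m := (Alg.ordV P (algebraMap S L s)).toNat with hm
  have hnonneg := Alg.ordV_algebraMap_nonneg (L := L) P hs
  have hm' : (m : ℤ) = Alg.ordV P (algebraMap S L s) := Int.toNat_of_nonneg hnonneg
  have hs1 : s ∈ (A.center z₀ x) ^ m := by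
    rw [← hP, ← Alg.le_ordV_algebraMap_iff (L := L) P hs, hm']
  have hs2 : s ∉ (A.center z₀ x) ^ (m + 1) := by
    rw [← hP, ← Alg.le_ordV_algebraMap_iff (L := L) P hs, ← hm']
    push_cast
    omega
  have key := A.ordAt_mul_card_orbit hcard hneg z₀ a ha x hs1 hs2
  rw [hx, σ_mk, Hol.ordAt_slComp, ← hx, ← hO, ht] at key
  -- cancel `O`
  have hfin : Hol.ordAt (g⁻¹ • z₀) (A.ev s) ≠ ⊤ := by
    rw [Ne, Hol.ordAt_eq_top_iff]
    intro h
    exact hs (A.ev_inj (by rw [h, map_zero]))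
  obtain ⟨c, hc⟩ := ENat.ne_top_iff_exists.1 hfin
  rw [← hc] at key ⊢
  have key' : c * O = m * (O * t) := by exact_mod_cast key
  have : c = t * m := by
    have h1 : c * O = (t * m) * O := by rw [key']; ring
    exact Nat.eq_of_mul_eq_mul_right hOpos h1
  rw [this]

/-- (Dfin): every prime of `S` over `X - a` is the centre of a coset, with the order formula. -/
theorem exists_ordAt_eq_mul_ordV (hcard : Fintype.card (SL(2, ℤ) ⧸ Γ) = Module.finrank k[X] S)
    (hneg : (-1 : SL(2, ℤ)) ∈ Γ) (z₀ : ℍ) (a : k) (ha : LevelOne.jInv z₀ = A.ι a)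
    (P : HeightOneSpectrum S) (hPa : algebraMap k[X] S (X - C a) ∈ P.asIdeal) :
    ∃ g : SL(2, ℤ), P.asIdeal = A.center z₀ (QuotientGroup.mk g) ∧ ∃ t : ℕ, 0 < t ∧
      t * Nat.card (MulAction.orbit (MulAction.stabilizer SL(2, ℤ) z₀)
        (QuotientGroup.mk g : SL(2, ℤ) ⧸ Γ)) = LevelOne.jOrder z₀ ∧
      ∀ s : S, s ≠ 0 → Hol.ordAt (g⁻¹ • z₀) (A.ev s) =
        ((t * (Alg.ordV P (algebraMap S L s)).toNat : ℕ) : ℕ∞) := by
  haveI := P.isPrime
  have hmax := span_X_sub_C_isMaximal a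
  have hcomap : P.asIdeal.comap (algebraMap k[X] S) = Ideal.span {(X - C a : k[X])} := by
    symm
    apply hmax.eq_of_le (Ideal.IsPrime.ne_top (Ideal.comap_isPrime _ _))
    rw [Ideal.span_singleton_le_iff_mem]
    exact hPa
  obtain ⟨x, hx⟩ := A.exists_center_eq hcard z₀ a ha P.asIdeal hcomap
  induction x using QuotientGroup.induction_on with
  | H g =>
    exact ⟨g, hx.symm, A.ordAt_eq_mul_ordV hcard hneg z₀ a ha g P hx.symm⟩

end ChartData

end Fermat.Agent.ProgramR
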