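/-
Program R, R5 for `Γ₀(N)`: the finite-point dictionary of `(WH0 (Gamma0 N)) = WH0 (Γ₀(N))` in the shapes
(Dfin), (Dfin') of the plan, and the numbers of primes over `j = 1728`, `j = 0`, `j = c`.
-/
import Fermat.Agent.ProgramR.Analytic.Gamma0Chart
import Fermat.Agent.ProgramR.Analytic.DictionaryOrd

set_option autoImplicit false

noncomputable section

namespace Fermat.Agent.ProgramR

open UpperHalfPlane Polynomial Module CongruenceSubgroup IsDedekindDomain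
open scoped Manifold MatrixGroups

attribute [local instance] Genus.cosetFintype

section Orbits

variable {G X : Type*} [Group G] [MulAction G X]

lemma toPerm_zpow_eq (δ : G) (i : ℤ) :
    (MulAction.toPerm δ : Equiv.Perm X) ^ i = MulAction.toPerm (δ ^ i) :=
  ((MulAction.toPermHom G X).map_zpow δ i).symm

/-- Orbits of a cyclic subgroup `⟨δ⟩` are the cycles of the permutation `x ↦ δ • x`. -/
lemma card_orbits_zpowers (H : Subgroup G) (δ : G) (hH : H = Subgroup.zpowers δ) :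
    Nat.card (MulAction.orbitRel.Quotient H X) = Genus.cyc (MulAction.toPerm δ : Equiv.Perm X) := by
  subst hH
  rw [Genus.cyc]
  refine Nat.card_congr (Quotient.congr (Equiv.refl _) ?_)
  intro x y
  show MulAction.orbitRel _ _ x y ↔ (MulAction.toPerm δ : Equiv.Perm X).SameCycle x y
  rw [MulAction.orbitRel_apply, MulAction.mem_orbit_iff]
  constructor
  · rintro ⟨⟨g, hg⟩, hgx⟩
    obtain ⟨i, rfl⟩ := Subgroup.mem_zpowers_iff.mp hg
    refine ⟨-i, ?_⟩
    have hgx' : (δ ^ i : G) • y = x := hgx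
    rw [← hgx', toPerm_zpow_eq, MulAction.toPerm_apply, ← mul_smul, ← zpow_add]
    simp
  · rintro ⟨i, hi⟩
    refine ⟨⟨δ ^ (-i), Subgroup.zpow_mem_zpowers _ _⟩, ?_⟩
    rw [← hi, toPerm_zpow_eq, MulAction.toPerm_apply]
    show (δ ^ (-i) : G) • ((δ ^ i : G) • x) = x
    rw [← mul_smul, ← zpow_add]
    simp

/-- If a subgroup acts trivially, its orbits are the points. -/
lemma card_orbits_of_trivial (H : Subgroup G) (hH : ∀ h ∈ H, ∀ x : X, h • x = x) :
    Nat.card (MulAction.orbitRel.Quotient H X) = Nat.card X := by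
  symm
  apply Nat.card_eq_of_bijective (fun x => (Quotient.mk'' x : MulAction.orbitRel.Quotient H X))
  constructor
  · intro x y hxy
    have h1 : MulAction.orbitRel H X x y := Quotient.exact' hxy
    rw [MulAction.orbitRel_apply, MulAction.mem_orbit_iff] at h1
    obtain ⟨⟨h, hh⟩, hx⟩ := h1
    rw [← hx]
    exact hH h hh y
  · intro q
    induction q using Quotient.inductionOn' with
    | h x => exact ⟨x, rfl⟩

end Orbits

variable (N : ℕ) [NeZero N]


/-- **Number of primes over `j = c`** in terms of the stabilizer orbits. -/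
theorem card_primes_over (c : ℂ) (z₀ : ℍ) (hz : LevelOne.jInv z₀ = c) :
    Nat.card {P : HeightOneSpectrum (WH0 (Gamma0 N)) // algebraMap ℂ[X] (WH0 (Gamma0 N)) (X - C c) ∈ P.asIdeal} =
      Nat.card (MulAction.orbitRel.Quotient (MulAction.stabilizer SL(2, ℤ) z₀)
        (SL(2, ℤ) ⧸ Gamma0 N)) :=
  (gamma0Chart N).card_primes_eq_card_orbits (gamma0Chart_card N) (neg_one_mem_Gamma0 N) z₀ c hz

/-- Over `j = 1728` the primes correspond to the cycles of `S`. -/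
theorem card_primes_over_1728 :
    Nat.card {P : HeightOneSpectrum (WH0 (Gamma0 N)) // algebraMap ℂ[X] (WH0 (Gamma0 N)) (X - C 1728) ∈ P.asIdeal} =
      Genus.cyc (Genus.sigmaN N) := by
  rw [card_primes_over N 1728 UpperHalfPlane.I LevelOne.jInv_I]
  exact card_orbits_zpowers _ ModularGroup.S LevelOne.stabilizer_I_eq_zpowers

/-- Over `j = 0` the primes correspond to the cycles of `ST`. -/
theorem card_primes_over_zero :
    Nat.card {P : HeightOneSpectrum (WH0 (Gamma0 N)) //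
        algebraMap ℂ[X] (WH0 (Gamma0 N)) (X - C 0) ∈ P.asIdeal} =
      Genus.cyc (Genus.sigmaN N * Genus.tauN N) := by
  rw [card_primes_over N 0 UpperHalfPlane.ρ LevelOne.jInv_ρ]
  refine (card_orbits_zpowers (X := SL(2, ℤ) ⧸ Gamma0 N) _ (ModularGroup.S * ModularGroup.T)
    LevelOne.stabilizer_ρ_eq_zpowers).trans ?_
  congr 1
  ext x
  rw [Genus.sigmaN_mul_tauN_apply]
  rfl

/-- Over `j = c`, `c ≠ 0, 1728`, there are `ψ(N)` primes. -/
theorem card_primes_over_generic (c : ℂ) (h0 : c ≠ 0) (h1728 : c ≠ 1728) :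
    Nat.card {P : HeightOneSpectrum (WH0 (Gamma0 N)) //
        algebraMap ℂ[X] (WH0 (Gamma0 N)) (X - C c) ∈ P.asIdeal} =
      ModularCurve.dedekindPsi N := by
  obtain ⟨z₀, hz⟩ := LevelOne.jInv_surjective c
  rw [card_primes_over N c z₀ hz]
  refine (card_orbits_of_trivial (X := SL(2, ℤ) ⧸ Gamma0 N)
    (MulAction.stabilizer SL(2, ℤ) z₀) ?_).trans (card_quotient_Gamma0 N)
  intro h hh x
  rw [MulAction.mem_stabilizer_iff] at hh
  rcases LevelOne.eq_one_or_neg_one_of_smul_eq_self_of_jInv_ne hh (by rwa [hz]) (by rwa [hz])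
    with rfl | rfl
  · exact one_smul _ x
  · exact Genus.neg_one_smul_coset N x

variable {L : Type*} [Field L] [Algebra (WH0 (Gamma0 N)) L] [IsFractionRing (WH0 (Gamma0 N)) L]

/-- **(Dfin')**: at every point `z` the analytic order is a positive multiple of the `P_z`-adic
order, `P_z = {h | h z = 0}`. -/
theorem exists_prime_ordAt_eq (z : ℍ) :
    ∃ (P : HeightOneSpectrum (WH0 (Gamma0 N))) (s : ℕ), 0 < s ∧ (∀ h : (WH0 (Gamma0 N)), h ∈ P.asIdeal ↔ h.1 z = 0) ∧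
      ∀ a : (WH0 (Gamma0 N)), a ≠ 0 → Hol.ordAt z (WH0.toHol (Gamma0 N) a) =
        ((s * (Alg.ordV P (algebraMap (WH0 (Gamma0 N)) L a)).toNat : ℕ) : ℕ∞) := by
  set A := gamma0Chart N
  have hp0 := A.base_ne_bot z (LevelOne.jInv z) rfl
  let P : HeightOneSpectrum (WH0 (Gamma0 N)) :=
    ⟨A.center z (QuotientGroup.mk 1), (A.centerData z).center_isPrime _,
      (A.centerData z).center_ne_bot hp0 _⟩
  obtain ⟨t, htpos, -, ht⟩ := A.ordAt_eq_mul_ordV (L := L) (gamma0Chart_card N)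
    (neg_one_mem_Gamma0 N) z (LevelOne.jInv z) rfl 1 P rfl
  refine ⟨P, t, htpos, ?_, ?_⟩
  · intro h
    change h ∈ A.center z (QuotientGroup.mk 1) ↔ _
    rw [A.mem_center_mk]
    simp only [inv_one, one_smul]
    rfl
  · intro a ha
    have := ht a ha
    rw [gamma0Chart_ev] at this
    simpa using this

/-- **(Dfin)**: every prime of `(WH0 (Gamma0 N))` is `P_z` for some `z`, with the order formula. -/
theorem exists_point_ordAt_eq (P : HeightOneSpectrum (WH0 (Gamma0 N))) :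
    ∃ (z : ℍ) (s : ℕ), 0 < s ∧ (∀ h : (WH0 (Gamma0 N)), h ∈ P.asIdeal ↔ h.1 z = 0) ∧
      ∀ a : (WH0 (Gamma0 N)), a ≠ 0 → Hol.ordAt z (WH0.toHol (Gamma0 N) a) =
        ((s * (Alg.ordV P (algebraMap (WH0 (Gamma0 N)) L a)).toNat : ℕ) : ℕ∞) := by
  set A := gamma0Chart N
  haveI := P.isPrime
  obtain ⟨c, hc⟩ := exists_X_sub_C_mem (k := ℂ) P.asIdeal P.ne_bot
  obtain ⟨z₀, hz⟩ := LevelOne.jInv_surjective c
  obtain ⟨g, hPg, t, htpos, -, ht⟩ := A.exists_ordAt_eq_mul_ordV (L := L) (gamma0Chart_card N)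
    (neg_one_mem_Gamma0 N) z₀ c hz P hc
  refine ⟨g⁻¹ • z₀, t, htpos, ?_, ht⟩
  intro h
  rw [hPg, A.mem_center_mk]
  rfl

/-- helper: the `ordV`-order of an element of `P ^ m \ P ^ (m+1)` is `m`. -/
lemma toNat_ordV_eq_of_mem_pow (P : HeightOneSpectrum (WH0 (Gamma0 N))) (a : WH0 (Gamma0 N))
    (m : ℕ) (h1 : a ∈ P.asIdeal ^ m) (h2 : a ∉ P.asIdeal ^ (m + 1)) :
    a ≠ 0 ∧ (Alg.ordV P (algebraMap (WH0 (Gamma0 N)) L a)).toNat = m := by
  have ha : a ≠ 0 := by
    rintro rfl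
    exact h2 (Ideal.zero_mem _)
  refine ⟨ha, ?_⟩
  have e1 := (Alg.le_ordV_algebraMap_iff (L := L) P ha m).2 h1
  have e2 : ¬ ((m + 1 : ℕ) : ℤ) ≤ Alg.ordV P (algebraMap (WH0 (Gamma0 N)) L a) :=
    fun h => h2 ((Alg.le_ordV_algebraMap_iff (L := L) P ha (m + 1)).1 h)
  push_cast at e2
  omega

/-- **(Dfin)**, ideal-power shape. -/
theorem exists_point_ordAt_pow (P : HeightOneSpectrum (WH0 (Gamma0 N))) :
    ∃ (z : ℍ) (s : ℕ), 0 < s ∧ (∀ h : WH0 (Gamma0 N), h ∈ P.asIdeal ↔ h.1 z = 0) ∧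
      ∀ (a : WH0 (Gamma0 N)) (m : ℕ), a ∈ P.asIdeal ^ m → a ∉ P.asIdeal ^ (m + 1) →
        Hol.ordAt z (WH0.toHol (Gamma0 N) a) = ((m * s : ℕ) : ℕ∞) := by
  obtain ⟨z, s, hs, hP, h⟩ := exists_point_ordAt_eq (L := FractionRing (WH0 (Gamma0 N))) N P
  refine ⟨z, s, hs, hP, fun a m h1 h2 => ?_⟩
  obtain ⟨ha, hm⟩ := toNat_ordV_eq_of_mem_pow (L := FractionRing (WH0 (Gamma0 N))) N P a m h1 h2
  rw [h a ha, hm, mul_comm]

/-- **(Dfin')**, ideal-power shape. -/
theorem exists_prime_ordAt_pow (z : ℍ) :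
    ∃ (P : HeightOneSpectrum (WH0 (Gamma0 N))) (s : ℕ), 0 < s ∧
      (∀ h : WH0 (Gamma0 N), h ∈ P.asIdeal ↔ h.1 z = 0) ∧
      ∀ (a : WH0 (Gamma0 N)) (m : ℕ), a ∈ P.asIdeal ^ m → a ∉ P.asIdeal ^ (m + 1) →
        Hol.ordAt z (WH0.toHol (Gamma0 N) a) = ((m * s : ℕ) : ℕ∞) := by
  obtain ⟨P, s, hs, hP, h⟩ := exists_prime_ordAt_eq (L := FractionRing (WH0 (Gamma0 N))) N z
  refine ⟨P, s, hs, hP, fun a m h1 h2 => ?_⟩
  obtain ⟨ha, hm⟩ := toNat_ordV_eq_of_mem_pow (L := FractionRing (WH0 (Gamma0 N))) N P a m h1 h2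
  rw [h a ha, hm, mul_comm]

end Fermat.Agent.ProgramR
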