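/-
Program R (helper1): prime counts over `j = 0, 1728, c` for an ARBITRARY finite chart
`A : ChartData k S (Γ₀(N))` (e.g. the `ℚ̄`-model of the function field of `X₀(N)`), in the shapes
needed by the Riemann–Hurwitz count of S24.
-/
import Fermat.Agent.ProgramR.Analytic.Gamma0Dict

set_option autoImplicit false

noncomputable section

namespace Fermat.Agent.ProgramR

open UpperHalfPlane Polynomial Module CongruenceSubgroup IsDedekindDomain
open scoped Manifold MatrixGroups

attribute [local instance] Genus.cosetFintype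

namespace ChartData

variable {N : ℕ} [NeZero N]
variable {k : Type*} [Field k] [IsAlgClosed k] {S : Type*} [CommRing S] [Algebra k[X] S]
  [IsDedekindDomain S] [Module.Finite k[X] S] [Module.IsTorsionFree k[X] S]
  [PerfectField (FractionRing k[X])]
  (A : ChartData k S (Gamma0 N))

/-- Over a generic value there are `ψ(N)` primes. -/
theorem card_primes_over_generic'
    (hcard : Fintype.card (SL(2, ℤ) ⧸ Gamma0 N) = Module.finrank k[X] S)
    (a : k) (h0 : A.ι a ≠ 0) (h1728 : A.ι a ≠ 1728) :
    Nat.card {P : HeightOneSpectrum S // algebraMap k[X] S (X - C a) ∈ P.asIdeal} =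
      ModularCurve.dedekindPsi N := by
  obtain ⟨z₀, hz⟩ := LevelOne.jInv_surjective (A.ι a)
  rw [A.card_primes_eq_card_orbits hcard (neg_one_mem_Gamma0 N) z₀ a hz]
  refine (card_orbits_of_trivial (X := SL(2, ℤ) ⧸ Gamma0 N)
    (MulAction.stabilizer SL(2, ℤ) z₀) ?_).trans (card_quotient_Gamma0 N)
  intro h hh x
  rw [MulAction.mem_stabilizer_iff] at hh
  rcases LevelOne.eq_one_or_neg_one_of_smul_eq_self_of_jInv_ne hh (by rwa [hz]) (by rwa [hz])
    with rfl | rfl
  · exact one_smul _ x
  · exact Genus.neg_one_smul_coset N x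

/-- Over `1728` the primes correspond to the cycles of `S`. -/
theorem card_primes_over_1728'
    (hcard : Fintype.card (SL(2, ℤ) ⧸ Gamma0 N) = Module.finrank k[X] S)
    (a : k) (ha : A.ι a = 1728) :
    Nat.card {P : HeightOneSpectrum S // algebraMap k[X] S (X - C a) ∈ P.asIdeal} =
      Genus.cyc (Genus.sigmaN N) := by
  rw [A.card_primes_eq_card_orbits hcard (neg_one_mem_Gamma0 N) UpperHalfPlane.I a
    (by rw [ha]; exact LevelOne.jInv_I)]
  exact card_orbits_zpowers _ ModularGroup.S LevelOne.stabilizer_I_eq_zpowers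

/-- Over `0` the primes correspond to the cycles of `ST`. -/
theorem card_primes_over_zero'
    (hcard : Fintype.card (SL(2, ℤ) ⧸ Gamma0 N) = Module.finrank k[X] S)
    (a : k) (ha : A.ι a = 0) :
    Nat.card {P : HeightOneSpectrum S // algebraMap k[X] S (X - C a) ∈ P.asIdeal} =
      Genus.cyc (Genus.sigmaN N * Genus.tauN N) := by
  rw [A.card_primes_eq_card_orbits hcard (neg_one_mem_Gamma0 N) UpperHalfPlane.ρ a
    (by rw [ha]; exact LevelOne.jInv_ρ)]
  refine (card_orbits_zpowers (X := SL(2, ℤ) ⧸ Gamma0 N) _ (ModularGroup.S * ModularGroup.T)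
    LevelOne.stabilizer_ρ_eq_zpowers).trans ?_
  congr 1
  ext x
  rw [Genus.sigmaN_mul_tauN_apply]
  rfl

open Classical in
/-- `2 · #{primes over 1728} = ψ(N) + ν₂(N)`. -/
theorem two_mul_card_primes_over_1728'
    (hcard : Fintype.card (SL(2, ℤ) ⧸ Gamma0 N) = Module.finrank k[X] S)
    (a : k) (ha : A.ι a = 1728) :
    2 * Nat.card {P : HeightOneSpectrum S // algebraMap k[X] S (X - C a) ∈ P.asIdeal} =
      ModularCurve.dedekindPsi N + ModularCurve.nuTwo N := by
  rw [A.card_primes_over_1728' hcard a ha]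
  obtain ⟨k₂, h2a, h2b⟩ := Genus.exists_cycle_count_of_pow_eq_one Nat.prime_two
    (Genus.sigmaN N) (Genus.sigmaN_sq N)
  rw [Genus.fix_sigmaN] at h2a h2b
  rw [Genus.card_coset] at h2b
  omega

open Classical in
/-- `3 · #{primes over 0} = ψ(N) + 2 ν₃(N)`. -/
theorem three_mul_card_primes_over_zero'
    (hcard : Fintype.card (SL(2, ℤ) ⧸ Gamma0 N) = Module.finrank k[X] S)
    (a : k) (ha : A.ι a = 0) :
    3 * Nat.card {P : HeightOneSpectrum S // algebraMap k[X] S (X - C a) ∈ P.asIdeal} =
      ModularCurve.dedekindPsi N + 2 * ModularCurve.nuThree N := by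
  rw [A.card_primes_over_zero' hcard a ha]
  obtain ⟨k₃, h3a, h3b⟩ := Genus.exists_cycle_count_of_pow_eq_one Nat.prime_three
    (Genus.sigmaN N * Genus.tauN N) (Genus.sigmaN_mul_tauN_cube N)
  rw [Genus.fix_sigmaN_mul_tauN] at h3a h3b
  rw [Genus.card_coset] at h3b
  omega

end ChartData

end Fermat.Agent.ProgramR
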