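/-
Program R (helper3): the orbit layer on top of `PlacesCore` (helper1's Theorem B).
A group `G` acts on the index set `ι` of the conjugates preserving centres; if the orders
`w (σ i s)` are divisible by `M / |G i|`, then centres ↔ `G`-orbits, `e = |orbit|`, and
`w (σ i s) = (M / |G i|) · v_P(s)`.
-/
import Mathlib
import Fermat.Agent.ProgramR.Analytic.PlacesCore

set_option autoImplicit false

namespace Fermat.Agent.ProgramR

open Module Ideal

namespace CenterData

variable {R S D ι : Type*} [CommRing R] [CommRing S] [CommRing D] [Algebra R S]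
  (C : CenterData R S D ι)
  [IsDedekindDomain R] [IsDedekindDomain S] [Module.Finite R S] [Module.IsTorsionFree R S]
  [PerfectField (FractionRing R)] [IsDomain D] [Fintype ι]
  {G : Type*} [Group G] [MulAction G ι]

/-- size of the `G`-orbit of `i`. -/
noncomputable def orbSize (G : Type*) [Group G] [MulAction G ι] (i : ι) : ℕ :=
  Nat.card (MulAction.orbit G i)

omit [Fintype ι] in
lemma orbSize_pos [Finite ι] (i : ι) : 0 < orbSize G i := by
  have : Nonempty (MulAction.orbit G i) := ⟨⟨i, MulAction.mem_orbit_self i⟩⟩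
  exact Nat.card_pos

section

variable (hp0 : C.base ≠ ⊥) (hcard : Fintype.card ι = finrank R S)
  (hf : ∀ P : Ideal S, P.IsPrime → P.comap (algebraMap R S) = C.base → P.inertiaDeg R = 1)
  (hG : ∀ (g : G) (i : ι), C.center (g • i) = C.center i)
  {π : R} (hπ : π ∈ C.base) (hπ2 : π ∉ C.base ^ 2) {M : ℕ} (hM : C.w (C.φ π) = M)
  (hdiv : ∀ i : ι, orbSize G i ∣ M)
  (hsupp : ∀ (i : ι) (s : S), s ≠ 0 → ∃ t : ℕ, C.w (C.σ i s) = ((t * (M / orbSize G i) : ℕ) : ℕ∞))

include hp0 hcard hf in
lemma card_fibre (i : ι) :
    Nat.card {i' // C.center i' = C.center i} = (C.center i).ramificationIdx R := by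
  have h := C.card_center_eq hp0 hcard (C.center i) (hPprime := C.center_isPrime i)
    (C.comap_center i)
  rw [hf _ (C.center_isPrime i) (C.comap_center i), mul_one] at h
  exact h

include hG in
omit [IsDedekindDomain R] [IsDedekindDomain S] [Module.Finite R S] [Module.IsTorsionFree R S]
  [PerfectField (FractionRing R)] [IsDomain D] in
lemma orbSize_le_card_fibre (i : ι) :
    orbSize G i ≤ Nat.card {i' // C.center i' = C.center i} := by
  classical
  refine Nat.card_le_card_of_injective
    (fun x : MulAction.orbit G i => (⟨x.1, ?_⟩ : {i' // C.center i' = C.center i})) ?_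
  · obtain ⟨g, hg⟩ := x.2
    rw [← hg]
    exact hG g i
  · intro x y hxy
    exact Subtype.ext (Subtype.mk.inj hxy)

include hπ hM in
omit [IsDedekindDomain R] [IsDedekindDomain S] [Module.Finite R S] [Module.IsTorsionFree R S]
  [PerfectField (FractionRing R)] [IsDomain D] [Fintype ι] in
lemma M_ne_zero : M ≠ 0 := by
  rintro rfl
  exact C.w_ne_zero_of_mem hπ (by rw [hM]; rfl)

include hp0 hcard hf hG hπ hπ2 hM hdiv hsupp in
/-- (b) the ramification index of a centre is the size of the orbit. -/
theorem ramificationIdx_center (i : ι) : (C.center i).ramificationIdx R = orbSize G i := by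
  have hM0 : M ≠ 0 := C.M_ne_zero hπ hM
  have ho : 0 < orbSize G i := orbSize_pos i
  have hle : orbSize G i ≤ (C.center i).ramificationIdx R := by
    rw [← C.card_fibre hp0 hcard hf i]
    exact C.orbSize_le_card_fibre hG i
  -- a uniformizer of `center i`
  have hP0 := C.center_ne_bot hp0 i
  have hPprime := C.center_isPrime i
  obtain ⟨ϖ, hϖ, hϖ2⟩ := Ideal.exists_mem_pow_notMem_pow_succ (C.center i) hP0
    (IsPrime.ne_top hPprime) 1
  have hϖ0 : ϖ ≠ 0 := by
    rintro rfl
    exact hϖ2 (Ideal.zero_mem _)
  have h1 := C.w_σ_mul_ramificationIdx hp0 i hπ hπ2 hϖ hϖ2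
  obtain ⟨t, ht⟩ := hsupp i ϖ hϖ0
  rw [ht, hM] at h1
  have h2 : t * (M / orbSize G i) * (C.center i).ramificationIdx R = 1 * M := by
    exact_mod_cast h1
  obtain ⟨q, hq⟩ := hdiv i
  have hq0 : q ≠ 0 := by
    rintro rfl
    exact hM0 (by rw [hq]; ring)
  have hMo : M / orbSize G i = q := by
    rw [hq, Nat.mul_div_cancel_left _ ho]
  rw [hMo, hq] at h2
  have h3 : t * (C.center i).ramificationIdx R = orbSize G i := by
    have : q * (t * (C.center i).ramificationIdx R) = q * orbSize G i := by
      rw [one_mul] at h2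
      linarith
    exact Nat.eq_of_mul_eq_mul_left (Nat.pos_of_ne_zero hq0) this
  have hdvd : (C.center i).ramificationIdx R ∣ orbSize G i := ⟨t, by rw [← h3]; ring⟩
  exact le_antisymm (Nat.le_of_dvd ho hdvd) hle

include hp0 hcard hf hG hπ hπ2 hM hdiv hsupp in
/-- (a) two conjugates have the same centre iff they are in the same orbit. -/
theorem center_eq_iff (i i' : ι) :
    C.center i' = C.center i ↔ i' ∈ MulAction.orbit G i := by
  classical
  constructor
  · intro h
    -- the injection orbit → fibre is a bijection by cardinality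
    have hfin : Finite {i' // C.center i' = C.center i} := inferInstance
    let f : MulAction.orbit G i → {i' // C.center i' = C.center i} :=
      fun x => ⟨x.1, by obtain ⟨g, hg⟩ := x.2; rw [← hg]; exact hG g i⟩
    have hinj : Function.Injective f := fun x y hxy => Subtype.ext (Subtype.mk.inj hxy)
    have hcardeq : Nat.card (MulAction.orbit G i) = Nat.card {i' // C.center i' = C.center i} := by
      rw [C.card_fibre hp0 hcard hf i,
        C.ramificationIdx_center hp0 hcard hf hG hπ hπ2 hM hdiv hsupp i]
      rfl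
    have hbij : Function.Bijective f :=
      (Nat.bijective_iff_injective_and_card f).mpr ⟨hinj, hcardeq⟩
    obtain ⟨x, hx⟩ := hbij.2 ⟨i', h⟩
    have : x.1 = i' := congrArg Subtype.val hx
    rw [← this]
    exact x.2
  · rintro ⟨g, rfl⟩
    exact hG g i

include hp0 hcard hf hG hπ hπ2 hM hdiv hsupp in
/-- (d) the order of a conjugate in terms of the valuation at its centre. -/
theorem w_σ_eq (i : ι) {m : ℕ} {s : S} (hs : s ∈ (C.center i) ^ m)
    (hs' : s ∉ (C.center i) ^ (m + 1)) :
    C.w (C.σ i s) = ((m * (M / orbSize G i) : ℕ) : ℕ∞) := by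
  have hM0 : M ≠ 0 := C.M_ne_zero hπ hM
  have ho : 0 < orbSize G i := orbSize_pos i
  have hs0 : s ≠ 0 := by
    rintro rfl
    exact hs' (Ideal.zero_mem _)
  have h1 := C.w_σ_mul_ramificationIdx hp0 i hπ hπ2 hs hs'
  rw [C.ramificationIdx_center hp0 hcard hf hG hπ hπ2 hM hdiv hsupp i, hM] at h1
  obtain ⟨t, ht⟩ := hsupp i s hs0
  rw [ht] at h1 ⊢
  have h2 : t * (M / orbSize G i) * orbSize G i = m * M := by exact_mod_cast h1
  obtain ⟨q, hq⟩ := hdiv i
  have hMo : M / orbSize G i = q := by
    rw [hq, Nat.mul_div_cancel_left _ ho]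
  rw [hMo] at h2 ⊢
  have h3 : t * q = m * q := by
    have : (t * q) * orbSize G i = (m * q) * orbSize G i := by
      rw [h2, hq]; ring
    exact Nat.eq_of_mul_eq_mul_right ho this
  rw [h3]

include hp0 hcard hf hG hπ hπ2 hM hdiv hsupp in
/-- (c) the primes over the base prime are in bijection with the `G`-orbits. -/
theorem card_primesOver_eq_card_orbits :
    Nat.card {P : Ideal S // P.IsPrime ∧ P.comap (algebraMap R S) = C.base} =
      Nat.card (MulAction.orbitRel.Quotient G ι) := by
  classical
  let Φ : MulAction.orbitRel.Quotient G ι →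
      {P : Ideal S // P.IsPrime ∧ P.comap (algebraMap R S) = C.base} :=
    Quotient.lift (fun i => ⟨C.center i, C.center_isPrime i, C.comap_center i⟩) (by
      intro a b hab
      have hab' : a ∈ MulAction.orbit G b := hab
      obtain ⟨g, hg⟩ := hab'
      apply Subtype.ext
      show C.center a = C.center b
      rw [← hg]
      exact hG g b)
  have hinj : Function.Injective Φ := by
    intro x y
    refine Quotient.inductionOn₂ x y fun a b hab => ?_
    have h1 : C.center a = C.center b := congrArg Subtype.val hab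
    have h2 := (C.center_eq_iff hp0 hcard hf hG hπ hπ2 hM hdiv hsupp b a).mp h1
    exact Quotient.sound h2
  have hsurj : Function.Surjective Φ := by
    rintro ⟨P, hPprime, hP⟩
    have h1 := C.card_center_eq hp0 hcard P (hPprime := hPprime) hP
    have h2 : 0 < P.ramificationIdx R := Ideal.ramificationIdx_pos P R
    rw [hf P hPprime hP, mul_one] at h1
    have h3 : 0 < Nat.card {i // C.center i = P} := by omega
    have : Nonempty {i // C.center i = P} := (Nat.card_pos_iff.mp h3).1
    obtain ⟨i, hi⟩ := this
    exact ⟨Quotient.mk _ i, Subtype.ext hi⟩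
  exact (Nat.card_congr (Equiv.ofBijective Φ ⟨hinj, hsurj⟩)).symm

end

end CenterData

end Fermat.Agent.ProgramR
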