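/-
Program R: the generic finite-point dictionary.

`Chart k S Γ`: a Dedekind domain `S`, finite and torsion-free over `k[X]`, together with an injective
ring hom `ι : S → Hol` into the ring of holomorphic functions on `ℍ` with `Γ`-invariant image,
sending `X` to an `SL(2,ℤ)`-invariant function `J`, and whose conjugates
`τ g s = (ι s) ∘ g⁻¹` separate the cosets `SL(2,ℤ) ⧸ Γ`.

Main result `Chart.card_primes_over`: for `k` algebraically closed of characteristic zero,
`rank S = [SL(2,ℤ) : Γ]`, `J z₀ = c`, `γ₀` fixing `z₀` with `γ₀ ^ ε` acting trivially on the cosets,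
`ε = ord_{z₀} (J - c)` equal to `1` or a prime and the elliptic-multiplier property for `γ₀`:
the primes of `S` containing `X - c` are in bijection with the `⟨γ₀⟩`-orbits on `SL(2,ℤ) ⧸ Γ`.
-/
import Mathlib
import Fermat.Agent.ProgramR.Analytic.HolRing
import Fermat.Agent.ProgramR.Analytic.PlacesCore

set_option autoImplicit false
set_option linter.unusedSectionVars false

noncomputable section

namespace Fermat.Agent.ProgramR.OrbitDict

open UpperHalfPlane Polynomial Module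
open scoped MatrixGroups

/-- A "finite chart": see the file header. -/
structure Chart (k S : Type*) [Field k] [CommRing S] [Algebra k[X] S]
    (Γ : Subgroup SL(2, ℤ)) where
  e : k →+* ℂ
  J : Hol
  J_inv : ∀ γ : SL(2, ℤ), Hol.slComp γ J = J
  ι : S →+* Hol
  ι_inj : Function.Injective ι
  ι_alg : ∀ p : k[X], ι (algebraMap k[X] S p) = p.eval₂ (Hol.const.comp e) J
  ι_inv : ∀ γ ∈ Γ, ∀ s, Hol.slComp γ (ι s) = ι s
  sep : ∀ g g' : SL(2, ℤ), (∀ s, Hol.slComp g⁻¹ (ι s) = Hol.slComp g'⁻¹ (ι s)) → g⁻¹ * g' ∈ Γ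

namespace Chart

variable {k S : Type*} [Field k] [CommRing S] [Algebra k[X] S] {Γ : Subgroup SL(2, ℤ)}
  (A : Chart k S Γ)

/-- The base map `k[X] → Hol`, `X ↦ J`. -/
def φ : k[X] →+* Hol := Polynomial.eval₂RingHom (Hol.const.comp A.e) A.J

lemma φ_apply (p : k[X]) : A.φ p = p.eval₂ (Hol.const.comp A.e) A.J := rfl

lemma ι_algebraMap (p : k[X]) : A.ι (algebraMap k[X] S p) = A.φ p := A.ι_alg p

lemma slComp_φ (γ : SL(2, ℤ)) (p : k[X]) : Hol.slComp γ (A.φ p) = A.φ p := by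
  rw [φ_apply, Polynomial.hom_eval₂, A.J_inv]
  rfl

lemma φ_apply_apply (p : k[X]) (z : ℍ) :
    (A.φ p : ℍ → ℂ) z = (p.map A.e).eval ((A.J : ℍ → ℂ) z) := by
  have h := Polynomial.hom_eval₂ p (Hol.const.comp A.e) (Hol.evalAt z) A.J
  rw [φ_apply, ← Hol.evalAt_apply, h, Polynomial.eval_map]
  rfl

/-- The conjugate embedding attached to `g ∈ SL(2,ℤ)`: `s ↦ (ι s) ∘ g⁻¹`. -/
def τ (g : SL(2, ℤ)) : S →+* Hol := (Hol.slComp g⁻¹).comp A.ι

lemma τ_apply (g : SL(2, ℤ)) (s : S) : A.τ g s = Hol.slComp g⁻¹ (A.ι s) := rfl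

lemma τ_mul_of_mem (g : SL(2, ℤ)) {h : SL(2, ℤ)} (hh : h ∈ Γ) : A.τ (g * h) = A.τ g := by
  ext1 s
  rw [τ_apply, τ_apply, mul_inv_rev, Hol.slComp_mul, A.ι_inv _ (Γ.inv_mem hh)]

lemma τ_eq_of_mk_eq {g g' : SL(2, ℤ)}
    (h : (QuotientGroup.mk g : SL(2, ℤ) ⧸ Γ) = QuotientGroup.mk g') : A.τ g = A.τ g' := by
  rw [QuotientGroup.eq] at h
  have : g' = g * (g⁻¹ * g') := by group
  rw [this, A.τ_mul_of_mem g h]

lemma τ_mul (γ g : SL(2, ℤ)) (s : S) : A.τ (γ * g) s = Hol.slComp γ⁻¹ (A.τ g s) := by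
  rw [τ_apply, τ_apply, mul_inv_rev, Hol.slComp_mul]

/-- The conjugate embedding attached to a coset. -/
def σ (x : SL(2, ℤ) ⧸ Γ) : S →+* Hol := A.τ (Quotient.out x)

lemma σ_mk (g : SL(2, ℤ)) : A.σ (QuotientGroup.mk g) = A.τ g :=
  A.τ_eq_of_mk_eq (QuotientGroup.out_eq' _)

lemma σ_smul (γ : SL(2, ℤ)) (x : SL(2, ℤ) ⧸ Γ) (s : S) :
    A.σ (γ • x) s = Hol.slComp γ⁻¹ (A.σ x s) := by
  induction x using QuotientGroup.induction_on with
  | H g =>
    have : γ • (QuotientGroup.mk g : SL(2, ℤ) ⧸ Γ) = QuotientGroup.mk (γ * g) := rfl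
    rw [this, σ_mk, σ_mk, τ_mul]

lemma σ_injective : Function.Injective A.σ := by
  intro x y hxy
  induction x using QuotientGroup.induction_on with
  | H g =>
    induction y using QuotientGroup.induction_on with
    | H g' =>
      rw [σ_mk, σ_mk] at hxy
      rw [QuotientGroup.eq]
      apply A.sep
      intro s
      have := congrArg (fun f : S →+* Hol => f s) hxy
      exact this

lemma σ_algebraMap (x : SL(2, ℤ) ⧸ Γ) (p : k[X]) : A.σ x (algebraMap k[X] S p) = A.φ p := by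
  rw [σ, τ_apply, ι_algebraMap, slComp_φ]

/-- The `CenterData` of the chart at the point `z₀`. -/
def centerData (z₀ : ℍ) (hφ : Function.Injective A.φ) :
    CenterData k[X] S Hol (SL(2, ℤ) ⧸ Γ) where
  φ := A.φ
  φ_inj := hφ
  σ := A.σ
  σ_inj := A.σ_injective
  σ_φ := A.σ_algebraMap
  w := Hol.ordAt z₀
  w_mul := Hol.ordAt_mul z₀
  w_top := Hol.ordAt_eq_top_iff z₀
  𝔮 := RingHom.ker (Hol.evalAt z₀)
  𝔮_prime := RingHom.ker_isPrime _
  mem_𝔮 := fun x => by
    rw [RingHom.mem_ker, Hol.evalAt_apply, Ne, Hol.ordAt_eq_zero_iff, not_not]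

lemma mem_center_iff (z₀ : ℍ) (hφ : Function.Injective A.φ) (x : SL(2, ℤ) ⧸ Γ) (s : S) :
    s ∈ (A.centerData z₀ hφ).center x ↔ (A.σ x s : ℍ → ℂ) z₀ = 0 := by
  rw [CenterData.center, Ideal.mem_comap]
  exact Iff.rfl

lemma mem_base_iff (z₀ : ℍ) (hφ : Function.Injective A.φ) (p : k[X]) :
    p ∈ (A.centerData z₀ hφ).base ↔ (A.φ p : ℍ → ℂ) z₀ = 0 := by
  rw [CenterData.base, Ideal.mem_comap]
  exact Iff.rfl

lemma base_eq (z₀ : ℍ) (hφ : Function.Injective A.φ) (c : k)
    (hc : (A.J : ℍ → ℂ) z₀ = A.e c) :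
    (A.centerData z₀ hφ).base = Ideal.span {X - C c} := by
  ext p
  rw [mem_base_iff, φ_apply_apply, hc, Polynomial.eval_map, Polynomial.eval₂_at_apply,
    map_eq_zero, Ideal.mem_span_singleton, Polynomial.dvd_iff_isRoot]
  rfl

/-- Elements of the stabiliser of `z₀` preserve centres. -/
lemma center_smul (z₀ : ℍ) (hφ : Function.Injective A.φ) (γ : SL(2, ℤ)) (hγ : γ • z₀ = z₀)
    (x : SL(2, ℤ) ⧸ Γ) :
    (A.centerData z₀ hφ).center (γ • x) = (A.centerData z₀ hφ).center x := by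
  ext s
  rw [mem_center_iff, mem_center_iff, σ_smul, Hol.slComp_apply]
  have : γ⁻¹ • z₀ = z₀ := by
    conv_lhs => rw [← hγ]
    rw [← mul_smul, inv_mul_cancel, one_smul]
  rw [this]

end Chart

section InertiaDeg

universe u

/-- Over an algebraically closed field, primes over `(X - c)` have inertia degree one. -/
lemma inertiaDeg_eq_one_of_isAlgClosed {k : Type u} [Field k] [IsAlgClosed k] (c : k)
    {S : Type*} [CommRing S] [Algebra k[X] S] [Module.Finite k[X] S]
    (P : Ideal S) [P.IsMaximal] [P.LiesOver (Ideal.span {X - C c})] :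
    P.inertiaDeg k[X] = 1 := by
  have : (Ideal.span {X - C c} : Ideal k[X]).IsMaximal :=
    PrincipalIdealRing.isMaximal_of_irreducible (irreducible_X_sub_C c)
  rw [Ideal.inertiaDeg_eq_of_isMaximal (Ideal.span {X - C c}) P]
  let _ := Ideal.Quotient.field (Ideal.span {X - C c} : Ideal k[X])
  let _ := Ideal.Quotient.field P
  have : IsAlgClosed (k[X] ⧸ (Ideal.span {X - C c} : Ideal k[X])) :=
    IsAlgClosed.of_ringEquiv (k := k) _ (quotientSpanXSubCAlgEquiv c).symm.toRingEquiv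
  have hbij := IsAlgClosed.algebraMap_bijective_of_isIntegral
    (k := k[X] ⧸ (Ideal.span {X - C c} : Ideal k[X])) (K := S ⧸ P)
  have e := LinearEquiv.ofBijective
    (Algebra.linearMap (k[X] ⧸ (Ideal.span {X - C c} : Ideal k[X])) (S ⧸ P)) hbij
  rw [← e.finrank_eq, Module.finrank_self]

end InertiaDeg

namespace Chart

universe u

variable {k : Type u} [Field k] [IsAlgClosed k] [CharZero k]
  {S : Type*} [CommRing S] [IsDedekindDomain S] [Algebra k[X] S] [Module.Finite k[X] S]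
  [Module.IsTorsionFree k[X] S]
  {Γ : Subgroup SL(2, ℤ)} (A : Chart k S Γ)

omit [IsAlgClosed k] [CharZero k] [Module.Finite k[X] S] in
lemma φ_injective : Function.Injective A.φ := by
  intro p q h
  apply FaithfulSMul.algebraMap_injective k[X] S
  apply A.ι_inj
  rw [ι_algebraMap, ι_algebraMap, h]

/-- The `CenterData` at `z₀`. -/
abbrev CD (z₀ : ℍ) : CenterData k[X] S Hol (SL(2, ℤ) ⧸ Γ) := A.centerData z₀ A.φ_injective

omit [IsAlgClosed k] [CharZero k] [Module.Finite k[X] S] in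
lemma φ_X_sub_C (c : k) : A.φ (X - C c) = A.J - algebraMap ℂ Hol (A.e c) := by
  rw [φ_apply, Polynomial.eval₂_sub, Polynomial.eval₂_X, Polynomial.eval₂_C]
  rfl

lemma X_sub_C_notMem_sq (c : k) : (X - C c : k[X]) ∉ (Ideal.span {X - C c} : Ideal k[X]) ^ 2 := by
  intro h
  rw [Ideal.span_singleton_pow, Ideal.mem_span_singleton] at h
  obtain ⟨q, hq⟩ := h
  have hirr := irreducible_X_sub_C c
  have h0 : (X - C c : k[X]) ≠ 0 := hirr.ne_zero
  have h1 : (X - C c : k[X]) * 1 = (X - C c) * ((X - C c) * q) := by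
    rw [mul_one]
    conv_lhs => rw [hq]
    ring
  have h2 := mul_left_cancel₀ h0 h1
  exact hirr.not_isUnit (IsUnit.of_mul_eq_one q h2.symm)

section Main

variable [Γ.FiniteIndex] (z₀ : ℍ) (c : k) (hc : (A.J : ℍ → ℂ) z₀ = A.e c)
  (γ₀ : SL(2, ℤ)) (hγ₀ : γ₀ • z₀ = z₀) (ε : ℕ)
  (hε : Hol.ordAt z₀ (A.J - algebraMap ℂ Hol (A.e c)) = ε)
  (hεp : ε = 1 ∨ ε.Prime)
  (hact : ∀ x : SL(2, ℤ) ⧸ Γ, (γ₀ ^ ε) • x = x)
  (hX2 : ∀ (f : Hol) (m : ℕ), Hol.slComp γ₀ f = f → (f : ℍ → ℂ) z₀ = 0 →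
    Hol.ordAt z₀ f = m → ε ∣ m)
  (hrank : Nat.card (SL(2, ℤ) ⧸ Γ) = finrank k[X] S)

include hc in
lemma base_eq' : (A.CD z₀).base = Ideal.span {X - C c} := A.base_eq z₀ _ c hc

include hc in
lemma base_ne_bot : (A.CD z₀).base ≠ ⊥ := by
  rw [A.base_eq' z₀ c hc, Ne, Ideal.span_singleton_eq_bot]
  exact (irreducible_X_sub_C c).ne_zero

include hγ₀ in
lemma center_pow_smul (i : ℕ) (x : SL(2, ℤ) ⧸ Γ) :
    (A.CD z₀).center (γ₀ ^ i • x) = (A.CD z₀).center x := by
  apply A.center_smul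
  induction i with
  | zero => simp
  | succ i ih => rw [pow_succ, mul_smul, hγ₀, ih]

include hγ₀ in
lemma zpow_smul_fixed (n : ℤ) : (γ₀ ^ n) • z₀ = z₀ := by
  have h1 : ∀ m : ℕ, (γ₀ ^ m) • z₀ = z₀ := by
    intro m
    induction m with
    | zero => simp
    | succ m ih => rw [pow_succ, mul_smul, hγ₀, ih]
  rcases Int.eq_nat_or_neg n with ⟨m, rfl | rfl⟩
  · rw [zpow_natCast]; exact h1 m
  · rw [zpow_neg, zpow_natCast]
    conv_lhs => rw [← h1 m]
    rw [← mul_smul, inv_mul_cancel, one_smul]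

include hγ₀ in
lemma center_zpowers_smul (g : Subgroup.zpowers γ₀) (x : SL(2, ℤ) ⧸ Γ) :
    (A.CD z₀).center (g • x) = (A.CD z₀).center x := by
  obtain ⟨g, hg⟩ := g
  obtain ⟨n, rfl⟩ := Subgroup.mem_zpowers_iff.mp hg
  exact A.center_smul z₀ _ (γ₀ ^ n) (zpow_smul_fixed z₀ γ₀ hγ₀ n) x

include hc hε in
/-- `e(P) · ord_{z₀} (σ_x ϖ) = ε` for a uniformizer `ϖ` at `P = center x`. -/
lemma ordAt_mul_ramificationIdx (x : SL(2, ℤ) ⧸ Γ) {ϖ : S} (hϖ : ϖ ∈ (A.CD z₀).center x)
    (hϖ2 : ϖ ∉ (A.CD z₀).center x ^ 2) :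
    Hol.ordAt z₀ (A.σ x ϖ) * (((A.CD z₀).center x).ramificationIdx k[X] : ℕ) = ε := by
  have hb := A.base_eq' z₀ c hc
  have h := (A.CD z₀).w_σ_mul_ramificationIdx (A.base_ne_bot z₀ c hc) x (π := X - C c)
    (by rw [hb]; exact Ideal.mem_span_singleton_self _)
    (by rw [hb]; exact X_sub_C_notMem_sq c) (m := 1) (s := ϖ)
    (by rw [pow_one]; exact hϖ) hϖ2
  have h2 : (A.CD z₀).w ((A.CD z₀).φ (X - C c)) = ε := by
    show Hol.ordAt z₀ (A.φ (X - C c)) = ε
    rw [φ_X_sub_C, hε]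
  rw [h2, Nat.cast_one, one_mul] at h
  exact h

include hc in
lemma isMaximal_of_comap_eq (P : Ideal S) [P.IsPrime]
    (hP : P.comap (algebraMap k[X] S) = (A.CD z₀).base) : P.IsMaximal := by
  apply Ideal.IsPrime.isMaximal inferInstance
  rintro rfl
  apply A.base_ne_bot z₀ c hc
  rw [← hP]
  exact Ideal.comap_bot_of_injective _ (FaithfulSMul.algebraMap_injective k[X] S)

include hc hrank in
/-- The fibre of the centre map over `P` has `e(P)` elements. -/
lemma card_fibre (P : Ideal S) [P.IsPrime]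
    (hP : P.comap (algebraMap k[X] S) = (A.CD z₀).base) :
    Nat.card {y // (A.CD z₀).center y = P} = P.ramificationIdx k[X] := by
  let _ : Fintype (SL(2, ℤ) ⧸ Γ) := Fintype.ofFinite _
  have h := (A.CD z₀).card_center_eq (A.base_ne_bot z₀ c hc)
    (by rw [← hrank, Nat.card_eq_fintype_card]) P hP
  have hlies : P.LiesOver (Ideal.span {X - C c}) :=
    ⟨by rw [← A.base_eq' z₀ c hc, ← hP]⟩
  have hmax : P.IsMaximal := A.isMaximal_of_comap_eq z₀ c hc P hP
  rw [h, inertiaDeg_eq_one_of_isAlgClosed c P, mul_one]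

include hc hγ₀ hε hεp hact hX2 hrank in
/-- Two cosets with the same centre lie in the same `⟨γ₀⟩`-orbit. -/
lemma exists_pow_smul_eq_of_center_eq (x y : SL(2, ℤ) ⧸ Γ)
    (hxy : (A.CD z₀).center y = (A.CD z₀).center x) : ∃ i : ℕ, y = γ₀ ^ i • x := by
  have hPprime : ((A.CD z₀).center x).IsPrime := (A.CD z₀).center_isPrime x
  have hPcomap : ((A.CD z₀).center x).comap (algebraMap k[X] S) = (A.CD z₀).base :=
    (A.CD z₀).comap_center x
  have hP0 : (A.CD z₀).center x ≠ ⊥ := (A.CD z₀).center_ne_bot (A.base_ne_bot z₀ c hc) x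
  obtain ⟨ϖ, hϖ, hϖ2⟩ := Ideal.exists_mem_pow_notMem_pow_succ ((A.CD z₀).center x) hP0
    hPprime.ne_top 1
  rw [pow_one] at hϖ
  have hram := A.ordAt_mul_ramificationIdx z₀ c hc ε hε x hϖ hϖ2
  have hcard := A.card_fibre z₀ c hc hrank ((A.CD z₀).center x) hPcomap
  set e := ((A.CD z₀).center x).ramificationIdx k[X] with he
  have hεpos : 0 < ε := by
    rcases hεp with h | h
    · omega
    · exact h.pos
  have hne : Hol.ordAt z₀ (A.σ x ϖ) ≠ ⊤ := by
    intro htop
    rw [htop] at hram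
    by_cases he0 : e = 0
    · rw [he0] at hram
      simp only [Nat.cast_zero, mul_zero] at hram
      have : ε = 0 := by exact_mod_cast hram.symm
      omega
    · rw [ENat.top_mul (by exact_mod_cast he0)] at hram
      exact ENat.top_ne_natCast _ hram
  obtain ⟨m, hm⟩ : ∃ m : ℕ, Hol.ordAt z₀ (A.σ x ϖ) = m := by
    obtain ⟨m, hm⟩ := ENat.ne_top_iff_exists.mp hne
    exact ⟨m, hm.symm⟩
  rw [hm] at hram
  have hme : m * e = ε := by exact_mod_cast hram
  by_cases hfix : γ₀ • x = x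
  · -- `x` is a fixed coset: `e = 1`
    have hinv : Hol.slComp γ₀ (A.σ x ϖ) = A.σ x ϖ := by
      have h1 := A.σ_smul γ₀ x ϖ
      rw [hfix] at h1
      conv_lhs => rw [h1]
      rw [← Hol.slComp_mul, inv_mul_cancel, Hol.slComp_one]
    have hz : (A.σ x ϖ : ℍ → ℂ) z₀ = 0 := (A.mem_center_iff z₀ _ x ϖ).mp hϖ
    obtain ⟨t, rfl⟩ := hX2 _ m hinv hz hm
    have hte : t * e = 1 := by
      apply Nat.eq_of_mul_eq_mul_left hεpos
      rw [mul_one, ← mul_assoc]
      exact hme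
    have he1 : e = 1 := Nat.eq_one_of_mul_eq_one_left hte
    refine ⟨0, ?_⟩
    rw [pow_zero, one_smul]
    rw [he1] at hcard
    have hsub := (Nat.card_eq_one_iff_unique.mp hcard).1
    have := hsub.elim ⟨y, hxy⟩ ⟨x, rfl⟩
    exact congrArg Subtype.val this
  · -- `x` is not fixed: the orbit has `ε` elements
    have hε1 : ε ≠ 1 := by
      rintro rfl
      exact hfix (by simpa using hact x)
    have hprime : ε.Prime := hεp.resolve_left hε1
    have hedvd : e ∣ ε := ⟨m, by rw [← hme]; ring⟩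
    have hele : e ≤ ε := Nat.le_of_dvd hεpos hedvd
    let f : (SL(2, ℤ) ⧸ Γ) → (SL(2, ℤ) ⧸ Γ) := fun y => γ₀ • y
    have hiter : ∀ (n : ℕ) (y : SL(2, ℤ) ⧸ Γ), f^[n] y = γ₀ ^ n • y := by
      intro n y
      show (fun y => γ₀ • y)^[n] y = γ₀ ^ n • y
      rw [smul_iterate]
    have hper : Function.IsPeriodicPt f ε x := by
      show f^[ε] x = x
      rw [hiter]
      exact hact x
    have hmin : Function.minimalPeriod f x = ε := by
      rcases (Nat.dvd_prime hprime).mp hper.minimalPeriod_dvd with h | h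
      · exfalso
        apply hfix
        exact Function.minimalPeriod_eq_one_iff_isFixedPt.mp h
      · exact h
    let Φ : Fin ε → {y // (A.CD z₀).center y = (A.CD z₀).center x} := fun i =>
      ⟨γ₀ ^ (i : ℕ) • x, A.center_pow_smul z₀ γ₀ hγ₀ i x⟩
    have hΦinj : Function.Injective Φ := by
      intro i j hij
      have h1 : γ₀ ^ (i : ℕ) • x = γ₀ ^ (j : ℕ) • x := congrArg Subtype.val hij
      rw [← hiter, ← hiter] at h1
      have := (Function.iterate_eq_iterate_iff_of_lt_minimalPeriod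
        (by rw [hmin]; exact i.2) (by rw [hmin]; exact j.2)).mp h1
      exact Fin.ext this
    have hΦbij : Function.Bijective Φ := by
      apply Function.Injective.bijective_of_nat_card_le hΦinj
      rw [hcard, Nat.card_fin]
      exact hele
    obtain ⟨i, hi⟩ := hΦbij.2 ⟨y, hxy⟩
    exact ⟨i, (congrArg Subtype.val hi).symm⟩

include hc hγ₀ hε hεp hact hX2 hrank in
/-- **The finite-point dictionary**: the primes of `S` containing `X - c` are in bijection with the
`⟨γ₀⟩`-orbits on `SL(2,ℤ) ⧸ Γ`. -/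
theorem card_primes_over :
    Nat.card {P : Ideal S // P.IsPrime ∧ algebraMap k[X] S (X - C c) ∈ P} =
      Nat.card (MulAction.orbitRel.Quotient (Subgroup.zpowers γ₀) (SL(2, ℤ) ⧸ Γ)) := by
  symm
  have hb := A.base_eq' z₀ c hc
  have hmem : ∀ x : SL(2, ℤ) ⧸ Γ, algebraMap k[X] S (X - C c) ∈ (A.CD z₀).center x := by
    intro x
    rw [← Ideal.mem_comap, (A.CD z₀).comap_center x, hb]
    exact Ideal.mem_span_singleton_self _
  let Ψ : MulAction.orbitRel.Quotient (Subgroup.zpowers γ₀) (SL(2, ℤ) ⧸ Γ) →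
      {P : Ideal S // P.IsPrime ∧ algebraMap k[X] S (X - C c) ∈ P} :=
    Quotient.lift (fun x => ⟨(A.CD z₀).center x, (A.CD z₀).center_isPrime x, hmem x⟩) (by
      intro a b hab
      obtain ⟨g, hg⟩ := hab
      apply Subtype.ext
      show (A.CD z₀).center a = (A.CD z₀).center b
      rw [← hg]
      exact A.center_zpowers_smul z₀ γ₀ hγ₀ g b)
  have hΨ : ∀ x, Ψ (Quotient.mk _ x) =
      ⟨(A.CD z₀).center x, (A.CD z₀).center_isPrime x, hmem x⟩ := fun _ => rfl
  apply Nat.card_congr (Equiv.ofBijective Ψ ⟨?_, ?_⟩)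
  · intro a b
    induction a using Quotient.inductionOn with
    | h x =>
      induction b using Quotient.inductionOn with
      | h y =>
        intro hab
        rw [hΨ, hΨ] at hab
        have hxy : (A.CD z₀).center y = (A.CD z₀).center x := (congrArg Subtype.val hab).symm
        obtain ⟨i, hi⟩ := A.exists_pow_smul_eq_of_center_eq z₀ c hc γ₀ hγ₀ ε hε hεp hact hX2 hrank
          x y hxy
        symm
        apply Quotient.sound
        exact ⟨⟨γ₀ ^ i, Subgroup.pow_mem _ (Subgroup.mem_zpowers γ₀) i⟩, hi.symm⟩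
  · rintro ⟨P, hPprime, hPmem⟩
    have hmaxb : (Ideal.span {X - C c} : Ideal k[X]).IsMaximal :=
      PrincipalIdealRing.isMaximal_of_irreducible (irreducible_X_sub_C c)
    have hPcomap : P.comap (algebraMap k[X] S) = (A.CD z₀).base := by
      rw [hb]
      symm
      apply hmaxb.eq_of_le (Ideal.comap_ne_top _ hPprime.ne_top)
      rw [Ideal.span_le, Set.singleton_subset_iff]
      exact hPmem
    have hcard := A.card_fibre z₀ c hc hrank P hPcomap
    have hpos : 0 < P.ramificationIdx k[X] := Ideal.ramificationIdx_pos P k[X]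
    have hne : Nonempty {y // (A.CD z₀).center y = P} := by
      have hfin : Finite {y // (A.CD z₀).center y = P} := inferInstance
      exact (Nat.card_pos_iff.mp (by rw [hcard]; exact hpos)).1
    obtain ⟨x, hx⟩ := hne
    exact ⟨Quotient.mk _ x, by rw [hΨ]; exact Subtype.ext hx⟩

end Main

end Chart

end Fermat.Agent.ProgramR.OrbitDict
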