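/-
Program R: the finite-point dictionary specialised to `J = jInv`.

For a chart `A : Chart k S Γ` with `A.J = jHol` (Klein's `j` as an element of `Hol`), `-1 ∈ Γ` and
`rank S = [SL(2,ℤ) : Γ]`:
* `card_primes_over_generic`: over `c` with `e c ∉ {0, 1728}` there are `[SL(2,ℤ) : Γ]` primes;
* `card_primes_over_1728`: over `c` with `e c = 1728` the primes correspond to `⟨S⟩`-orbits;
* `card_primes_over_zero`: over `c` with `e c = 0` the primes correspond to `⟨ST⟩`-orbits.
-/
import Mathlib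
import Fermat.Agent.ProgramR.Analytic.OrbitDict
import Fermat.Agent.ProgramR.Analytic.Elliptic
import Fermat.Agent.ProgramR.LevelOne.Zeros

set_option autoImplicit false
set_option linter.unusedSectionVars false

noncomputable section

namespace Fermat.Agent.ProgramR.OrbitDict

open UpperHalfPlane Polynomial Module ModularGroup
open scoped MatrixGroups
open Fermat.Agent.ProgramR.LevelOne

/-- Klein's `j` as an element of `Hol`. -/
def jHol : Hol := ⟨jInv, mdifferentiable_jInv⟩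

@[simp] lemma jHol_apply (z : ℍ) : (jHol : ℍ → ℂ) z = jInv z := rfl

lemma slComp_jHol (γ : SL(2, ℤ)) : Hol.slComp γ jHol = jHol := by
  apply Hol.ext
  intro z
  rw [Hol.slComp_apply, jHol_apply, jHol_apply, jInv_smul]

lemma ordAt_jHol_sub (z : ℍ) :
    Hol.ordAt z (jHol - algebraMap ℂ Hol (jInv z)) = jOrder z := by
  rw [← analyticOrderAt_jInv_sub z]
  rfl

lemma jOrder_of_ne {z : ℍ} (h0 : jInv z ≠ 0) (h1 : jInv z ≠ 1728) : jOrder z = 1 := by
  unfold jOrder
  rw [if_neg (fun h => h0 ((jInv_eq_zero_iff z).mpr h)),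
    if_neg (fun h => h1 ((jInv_eq_1728_iff z).mpr h))]

lemma jOrder_I : jOrder UpperHalfPlane.I = 2 := by
  unfold jOrder
  rw [if_neg (E₄_ne_zero_of_E₆_eq_zero E₆_I), if_pos E₆_I]

lemma jOrder_ρ : jOrder ρ = 3 := by
  unfold jOrder
  rw [if_pos E₄_ρ]

/-- The orbits of the trivial group are points. -/
lemma card_orbits_zpowers_one {G X : Type*} [Group G] [MulAction G X] :
    Nat.card (MulAction.orbitRel.Quotient (Subgroup.zpowers (1 : G)) X) = Nat.card X := by
  symm
  refine Nat.card_congr (Equiv.ofBijective (Quotient.mk _) ⟨?_, Quotient.mk_surjective⟩)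
  intro x y hxy
  obtain ⟨⟨g, hg⟩, hgx⟩ := Quotient.exact hxy
  rw [Subgroup.zpowers_one_eq_bot, Subgroup.mem_bot] at hg
  subst hg
  have : (1 : G) • y = x := hgx
  rw [one_smul] at this
  exact this.symm

lemma neg_one_smul_coset {Γ : Subgroup SL(2, ℤ)} (hneg : (-1 : SL(2, ℤ)) ∈ Γ)
    (x : SL(2, ℤ) ⧸ Γ) : (-1 : SL(2, ℤ)) • x = x := by
  induction x using QuotientGroup.induction_on with
  | H g =>
    show (QuotientGroup.mk ((-1 : SL(2, ℤ)) * g) : SL(2, ℤ) ⧸ Γ) = QuotientGroup.mk g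
    rw [QuotientGroup.eq]
    have : ((-1 : SL(2, ℤ)) * g)⁻¹ * g = -1 := by
      rw [_root_.mul_inv_rev]
      have h : (-1 : SL(2, ℤ))⁻¹ = -1 := by
        rw [inv_eq_iff_mul_eq_one]
        simp
      rw [h, mul_assoc]
      simp
    rw [this]
    exact hneg

namespace Chart

universe u

variable {k : Type u} [Field k] [IsAlgClosed k] [CharZero k]
  {B : Type*} [CommRing B] [IsDedekindDomain B] [Algebra k[X] B] [Module.Finite k[X] B]
  [Module.IsTorsionFree k[X] B]
  {Γ : Subgroup SL(2, ℤ)} [Γ.FiniteIndex] (A : Chart k B Γ) (hJ : A.J = jHol)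
  (hrank : Nat.card (SL(2, ℤ) ⧸ Γ) = finrank k[X] B)

include hJ hrank in
/-- Over a generic point there are `[SL(2,ℤ) : Γ]` primes. -/
theorem card_primes_over_generic (c : k) (h0 : A.e c ≠ 0) (h1 : A.e c ≠ 1728) :
    Nat.card {P : Ideal B // P.IsPrime ∧ algebraMap k[X] B (X - C c) ∈ P} =
      Nat.card (SL(2, ℤ) ⧸ Γ) := by
  obtain ⟨z₀, hz₀⟩ := jInv_surjective (A.e c)
  have hc : (A.J : ℍ → ℂ) z₀ = A.e c := by rw [hJ]; exact hz₀
  refine (A.card_primes_over z₀ c hc 1 (one_smul _ _) 1 ?_ (Or.inl rfl) (fun x => by simp)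
    (fun f m _ _ _ => one_dvd m) hrank).trans card_orbits_zpowers_one
  rw [hJ, ← hz₀, ordAt_jHol_sub, jOrder_of_ne (by rw [hz₀]; exact h0) (by rw [hz₀]; exact h1)]

include hJ hrank in
/-- Over `j = 1728` the primes correspond to the `⟨S⟩`-orbits on the cosets. -/
theorem card_primes_over_1728 (hneg : (-1 : SL(2, ℤ)) ∈ Γ) (c : k) (h1 : A.e c = 1728) :
    Nat.card {P : Ideal B // P.IsPrime ∧ algebraMap k[X] B (X - C c) ∈ P} =
      Nat.card (MulAction.orbitRel.Quotient (Subgroup.zpowers (S : SL(2, ℤ))) (SL(2, ℤ) ⧸ Γ)) := by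
  have hz₀ : jInv UpperHalfPlane.I = A.e c := by rw [h1]; exact jInv_I
  have hc : (A.J : ℍ → ℂ) UpperHalfPlane.I = A.e c := by rw [hJ]; exact hz₀
  have hfix : (S : SL(2, ℤ)) • UpperHalfPlane.I = UpperHalfPlane.I := by
    have : S ∈ MulAction.stabilizer SL(2, ℤ) UpperHalfPlane.I := by
      rw [stabilizer_I_eq_zpowers]; exact Subgroup.mem_zpowers S
    exact this
  refine A.card_primes_over UpperHalfPlane.I c hc S hfix 2 ?_ (Or.inr Nat.prime_two) ?_ ?_ hrank
  · rw [hJ, ← hz₀, ordAt_jHol_sub, jOrder_I]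
  · intro x
    rw [S_sq]
    exact neg_one_smul_coset hneg x
  · intro f m hf hz hm
    refine Hol.two_dvd_of_fixed f S UpperHalfPlane.I hfix S_sq hf (m := m) ?_
    rw [hz, map_zero, sub_zero]
    exact hm

include hJ hrank in
/-- Over `j = 0` the primes correspond to the `⟨ST⟩`-orbits on the cosets. -/
theorem card_primes_over_zero (hneg : (-1 : SL(2, ℤ)) ∈ Γ) (c : k) (h0 : A.e c = 0) :
    Nat.card {P : Ideal B // P.IsPrime ∧ algebraMap k[X] B (X - C c) ∈ P} =
      Nat.card (MulAction.orbitRel.Quotient (Subgroup.zpowers (S * T : SL(2, ℤ)))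
        (SL(2, ℤ) ⧸ Γ)) := by
  have hz₀ : jInv ρ = A.e c := by rw [h0]; exact jInv_ρ
  have hc : (A.J : ℍ → ℂ) ρ = A.e c := by rw [hJ]; exact hz₀
  have hfix : (S * T : SL(2, ℤ)) • ρ = ρ := by
    have : S * T ∈ MulAction.stabilizer SL(2, ℤ) ρ := by
      rw [stabilizer_ρ_eq_zpowers]; exact Subgroup.mem_zpowers _
    exact this
  refine A.card_primes_over ρ c hc (S * T) hfix 3 ?_ (Or.inr Nat.prime_three) ?_ ?_ hrank
  · rw [hJ, ← hz₀, ordAt_jHol_sub, jOrder_ρ]
  · intro x
    rw [ST_pow_three]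
    exact neg_one_smul_coset hneg x
  · intro f m hf hz hm
    refine Hol.three_dvd_of_fixed f (S * T) ρ hfix (Or.inr ST_pow_three) (by decide) (by decide)
      hf (m := m) ?_
    rw [hz, map_zero, sub_zero]
    exact hm

end Chart

end Fermat.Agent.ProgramR.OrbitDict
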